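/-
S36, block [R3], leaf (R3-G) (helper3): **the generator glue at a closed point lying on ONE vertical
component** (the points of `C11` off the crossings; also usable for `C20`, `C02` with `e = 1`).

Abstract part (`B` = the local ring `R_x ⊆ F`, `V ⊇ B` the only vertical valuation ring through `x`,
`ϖ ∈ B` the image of `q`, `τ ∈ B` the candidate generator `Π_φ`, `e = q - 1`):

* `Sat V ϖ` : local saturation `B[1/ϖ] ∩ V = B` (one step);
* `exists_unit_pow_eq` : `w := τ ^ e / ϖ ∈ V` whose residue has an inverse coming from `B`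
  is a UNIT of `B` (`w ∈ B` FIRST, by saturation; THEN `w̄(x₀) ≠ 0`);
* `centre_eq_span`, `prime_of_generator` : `B ∩ 𝔪_V = τ B`, `τ` is a prime element;
* `regular_of_generator` : if moreover `B / (B ∩ 𝔪_V)` lies between a discrete valuation ring `D` and
  its fraction field (and `B ∩ 𝔪_V ≠ 𝔪_B`), then `B` is factorial, `B / (B ∩ 𝔪_V)` is a principal ideal
  ring and `𝔪_B = (τ, s)` — the hypotheses (R-a), (R-b) of block [L] at `x`.

Chart part (`R` a chart, `V i` finitely many valuation rings of `F = Frac R` containing `R`):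

* `sat_locAt_one` : the global saturation `R ∩ ϖ (⋂ V i) = ϖ R` (the shape of
  `P3G.Cover.Lift.IsSemiGaussRing.sat`, NO reducedness of the special fibre) gives `Sat (V i₀) ϖ` on
  `R_𝔫` as soon as `V i₀` is the only `V i` centred in `𝔫` (the other `V i` archimedean);
* `regular_at_point` : the combination, for `B = locAt 𝔫`.
-/
import Mathlib
import Fermat.Agent.P3G.KrullChart
import Fermat.Agent.P4.TwoValApprox
import Fermat.Agent.S36.Local.LocalRoot
import Fermat.Agent.S36.R2.TripleAbstract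

set_option autoImplicit false
set_option linter.unusedSectionVars false
set_option linter.style.haveILetI false

namespace Fermat.Agent.S36.R3.Generator

open Fermat.Agent.N4.Cover.Globalize Fermat.Agent.P3G.Krull
open Fermat.Agent.S36.Local.LocalRoot
open Fermat.Agent.S36.R2.TripleAbstract

/-! ### Valuation-theoretic preliminaries -/

section Val

variable {F : Type*} [Field F]

/-- An element of `V` invertible modulo `𝔪_V` has valuation `1`. -/
theorem valuation_eq_one_of_mul_sub_one (V : ValuationSubring F) {x w' : F} (hx : x ∈ V)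
    (hw' : w' ∈ V) (h : x * w' - 1 ∈ V.nonunits) : V.valuation x = 1 := by
  have h1 : V.valuation (x * w' - 1) < 1 := (V.mem_nonunits_iff).1 h
  have h2 : V.valuation (x * w') = 1 := by
    have h3 : V.valuation (x * w' - 1) < V.valuation (1 : F) := by rw [map_one]; exact h1
    have := Valuation.map_add_eq_of_lt_right V.valuation h3
    rw [sub_add_cancel, map_one] at this
    exact this
  rw [map_mul] at h2
  have hxle : V.valuation x ≤ 1 := (V.valuation_le_one_iff x).2 hx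
  have hwle : V.valuation w' ≤ 1 := (V.valuation_le_one_iff w').2 hw'
  by_contra hne
  have hlt : V.valuation x < 1 := lt_of_le_of_ne hxle hne
  have : V.valuation x * V.valuation w' < 1 := by
    calc V.valuation x * V.valuation w' ≤ V.valuation x * 1 := by gcongr
      _ = V.valuation x := mul_one _
      _ < 1 := hlt
  rw [h2] at this
  exact lt_irrefl _ this

/-- **Transfer of uniformisers.**  If `τ₀` is a uniformiser of `V` with `ϖ = u τ₀ ^ e`, `u ∈ Vˣ`, and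
`τ ^ e / ϖ` is a unit of `V` (its residue has an inverse), then `τ` is a uniformiser of `V` too. -/
theorem unif_of_unif (V : ValuationSubring F) {τ₀ τ ϖ u : F} {e : ℕ} (he : 0 < e)
    (hτ₀ : ∀ x ∈ V.nonunits, x * τ₀⁻¹ ∈ V) (hu : u ∈ V) (hui : u⁻¹ ∈ V) (hϖ : ϖ = u * τ₀ ^ e)
    (hϖ0 : ϖ ≠ 0) (hpow : τ ^ e * ϖ⁻¹ ∈ V)
    (hinv : ∃ w' ∈ V, τ ^ e * ϖ⁻¹ * w' - 1 ∈ V.nonunits) :
    ∀ x ∈ V.nonunits, x * τ⁻¹ ∈ V := by
  obtain ⟨w', hw', hww⟩ := hinv
  have h1 := valuation_eq_one_of_mul_sub_one V hpow hw' hww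
  have hu0 : u ≠ 0 := by
    rintro rfl
    rw [zero_mul] at hϖ
    exact hϖ0 hϖ
  have hvu : V.valuation u = 1 := by
    have h2 : V.valuation u ≤ 1 := (V.valuation_le_one_iff u).2 hu
    have h3 : V.valuation u⁻¹ ≤ 1 := (V.valuation_le_one_iff _).2 hui
    rw [map_inv₀] at h3
    have hv0 : V.valuation u ≠ 0 := (map_ne_zero _).2 hu0
    have h4 : 1 ≤ V.valuation u := by
      rwa [inv_le_one₀ (zero_lt_iff.2 hv0)] at h3
    exact le_antisymm h2 h4
  have hvϖ : V.valuation ϖ = V.valuation τ₀ ^ e := by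
    rw [hϖ, map_mul, hvu, one_mul, map_pow]
  have hvϖ0 : V.valuation ϖ ≠ 0 := (map_ne_zero _).2 hϖ0
  have hpe : V.valuation τ ^ e = V.valuation τ₀ ^ e := by
    rw [map_mul, map_pow, map_inv₀] at h1
    rw [← hvϖ]
    calc V.valuation τ ^ e = V.valuation τ ^ e * (V.valuation ϖ)⁻¹ * V.valuation ϖ := by
          rw [mul_assoc, inv_mul_cancel₀ hvϖ0, mul_one]
      _ = V.valuation ϖ := by rw [h1, one_mul]
  have hτe : V.valuation τ = V.valuation τ₀ :=
    (pow_left_inj₀ zero_le zero_le he.ne').1 hpe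
  intro x hx
  have := hτ₀ x hx
  rw [← V.valuation_le_one_iff] at this ⊢
  rwa [map_mul, map_inv₀, hτe, ← map_inv₀, ← map_mul]

end Val

/-! ### The abstract generator theorem -/

section Abstract

variable {B F : Type*} [CommRing B] [IsDomain B] [Field F] [Algebra B F] [IsFractionRing B F]

/-- Local saturation: `y ∈ V` and `ϖ y ∈ B` imply `y ∈ B`. -/
def Sat (V : ValuationSubring F) (ϖ : B) : Prop :=
  ∀ y : F, y ∈ V → ∀ b : B, algebraMap B F b = algebraMap B F ϖ * y →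
    ∃ c : B, algebraMap B F c = y

theorem ne_zero_F {b : B} (hb : b ≠ 0) : algebraMap B F b ≠ 0 := fun h =>
  hb (IsFractionRing.injective B F (by rw [h, map_zero]))

/-- An element of `B` whose quotient by `ϖ` lies in `V` is divisible by `ϖ` in `B`. -/
theorem Sat.exists_eq_mul {V : ValuationSubring F} {ϖ : B} (hsat : Sat V ϖ) (hϖ0 : ϖ ≠ 0) (b : B)
    (h : algebraMap B F b * (algebraMap B F ϖ)⁻¹ ∈ V) : ∃ c : B, b = ϖ * c := by
  have hϖF : algebraMap B F ϖ ≠ 0 := ne_zero_F hϖ0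
  obtain ⟨c, hc⟩ := hsat _ h b (by
    rw [mul_comm (algebraMap B F b), ← mul_assoc, mul_inv_cancel₀ hϖF, one_mul])
  refine ⟨c, IsFractionRing.injective B F ?_⟩
  rw [map_mul, hc, mul_comm (algebraMap B F b), ← mul_assoc, mul_inv_cancel₀ hϖF, one_mul]

variable [IsLocalRing B]

/-- **`w = τ ^ e / ϖ` is a unit of `B`**: it lies in `B` by saturation, and it is a unit because its
residue on `V` has an inverse coming from `B`. -/
theorem exists_unit_pow_eq (V : ValuationSubring F) (hV : ∀ b : B, algebraMap B F b ∈ V) {ϖ τ : B}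
    (hϖ0 : ϖ ≠ 0) (hsat : Sat V ϖ) (e : ℕ)
    (hpow : algebraMap B F τ ^ e * (algebraMap B F ϖ)⁻¹ ∈ V)
    (hinv : ∃ w' : B,
      algebraMap B F τ ^ e * (algebraMap B F ϖ)⁻¹ * algebraMap B F w' - 1 ∈ V.nonunits) :
    ∃ w : B, IsUnit w ∧ τ ^ e = ϖ * w := by
  have hϖF : algebraMap B F ϖ ≠ 0 := ne_zero_F hϖ0
  obtain ⟨w, hw⟩ := hsat.exists_eq_mul hϖ0 (τ ^ e) (by rw [map_pow]; exact hpow)
  refine ⟨w, ?_, hw⟩
  obtain ⟨w', hw'⟩ := hinv
  have hwF : algebraMap B F w = algebraMap B F τ ^ e * (algebraMap B F ϖ)⁻¹ := by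
    rw [← map_pow, hw, map_mul, mul_comm (algebraMap B F ϖ), mul_assoc, mul_inv_cancel₀ hϖF,
      mul_one]
  have hmem : w * w' - 1 ∈ centre V hV := by
    rw [mem_centre, map_sub, map_mul, map_one, hwF]
    exact hw'
  have hmax : w * w' - 1 ∈ IsLocalRing.maximalIdeal B := centre_le_maximalIdeal V hV hmem
  have hu : IsUnit (w * w') := by
    by_contra hnu
    have h1 : w * w' ∈ IsLocalRing.maximalIdeal B := (IsLocalRing.mem_maximalIdeal _).2 hnu
    have h2 : (1 : B) ∈ IsLocalRing.maximalIdeal B := by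
      have : (1 : B) = w * w' - (w * w' - 1) := by ring
      rw [this]
      exact Ideal.sub_mem _ h1 hmax
    exact (IsLocalRing.maximalIdeal.isMaximal B).ne_top ((Ideal.eq_top_iff_one _).2 h2)
  exact isUnit_of_mul_isUnit_left hu

/-- **The centre of `V` on `B` is generated by `τ`.** -/
theorem centre_eq_span (V : ValuationSubring F) (hV : ∀ b : B, algebraMap B F b ∈ V) {ϖ τ : B}
    (hϖ0 : ϖ ≠ 0) (hsat : Sat V ϖ) {e : ℕ} (he : 0 < e)
    (hτ : algebraMap B F τ ∈ V.nonunits)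
    (hunif : ∀ x ∈ V.nonunits, x * (algebraMap B F τ)⁻¹ ∈ V)
    {w : B} (hwu : IsUnit w) (hw : τ ^ e = ϖ * w) : centre V hV = Ideal.span {τ} := by
  have hϖF : algebraMap B F ϖ ≠ 0 := ne_zero_F hϖ0
  have hτ0 : τ ≠ 0 := by
    rintro rfl
    rw [zero_pow he.ne'] at hw
    exact (mul_ne_zero hϖ0 hwu.ne_zero) hw.symm
  have hτF : algebraMap B F τ ≠ 0 := ne_zero_F hτ0
  refine le_antisymm ?_ ((Ideal.span_singleton_le_iff_mem _).2 hτ)
  intro r hr
  rw [mem_centre] at hr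
  obtain ⟨u, rfl⟩ := hwu
  obtain ⟨e', rfl⟩ : ∃ e', e = e' + 1 := ⟨e - 1, by omega⟩
  have huF : algebraMap B F (u : B) * algebraMap B F ((u⁻¹ : Bˣ) : B) = 1 := by
    rw [← map_mul, Units.mul_inv, map_one]
  have hpowF : algebraMap B F τ ^ (e' + 1) = algebraMap B F ϖ * algebraMap B F (u : B) := by
    rw [← map_pow, hw, map_mul]
  obtain ⟨c, hc⟩ := hsat _ (hunif _ hr) (τ ^ e' * ((u⁻¹ : Bˣ) : B) * r) (by
    rw [map_mul, map_mul, map_pow]
    have h1 : algebraMap B F ϖ =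
        algebraMap B F τ ^ (e' + 1) * algebraMap B F ((u⁻¹ : Bˣ) : B) := by
      rw [hpowF, mul_assoc, huF, mul_one]
    rw [h1, pow_succ]
    field_simp)
  rw [Ideal.mem_span_singleton]
  refine ⟨c, IsFractionRing.injective B F ?_⟩
  rw [map_mul, hc, mul_comm (algebraMap B F r), ← mul_assoc, mul_inv_cancel₀ hτF, one_mul]

/-- `τ` is a prime element of `B`. -/
theorem prime_of_generator (V : ValuationSubring F) (hV : ∀ b : B, algebraMap B F b ∈ V) {ϖ τ : B}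
    (hϖ0 : ϖ ≠ 0) (hsat : Sat V ϖ) {e : ℕ} (he : 0 < e)
    (hτ : algebraMap B F τ ∈ V.nonunits)
    (hunif : ∀ x ∈ V.nonunits, x * (algebraMap B F τ)⁻¹ ∈ V)
    {w : B} (hwu : IsUnit w) (hw : τ ^ e = ϖ * w) : Prime τ := by
  have hτ0 : τ ≠ 0 := by
    rintro rfl
    rw [zero_pow he.ne'] at hw
    exact (mul_ne_zero hϖ0 hwu.ne_zero) hw.symm
  rw [← Ideal.span_singleton_prime hτ0, ← centre_eq_span V hV hϖ0 hsat he hτ hunif hwu hw]
  infer_instance

/-- **(R3-G), abstract form.**  `B` a noetherian integrally closed local domain, `V ⊇ B` a valuation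
ring of `Frac B` with `B[1/ϖ] ∩ V = B`, `τ ∈ B` a uniformiser of `V` with `τ ^ e / ϖ ∈ V` of
invertible residue (inverse from `B`), and `B / (B ∩ 𝔪_V)` between a discrete valuation ring `D` and
its fraction field, `B ∩ 𝔪_V ≠ 𝔪_B`.  Then `B` is regular: `B ∩ 𝔪_V = τ B`, `𝔪_B = (τ, s)`,
`B` is factorial and `B / (B ∩ 𝔪_V)` is a principal ideal ring. -/
theorem regular_of_generator [IsNoetherianRing B] [IsIntegrallyClosed B] {κ : Type*} [Field κ]
    (V : ValuationSubring F) (hV : ∀ b : B, algebraMap B F b ∈ V) {ϖ τ : B}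
    (hϖ0 : ϖ ≠ 0) (hsat : Sat V ϖ) {e : ℕ} (he : 0 < e)
    (hτ : algebraMap B F τ ∈ V.nonunits)
    (hunif : ∀ x ∈ V.nonunits, x * (algebraMap B F τ)⁻¹ ∈ V)
    (hpow : algebraMap B F τ ^ e * (algebraMap B F ϖ)⁻¹ ∈ V)
    (hinv : ∃ w' : B,
      algebraMap B F τ ^ e * (algebraMap B F ϖ)⁻¹ * algebraMap B F w' - 1 ∈ V.nonunits)
    (res : B →+* κ) (hker : RingHom.ker res = centre V hV) (D : Subring κ)
    [IsDiscreteValuationRing D] (hD : ∀ d ∈ D, ∃ b : B, res b = d)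
    (hfrac : ∀ b : B, ∃ d₁ ∈ D, ∃ d₂ ∈ D, d₂ ≠ 0 ∧ res b * d₂ = d₁)
    (hnm : ∃ r : B, ¬ IsUnit r ∧ r ∉ centre V hV) :
    UniqueFactorizationMonoid B ∧ IsPrincipalIdealRing (B ⧸ centre V hV) ∧
      centre V hV = Ideal.span {τ} ∧ Prime τ ∧
      (∃ w : B, IsUnit w ∧ τ ^ e = ϖ * w) ∧
      ∃ s : B, IsLocalRing.maximalIdeal B = Ideal.span {τ, s} := by
  obtain ⟨w, hwu, hw⟩ := exists_unit_pow_eq V hV hϖ0 hsat e hpow hinv
  have hc := centre_eq_span V hV hϖ0 hsat he hτ hunif hwu hw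
  have hp := prime_of_generator V hV hϖ0 hsat he hτ hunif hwu hw
  have hdata : ResData (R := B) (B := B) τ res D :=
    { ker_eq := by rw [hker, hc]; rfl
      le_range := hD
      frac := hfrac
      not_max := by
        obtain ⟨r, hr, hrc⟩ := hnm
        exact ⟨r, hr, by rw [← hc]; exact hrc⟩ }
  have hpid : IsPrincipalIdealRing (B ⧸ Ideal.span {τ}) :=
    hdata.isPrincipalIdealRing hp.ne_zero hp.not_isUnit
  refine ⟨Fermat.Agent.N4.Cover.LocalUFD.uniqueFactorizationMonoid hp hpid, ?_, hc, hp,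
    ⟨w, hwu, hw⟩, ?_⟩
  · rw [hc]; exact hpid
  · exact hdata.exists_maximalIdeal_eq hp.ne_zero hp.not_isUnit

end Abstract

/-! ### At a point of a chart -/

section Chart

open Fermat.Agent.P4.TwoValApprox Fermat.Agent.P3G.KrullChart

variable {R F : Type*} [CommRing R] [IsDomain R] [IsNoetherianRing R] [Field F] [Algebra R F]
  [IsFractionRing R F]
variable {ι : Type*} [Finite ι] (V : ι → ValuationSubring F)
  (hV : ∀ i (r : R), algebraMap R F r ∈ V i)

/-- **Local saturation from the global one.**  If `R ∩ ϖ (⋂ V i) = ϖ R` (no reducedness), the `V i`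
are archimedean and `V i₀` is the only one centred in the prime `𝔫`, then
`R_𝔫[1/ϖ] ∩ V i₀ = R_𝔫`. -/
theorem sat_locAt_one {ϖ : R} (hϖ0 : ϖ ≠ 0)
    (hsat : ∀ r : R, (∃ y : F, (∀ i, y ∈ V i) ∧ algebraMap R F r = algebraMap R F ϖ * y) → ϖ ∣ r)
    (hA : ∀ i, IsArch (V i)) (𝔫 : Ideal R) [h𝔫 : 𝔫.IsPrime] (i₀ : ι)
    (honly : ∀ i, vCentre (V i) (hV i) ≤ 𝔫 → i = i₀) :
    Sat (B := locAt (F := F) 𝔫) (V i₀) (algebraMap R (locAt (F := F) 𝔫) ϖ) := by
  classical
  haveI := Fintype.ofFinite ι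
  intro y hy b hb
  have hϖF : algebraMap R F ϖ ≠ 0 := Fermat.Agent.P3G.Krull.algebraMap_ne_zero hϖ0
  have hb' : (b : F) = algebraMap R F ϖ * y := hb
  obtain ⟨a, t, ht, hbt⟩ := (mem_locAt_iff 𝔫 (b : F)).1 b.2
  -- elements outside `𝔫` killing the poles of `y` on the components missing `𝔫`
  have hex : ∀ i, ∃ c : R, c ∉ 𝔫 ∧ (i ≠ i₀ → algebraMap R F c * y ∈ V i) := by
    intro i
    by_cases hi : i = i₀
    · exact ⟨1, fun h => h𝔫.ne_top ((Ideal.eq_top_iff_one _).2 h), fun h => absurd hi h⟩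
    · have hnle : ¬ vCentre (V i) (hV i) ≤ 𝔫 := fun h => hi (honly i h)
      obtain ⟨c, hc, hcn⟩ := Set.not_subset.1 hnle
      have hc' : algebraMap R F c ∈ (V i).nonunits := (mem_vCentre_iff (V i) (hV i)).1 hc
      obtain ⟨n, hn⟩ := hA i y (algebraMap R F c) hc'
      refine ⟨c ^ n, fun h => hcn (h𝔫.mem_of_pow_mem n h), fun _ => ?_⟩
      rw [map_pow, mul_comm]
      exact (V i).nonunits_subset (hn n le_rfl)
  choose c hc hc' using hex
  set C : R := ∏ i, c i with hC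
  have hCn : C ∉ 𝔫 := by
    intro h
    obtain ⟨i, -, hi⟩ := (Ideal.IsPrime.prod_mem_iff (hp := h𝔫)).1 h
    exact hc i hi
  have hmem : ∀ i, algebraMap R F (C * t) * y ∈ V i := by
    intro i
    by_cases hi : i = i₀
    · rw [hi]
      exact mul_mem (hV i₀ _) hy
    · rw [hC, ← Finset.mul_prod_erase Finset.univ c (Finset.mem_univ i)]
      have : algebraMap R F (c i * (∏ j ∈ Finset.univ.erase i, c j) * t) * y =
          algebraMap R F ((∏ j ∈ Finset.univ.erase i, c j) * t) * (algebraMap R F (c i) * y) := by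
        rw [map_mul, map_mul, map_mul]
        ring
      rw [this]
      exact mul_mem (hV i _) (hc' i hi)
  obtain ⟨d, hd⟩ := hsat (C * a) ⟨algebraMap R F (C * t) * y, hmem, by
    rw [(algebraMap R F).map_mul C a, ← hbt, hb', (algebraMap R F).map_mul C t]
    ring⟩
  have hCt : C * t ∉ 𝔫 := fun h => (h𝔫.mem_or_mem h).elim hCn ht
  have hCt0 := algebraMap_ne_zero_of_notMem (F := F) 𝔫 hCt
  refine ⟨⟨algebraMap R F d / algebraMap R F (C * t), div_mem_locAt 𝔫 d hCt⟩, ?_⟩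
  show algebraMap R F d / algebraMap R F (C * t) = y
  rw [div_eq_iff hCt0]
  apply mul_left_cancel₀ hϖF
  rw [← map_mul, ← hd, (algebraMap R F).map_mul C a, ← hbt, hb', (algebraMap R F).map_mul C t]
  ring

/-- **(R3-G) at a point of a chart.**  `R` a noetherian integrally closed domain (a chart of the
normal model), `V i` the vertical valuation rings, `𝔫` a prime through which only `V i₀` passes,
`B = R_𝔫`.  With a generator candidate `τ ∈ B` (uniformiser of `V i₀`, `τ ^ e / ϖ` of invertible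
residue) and residue data `B → κ ⊇ D`: `B` is factorial, `B / (B ∩ 𝔪_{V i₀})` is a principal ideal ring,
`B ∩ 𝔪_{V i₀} = τ B`, `τ` is prime and `𝔪_B = (τ, s)`. -/
theorem regular_at_point [IsIntegrallyClosed R] {κ : Type*} [Field κ] {ϖ : R} (hϖ0 : ϖ ≠ 0)
    (hsat : ∀ r : R, (∃ y : F, (∀ i, y ∈ V i) ∧ algebraMap R F r = algebraMap R F ϖ * y) → ϖ ∣ r)
    (hA : ∀ i, IsArch (V i)) (𝔫 : Ideal R) [h𝔫 : 𝔫.IsPrime] (i₀ : ι)
    (honly : ∀ i, vCentre (V i) (hV i) ≤ 𝔫 → i = i₀)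
    (hVB : ∀ b : locAt (F := F) 𝔫, algebraMap (locAt (F := F) 𝔫) F b ∈ V i₀)
    (τ : locAt (F := F) 𝔫) {e : ℕ} (he : 0 < e)
    (hτ : (τ : F) ∈ (V i₀).nonunits)
    (hunif : ∀ x ∈ (V i₀).nonunits, x * (τ : F)⁻¹ ∈ V i₀)
    (hpow : (τ : F) ^ e * (algebraMap R F ϖ)⁻¹ ∈ V i₀)
    (hinv : ∃ w' : locAt (F := F) 𝔫,
      (τ : F) ^ e * (algebraMap R F ϖ)⁻¹ * (w' : F) - 1 ∈ (V i₀).nonunits)
    (res : locAt (F := F) 𝔫 →+* κ) (hker : ∀ b, res b = 0 ↔ (b : F) ∈ (V i₀).nonunits)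
    (D : Subring κ) [IsDiscreteValuationRing D] (hD : ∀ d ∈ D, ∃ b, res b = d)
    (hfrac : ∀ b, ∃ d₁ ∈ D, ∃ d₂ ∈ D, d₂ ≠ 0 ∧ res b * d₂ = d₁)
    (hnm : ∃ r ∈ 𝔫, algebraMap R F r ∉ (V i₀).nonunits) :
    UniqueFactorizationMonoid (locAt (F := F) 𝔫) ∧
      IsPrincipalIdealRing (locAt (F := F) 𝔫 ⧸ centre (V i₀) hVB) ∧
      centre (V i₀) hVB = Ideal.span {τ} ∧ Prime τ ∧
      (∃ w : locAt (F := F) 𝔫, IsUnit w ∧ τ ^ e = algebraMap R (locAt (F := F) 𝔫) ϖ * w) ∧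
      ∃ s : locAt (F := F) 𝔫,
        @IsLocalRing.maximalIdeal (locAt (F := F) 𝔫) _ (isLocalRing_locAt 𝔫) =
          Ideal.span {τ, s} := by
  haveI : IsLocalRing (locAt (F := F) 𝔫) := isLocalRing_locAt 𝔫
  haveI : IsNoetherianRing (locAt (F := F) 𝔫) := isNoetherianRing_locAt 𝔫
  haveI : IsIntegrallyClosed (locAt (F := F) 𝔫) :=
    isIntegrallyClosed_of_isLocalization _ 𝔫.primeCompl 𝔫.primeCompl_le_nonZeroDivisors
  have hϖB : algebraMap R (locAt (F := F) 𝔫) ϖ ≠ 0 := by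
    intro h0
    have := congrArg (fun z : locAt (F := F) 𝔫 => (z : F)) h0
    exact Fermat.Agent.P3G.Krull.algebraMap_ne_zero (F := F) hϖ0 this
  have hS := sat_locAt_one V hV hϖ0 hsat hA 𝔫 i₀ honly
  have hnm' : ∃ r : locAt (F := F) 𝔫, ¬ IsUnit r ∧ r ∉ centre (V i₀) hVB := by
    obtain ⟨r, hr, hrV⟩ := hnm
    refine ⟨algebraMap R (locAt (F := F) 𝔫) r, ?_, hrV⟩
    rw [IsLocalization.AtPrime.isUnit_to_map_iff (locAt (F := F) 𝔫) 𝔫 r]
    exact fun h => h hr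
  have hker' : RingHom.ker res = centre (V i₀) hVB := by
    ext b
    rw [RingHom.mem_ker, hker, mem_centre]
    rfl
  exact regular_of_generator (V i₀) hVB hϖB hS he hτ hunif hpow hinv res hker' D hD hfrac hnm'

/-- **(R3-G) in the shape consumed by block [L]**: (R-a) `R_𝔫` is factorial, (R-b) for every `V i`
centred in `𝔫` the quotient of `R_𝔫` by the centre of `V i` is a principal ideal ring. -/
theorem ufd_and_pid_at_point [IsIntegrallyClosed R] {κ : Type*} [Field κ] {ϖ : R} (hϖ0 : ϖ ≠ 0)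
    (hsat : ∀ r : R, (∃ y : F, (∀ i, y ∈ V i) ∧ algebraMap R F r = algebraMap R F ϖ * y) → ϖ ∣ r)
    (hA : ∀ i, IsArch (V i)) (𝔫 : Ideal R) [h𝔫 : 𝔫.IsPrime] (i₀ : ι)
    (hi₀ : vCentre (V i₀) (hV i₀) ≤ 𝔫)
    (honly : ∀ i, vCentre (V i) (hV i) ≤ 𝔫 → i = i₀)
    (τ : locAt (F := F) 𝔫) {e : ℕ} (he : 0 < e)
    (hτ : (τ : F) ∈ (V i₀).nonunits)
    (hunif : ∀ x ∈ (V i₀).nonunits, x * (τ : F)⁻¹ ∈ V i₀)
    (hpow : (τ : F) ^ e * (algebraMap R F ϖ)⁻¹ ∈ V i₀)
    (hinv : ∃ w' : locAt (F := F) 𝔫,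
      (τ : F) ^ e * (algebraMap R F ϖ)⁻¹ * (w' : F) - 1 ∈ (V i₀).nonunits)
    (res : locAt (F := F) 𝔫 →+* κ) (hker : ∀ b, res b = 0 ↔ (b : F) ∈ (V i₀).nonunits)
    (D : Subring κ) [IsDiscreteValuationRing D] (hD : ∀ d ∈ D, ∃ b, res b = d)
    (hfrac : ∀ b, ∃ d₁ ∈ D, ∃ d₂ ∈ D, d₂ ≠ 0 ∧ res b * d₂ = d₁)
    (hnm : ∃ r ∈ 𝔫, algebraMap R F r ∉ (V i₀).nonunits) :
    UniqueFactorizationMonoid (locAt (F := F) 𝔫) ∧
      ∀ (i : ι) (_ : vCentre (V i) (hV i) ≤ 𝔫)
        (hVi : ∀ b : locAt (F := F) 𝔫, algebraMap (locAt (F := F) 𝔫) F b ∈ V i),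
        IsPrincipalIdealRing (locAt (F := F) 𝔫 ⧸ centre (V i) hVi) := by
  have hVB : ∀ b : locAt (F := F) 𝔫, algebraMap (locAt (F := F) 𝔫) F b ∈ V i₀ := fun b =>
    mem_of_vCentre_le V hV 𝔫 hi₀ b.2
  obtain ⟨h1, h2, -⟩ := regular_at_point V hV hϖ0 hsat hA 𝔫 i₀ honly hVB τ he hτ hunif hpow hinv
    res hker D hD hfrac hnm
  refine ⟨h1, fun i hi hVi => ?_⟩
  obtain rfl := honly i hi
  exact h2

end Chart

end Fermat.Agent.S36.R3.Generator
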