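/-
S36, block [R3], leaf (R3-G), file 2 (helper3): **the generator theorem in the `ChartHyp` vocabulary of
blocks [L]+[D]** (`S36/D/ChartRoots.lean`).

`H : ChartHyp V hV π E` (chart `R` over the DVR `O`, vertical valuation rings `V i`), `𝔫` a prime of `R`
lying on exactly ONE component `V i₀`, `B = locAt 𝔫`.  From a generator candidate `τ ∈ B` (a uniformiser
of `V i₀` with `τ ^ e / π ∈ V i₀` of invertible residue, inverse from `B`) and residue data
`res : B → κ ⊇ D` (`D` a discrete valuation ring, `D ⊆ res B ⊆ Frac D`, kernel `= B ∩ 𝔪_{V i₀}`):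

* `ufd_and_pid_of_chartHyp` : `UniqueFactorizationMonoid (locAt 𝔫)` and
  `IsPrincipalIdealRing (locAt 𝔫 ⧸ centre (V i₀) _)` — VERBATIM the two hypotheses of
  `ChartRoots.localRoots_onlyOne`;
* `localRoots_of_generator` : the composition with `localRoots_onlyOne`.
-/
import Mathlib
import Fermat.Agent.S36.D.ChartRoots
import Fermat.Agent.S36.R3.Generator

set_option autoImplicit false
set_option linter.unusedSectionVars false
set_option linter.style.haveILetI false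

namespace Fermat.Agent.S36.R3.GeneratorChart

open Fermat.Agent.S36.Local.LocalRoot Fermat.Agent.S36.Local.Spread
  Fermat.Agent.S36.Local.ChartSpread Fermat.Agent.S36.D.ChartRoots
  Fermat.Agent.N4.Cover.Globalize Fermat.Agent.P3G.Krull Fermat.Agent.P4.TwoValApprox
  Fermat.Agent.S36.R3.Generator

universe u

variable {O K₀ : Type*} [CommRing O] [IsDomain O] [IsDiscreteValuationRing O]
  [Field K₀] [Algebra O K₀] [IsFractionRing O K₀]
variable {R : Type*} [CommRing R] [IsDomain R] [IsNoetherianRing R] [Algebra O R]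
variable {F : Type u} [Field F] [Algebra R F] [IsFractionRing R F] [Algebra O F] [Algebra K₀ F]
  [IsScalarTower O R F] [IsScalarTower O K₀ F]
variable {ι : Type*} [Fintype ι]
variable {V : ι → ValuationSubring F} {hV : ∀ i (r : R), algebraMap R F r ∈ V i}

/-- `vCentre` (P3G/Krull) and `centre` (S36/Local) are the same ideal. -/
theorem vCentre_eq_centre (W : ValuationSubring F) (hW : ∀ r : R, algebraMap R F r ∈ W) :
    vCentre W hW = centre W hW := by
  ext r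
  rw [mem_vCentre_iff, mem_centre]

/-- The valuation rings of a `ChartHyp` are archimedean. -/
theorem isArch_of_chartHyp {π : O} {E : ℕ} (H : ChartHyp V hV π E) (i : ι) : IsArch (V i) := by
  intro x c hc
  by_cases hx : x = 0
  · exact ⟨0, fun m _ => by rw [hx, zero_mul]; exact (V i).nonunits.zero_mem⟩
  obtain ⟨n, hn⟩ := H.sep i x⁻¹ (inv_ne_zero hx)
  rw [inv_inv] at hn
  obtain ⟨v, hv, hcv⟩ := H.pow i c hc
  refine ⟨E * n + 1, fun m hm => ?_⟩
  obtain ⟨k, rfl⟩ : ∃ k, m = E * n + 1 + k := ⟨m - (E * n + 1), by omega⟩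
  have h1 : x * c ^ (E * n + 1 + k) =
      (algebraMap R F (algebraMap O R π) ^ n * x) * v ^ n * c ^ k * c := by
    rw [pow_add, pow_add, pow_one, pow_mul, hcv, mul_pow]
    ring
  rw [h1]
  exact nu_mul (V i) (mul_mem (mul_mem hn (pow_mem hv n)) (pow_mem ((V i).nonunits_subset hc) k)) hc

variable [IsIntegrallyClosed R]

/-- **(R3-G) for a `ChartHyp`**: the two hypotheses of `ChartRoots.localRoots_onlyOne` at a point lying
on the single component `V i₀`, from a generator candidate `τ` and residue data. -/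
theorem ufd_and_pid_of_chartHyp {π : O} {E : ℕ} (H : ChartHyp V hV π E) {κ : Type*} [Field κ]
    (𝔫 : Ideal R) [𝔫.IsPrime] (i₀ : ι) (hi₀ : centre (V i₀) (hV i₀) ≤ 𝔫)
    (honly : ∀ j, j ≠ i₀ → ¬ centre (V j) (hV j) ≤ 𝔫)
    (τ : locAt (F := F) 𝔫) {e : ℕ} (he : 0 < e)
    (hτ : (τ : F) ∈ (V i₀).nonunits)
    (hunif : ∀ x ∈ (V i₀).nonunits, x * (τ : F)⁻¹ ∈ V i₀)
    (hpow : (τ : F) ^ e * (algebraMap R F (algebraMap O R π))⁻¹ ∈ V i₀)
    (hinv : ∃ w' : locAt (F := F) 𝔫,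
      (τ : F) ^ e * (algebraMap R F (algebraMap O R π))⁻¹ * (w' : F) - 1 ∈ (V i₀).nonunits)
    (res : locAt (F := F) 𝔫 →+* κ) (hker : ∀ b, res b = 0 ↔ (b : F) ∈ (V i₀).nonunits)
    (D : Subring κ) [IsDiscreteValuationRing D] (hD : ∀ d ∈ D, ∃ b, res b = d)
    (hfrac : ∀ b, ∃ d₁ ∈ D, ∃ d₂ ∈ D, d₂ ≠ 0 ∧ res b * d₂ = d₁)
    (hnm : ∃ r ∈ 𝔫, algebraMap R F r ∉ (V i₀).nonunits) :
    UniqueFactorizationMonoid (locAt (F := F) 𝔫) ∧
      IsPrincipalIdealRing (locAt (F := F) 𝔫 ⧸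
        centre (V i₀) (fun b => locAt_le 𝔫 (V i₀) (hV i₀) hi₀ b)) := by
  have hsat : ∀ r : R, (∃ y : F, (∀ i, y ∈ V i) ∧
      algebraMap R F r = algebraMap R F (algebraMap O R π) * y) → algebraMap O R π ∣ r := by
    rintro r ⟨y, hy, hry⟩
    exact H.sat r (fun i => ⟨y, hy i, hry⟩)
  have honly' : ∀ i, vCentre (V i) (hV i) ≤ 𝔫 → i = i₀ := by
    intro i hi
    by_contra hne
    exact honly i hne (by rw [← vCentre_eq_centre]; exact hi)
  obtain ⟨h1, h2, -⟩ := regular_at_point V hV H.ne hsat (fun i => isArch_of_chartHyp H i) 𝔫 i₀ honly'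
    (fun b => locAt_le 𝔫 (V i₀) (hV i₀) hi₀ b) τ he hτ hunif hpow hinv res hker D hD hfrac hnm
  exact ⟨h1, h2⟩

/-- **Local roots at a point of `C11` off the crossings**: `ufd_and_pid_of_chartHyp` composed with
`ChartRoots.localRoots_onlyOne` (the `PowCover.LocalRoots` shape). -/
theorem localRoots_of_generator {π : O} {E : ℕ} (H : ChartHyp V hV π E) {κ : Type*} [Field κ]
    (𝔫 : Ideal R) [𝔫.IsPrime] (i₀ : ι) (hi₀ : centre (V i₀) (hV i₀) ≤ 𝔫)
    (honly : ∀ j, j ≠ i₀ → ¬ centre (V j) (hV j) ≤ 𝔫)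
    (τ : locAt (F := F) 𝔫) {m : ℕ} (hm : 0 < m)
    (hτ : (τ : F) ∈ (V i₀).nonunits)
    (hunif : ∀ x ∈ (V i₀).nonunits, x * (τ : F)⁻¹ ∈ V i₀)
    (hpow : (τ : F) ^ m * (algebraMap R F (algebraMap O R π))⁻¹ ∈ V i₀)
    (hinv : ∃ w' : locAt (F := F) 𝔫,
      (τ : F) ^ m * (algebraMap R F (algebraMap O R π))⁻¹ * (w' : F) - 1 ∈ (V i₀).nonunits)
    (res : locAt (F := F) 𝔫 →+* κ) (hker : ∀ b, res b = 0 ↔ (b : F) ∈ (V i₀).nonunits)
    (D : Subring κ) [IsDiscreteValuationRing D] (hD : ∀ d ∈ D, ∃ b, res b = d)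
    (hfrac : ∀ b, ∃ d₁ ∈ D, ∃ d₂ ∈ D, d₂ ≠ 0 ∧ res b * d₂ = d₁)
    (hnm : ∃ r ∈ 𝔫, algebraMap R F r ∉ (V i₀).nonunits)
    {e : ℕ} (he : IsUnit ((e : ℕ) : R)) {h : F}
    (hh1 : ∀ i, Cong (V i) (algebraMap R F (algebraMap O R π)) (h - 1))
    (hhor : Horizontal K₀ e h) :
    ∃ η : F, η ≠ 0 ∧
      (∃ a r : R, a ∉ 𝔫 ∧ r ∉ 𝔫 ∧ h * algebraMap R F a = η ^ e * algebraMap R F r) ∧
      ∃ w : F, (∀ i, w ∈ V i) ∧ η - 1 = algebraMap R F (algebraMap O R π) * w := by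
  obtain ⟨hufd, hpid⟩ := ufd_and_pid_of_chartHyp H 𝔫 i₀ hi₀ honly τ hm hτ hunif hpow hinv res hker
    D hD hfrac hnm
  haveI := hufd
  exact localRoots_onlyOne (K₀ := K₀) H 𝔫 i₀ hi₀ honly hpid he hh1 hhor

end Fermat.Agent.S36.R3.GeneratorChart
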