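import Mathlib

/-!
# S36, block [R3], leaf (R3-W): the cyclotomic Wilson lemma

Let `A` be an integral domain, `q` a prime and `ζ ∈ A` a primitive `q`-th root of unity,
`π := ζ - 1`.  Then

* `pow_sub_one_eq x k : x ^ k - 1 = (x - 1) * (k + (x - 1) * rSum x k)` in every commutative ring
  (`rSum` explicit), so `ζ ^ k - 1 ≡ k π` modulo `π ^ 2`;
* `natCast_eq_mul_pow hζ : (q : A) = wilsonUnit ζ q * (ζ - 1) ^ (q - 1)`;
* `wilsonUnit_eq hζ : ∃ c, wilsonUnit ζ q = -1 + c * (ζ - 1)` (Wilson's theorem);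
* `natCast_mem_span hζ : (q : A) ∈ Ideal.span {ζ - 1}`.

So `(ζ - 1) ^ (q - 1) / q` is a unit congruent to `-1` modulo `ζ - 1`, the input of the
uniformiser `Π_φ = φ(ζ^b Q) - φ(Q)` of the component `C11`.
-/

set_option autoImplicit false

open Finset

namespace Fermat.Agent.S36.R3.Wilson

section General

variable {A : Type*} [CommRing A]

/-- the geometric sum `1 + x + ⋯ + x^(k-1)` -/
def gSum (x : A) (k : ℕ) : A := ∑ i ∈ range k, x ^ i

/-- the "second order" sum: `gSum x k = k + (x - 1) * rSum x k` -/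
def rSum (x : A) (k : ℕ) : A := ∑ i ∈ range k, gSum x i

theorem gSum_mul (x : A) (k : ℕ) : gSum x k * (x - 1) = x ^ k - 1 := geom_sum_mul x k

theorem pow_eq_one_add (x : A) (k : ℕ) : x ^ k = 1 + (x - 1) * gSum x k := by
  rw [mul_comm, gSum_mul]
  ring

theorem gSum_eq (x : A) (k : ℕ) : gSum x k = (k : A) + (x - 1) * rSum x k := by
  unfold gSum rSum
  rw [Finset.mul_sum]
  have h : ∀ i ∈ range k, x ^ i = 1 + (x - 1) * gSum x i := fun i _ => pow_eq_one_add x i
  rw [Finset.sum_congr rfl h, Finset.sum_add_distrib, Finset.sum_const, card_range, nsmul_eq_mul,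
    mul_one]

/-- `x ^ k - 1 = (x - 1) * (k + (x - 1) * r_k)` -/
theorem pow_sub_one_eq (x : A) (k : ℕ) :
    x ^ k - 1 = (x - 1) * ((k : A) + (x - 1) * rSum x k) := by
  rw [← gSum_eq, mul_comm, gSum_mul]

@[simp] theorem gSum_zero (x : A) : gSum x 0 = 0 := by simp [gSum]

@[simp] theorem rSum_zero (x : A) : rSum x 0 = 0 := by simp [rSum]

theorem gSum_map {B : Type*} [CommRing B] (f : A →+* B) (x : A) (k : ℕ) :
    f (gSum x k) = gSum (f x) k := by
  simp [gSum, map_sum, map_pow]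

theorem rSum_map {B : Type*} [CommRing B] (f : A →+* B) (x : A) (k : ℕ) :
    f (rSum x k) = rSum (f x) k := by
  simp [rSum, map_sum, gSum_map]

/-- the unit `u` with `q = u * (ζ - 1)^(q-1)` -/
def wilsonUnit (ζ : A) (q : ℕ) : A := (-1) ^ (q - 1) * ∏ k ∈ range (q - 1), gSum ζ (k + 1)

/-- modulo `x - 1` the product of the geometric sums is a factorial -/
theorem prod_gSum_eq (x : A) (n : ℕ) :
    ∃ c : A, ∏ k ∈ range n, gSum x (k + 1) = ((Nat.factorial n : ℕ) : A) + c * (x - 1) := by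
  induction n with
  | zero => exact ⟨0, by simp⟩
  | succ n ih =>
    obtain ⟨c, hc⟩ := ih
    refine ⟨c * gSum x (n + 1) + ((Nat.factorial n : ℕ) : A) * rSum x (n + 1), ?_⟩
    rw [prod_range_succ, hc, Nat.factorial_succ]
    nth_rewrite 1 [gSum_eq x (n + 1)]
    rw [gSum_eq x (n + 1)]
    push_cast
    ring

end General

section Domain

variable {A : Type*} [CommRing A] [IsDomain A] {q : ℕ} [hq : Fact q.Prime] {ζ : A}

/-- `q = u * (ζ - 1)^(q-1)` -/
theorem natCast_eq_mul_pow (hζ : IsPrimitiveRoot ζ q) :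
    (q : A) = wilsonUnit ζ q * (ζ - 1) ^ (q - 1) := by
  have hq1 : q - 1 + 1 = q := Nat.sub_add_cancel hq.out.one_lt.le
  have hζ' : IsPrimitiveRoot ζ (q - 1 + 1) := by rwa [hq1]
  have h := hζ'.prod_one_sub_pow_eq_order
  have h2 : ∀ k ∈ range (q - 1), (1 - ζ ^ (k + 1)) = (-1) * (gSum ζ (k + 1) * (ζ - 1)) := by
    intro k _
    rw [gSum_mul]
    ring
  rw [Finset.prod_congr rfl h2, Finset.prod_mul_distrib, Finset.prod_mul_distrib,
    Finset.prod_const, Finset.prod_const, card_range] at h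
  have h3 : ((q - 1 : ℕ) : A) + 1 = (q : A) := by
    rw [← Nat.cast_one (R := A), ← Nat.cast_add, hq1]
  rw [h3] at h
  rw [← h, wilsonUnit]
  ring

/-- `q ∈ (ζ - 1)` -/
theorem natCast_mem_span (hζ : IsPrimitiveRoot ζ q) : (q : A) ∈ Ideal.span {ζ - 1} := by
  rw [Ideal.mem_span_singleton]
  have h := natCast_eq_mul_pow hζ
  have hq1 : q - 1 = (q - 2) + 1 := by have := hq.out.two_le; omega
  rw [hq1, pow_succ] at h
  exact ⟨wilsonUnit ζ (q - 2 + 1 + 1) * (ζ - 1) ^ (q - 2), by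
    have h2 : q - 2 + 1 + 1 = q := by have := hq.out.two_le; omega
    rw [h2]
    rw [h]
    ring⟩

/-- Wilson: `(q-1)! = -1 + q m` in every ring -/
theorem factorial_eq (q : ℕ) [hq : Fact q.Prime] (B : Type*) [CommRing B] :
    ∃ m : B, ((Nat.factorial (q - 1) : ℕ) : B) = -1 + (q : B) * m := by
  have h := ZMod.wilsons_lemma (p := q)
  have h2 : ((((Nat.factorial (q - 1) : ℕ) : ℤ) + 1 : ℤ) : ZMod q) = 0 := by
    push_cast
    rw [h]
    ring
  obtain ⟨m, hm⟩ := (ZMod.intCast_zmod_eq_zero_iff_dvd _ _).mp h2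
  refine ⟨(m : B), ?_⟩
  have h3 := congrArg (Int.cast : ℤ → B) hm
  push_cast at h3
  linear_combination h3

/-- `u ≡ -1` modulo `ζ - 1` (Wilson's theorem) -/
theorem wilsonUnit_eq (hζ : IsPrimitiveRoot ζ q) :
    ∃ c : A, wilsonUnit ζ q = -1 + c * (ζ - 1) := by
  obtain ⟨c1, hc1⟩ := prod_gSum_eq ζ (q - 1)
  obtain ⟨m, hm⟩ := factorial_eq q A
  obtain ⟨d, hd⟩ := Ideal.mem_span_singleton.mp (natCast_mem_span hζ)
  -- `(-1)^(q-1) ≡ 1` modulo `ζ - 1`
  have hsign : ∃ e : A, ((-1 : A)) ^ (q - 1) = 1 + e * (ζ - 1) := by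
    rcases hq.out.eq_two_or_odd' with h2 | hodd
    · subst h2
      have hd' : ((2 : ℕ) : A) = (ζ - 1) * d := hd
      refine ⟨-d, ?_⟩
      have : (2 : A) = (ζ - 1) * d := by exact_mod_cast hd'
      norm_num
      linear_combination (-1 : A) * this
    · have heven : Even (q - 1) := by
        obtain ⟨k, hk⟩ := hodd
        exact ⟨k, by omega⟩
      exact ⟨0, by rw [heven.neg_one_pow]; ring⟩
  obtain ⟨e, he⟩ := hsign
  refine ⟨e * (-1 + (q : A) * m + c1 * (ζ - 1)) + c1 + d * m, ?_⟩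
  rw [wilsonUnit, hc1, hm, he]
  linear_combination m * hd

/-- `wilsonUnit` is a unit as soon as `ζ - 1` lies in the Jacobson radical; here: it is a unit
modulo every ideal containing `ζ - 1` -/
theorem wilsonUnit_mul_eq (hζ : IsPrimitiveRoot ζ q) :
    ∃ c : A, wilsonUnit ζ q * (-1) = 1 + c * (ζ - 1) := by
  obtain ⟨c, hc⟩ := wilsonUnit_eq hζ
  exact ⟨-c, by rw [hc]; ring⟩

end Domain

end Fermat.Agent.S36.R3.Wilson
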