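import Mathlib
import Fermat.Agent.N4.TwistSeries
import Fermat.Agent.S36.R3.Wilson

/-!
# S36, block [R3], leaf (R3-P): the series `Π_φ = φ(ζ Q) - φ(Q)`

For a unit `x` of a commutative ring `A`, `π := x - 1`, and a Laurent series `f` over `A`:

* `thetaL f = Q df/dQ` (a derivation of `LaurentSeries A`), `psiL x f` (explicit);
* `twist_sub_self : twist x f - f = C π * (thetaL f + C π * psiL x f)`;
* for `A` a domain, `q` prime, `ζ` a primitive `q`-th root of unity and `w` with
  `C q * w = (twist ζ f - f)^(q-1)`: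
  `wilson_mul : C (wilsonUnit ζ q) * w = (thetaL f + C π * psiL ζ f)^(q-1)` and
  `neg_eq_theta_pow : ∃ r, -w = (thetaL f)^(q-1) + C π * r` (`r` explicit in terms of `w`).
-/

set_option autoImplicit false

open HahnSeries ModularCurve
open Fermat.Agent.N4.TwistSeries Fermat.Agent.S36.R3.Wilson

namespace Fermat.Agent.S36.R3.PiSeries

section Units

variable {A : Type*} [CommRing A]

/-- the second order term of `x ^ n - 1`, `n : ℤ` -/
def rZ (x : Aˣ) : ℤ → A
  | Int.ofNat k => rSum (x : A) k
  | Int.negSucc k => ((k + 1 : ℕ) : A) * ((x⁻¹ : Aˣ) : A) +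
      ((x⁻¹ : Aˣ) : A) ^ 2 * rSum ((x⁻¹ : Aˣ) : A) (k + 1)

/-- `x ^ n - 1 = (x - 1) * (n + (x - 1) * rZ x n)` for a unit `x` and `n : ℤ` -/
theorem zpow_sub_one_eq (x : Aˣ) (n : ℤ) :
    ((x ^ n : Aˣ) : A) - 1 = ((x : A) - 1) * ((n : A) + ((x : A) - 1) * rZ x n) := by
  cases n with
  | ofNat k =>
    simp only [Int.ofNat_eq_natCast, zpow_natCast, Units.val_pow_eq_pow_val, Int.cast_natCast]
    exact pow_sub_one_eq (x : A) k
  | negSucc k =>
    have hy : ((x⁻¹ : Aˣ) : A) * (x : A) = 1 := by rw [← Units.val_mul, inv_mul_cancel, Units.val_one]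
    have h1 := pow_sub_one_eq ((x⁻¹ : Aˣ) : A) (k + 1)
    have h2 : ((x ^ (Int.negSucc k) : Aˣ) : A) = ((x⁻¹ : Aˣ) : A) ^ (k + 1) := by
      rw [zpow_negSucc, ← inv_pow, Units.val_pow_eq_pow_val]
    rw [h2]
    have h3 : ((Int.negSucc k : ℤ) : A) = -((k + 1 : ℕ) : A) := by
      rw [Int.negSucc_eq]
      push_cast
      ring
    rw [h3]
    simp only [rZ]
    set y := ((x⁻¹ : Aˣ) : A) with hy'
    set r := rSum y (k + 1)
    have hy1 : y - 1 = -(y * ((x : A) - 1)) := by
      rw [mul_sub, hy]
      ring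
    rw [h1, hy1]
    have hy2 : y * ((x : A) - 1) = 1 - y := by
      rw [mul_sub, hy]
      ring
    linear_combination (-(((x : A) - 1) * ((k + 1 : ℕ) : A))) * hy2

end Units

section Series

variable {A : Type*} [CommRing A]

/-- `θ = Q d/dQ` on Laurent series -/
noncomputable def thetaL (f : LaurentSeries A) : LaurentSeries A where
  coeff n := (n : A) * f.coeff n
  isPWO_support' := f.isPWO_support.mono (by
    intro n hn
    rw [Function.mem_support] at hn
    rw [HahnSeries.mem_support]
    intro h0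
    exact hn (by rw [h0, mul_zero]))

@[simp] theorem thetaL_coeff (f : LaurentSeries A) (n : ℤ) :
    (thetaL f).coeff n = (n : A) * f.coeff n := rfl

/-- the second order part of `f(xQ) - f(Q)` -/
noncomputable def psiL (x : Aˣ) (f : LaurentSeries A) : LaurentSeries A where
  coeff n := rZ x n * f.coeff n
  isPWO_support' := f.isPWO_support.mono (by
    intro n hn
    rw [Function.mem_support] at hn
    rw [HahnSeries.mem_support]
    intro h0
    exact hn (by rw [h0, mul_zero]))

@[simp] theorem psiL_coeff (x : Aˣ) (f : LaurentSeries A) (n : ℤ) :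
    (psiL x f).coeff n = rZ x n * f.coeff n := rfl

theorem coeff_C_mul (a : A) (f : LaurentSeries A) (n : ℤ) :
    (HahnSeries.C a * f).coeff n = a * f.coeff n := by
  rw [HahnSeries.C_apply, HahnSeries.coeff_single_zero_mul]

/-- **`f(xQ) - f(Q) = π (θ f + π ψ)`**, `π = x - 1`. -/
theorem twist_sub_self (x : Aˣ) (f : LaurentSeries A) :
    twist x f - f =
      HahnSeries.C ((x : A) - 1) * (thetaL f + HahnSeries.C ((x : A) - 1) * psiL x f) := by
  ext n
  rw [HahnSeries.coeff_sub, twist_coeff, coeff_C_mul, HahnSeries.coeff_add, coeff_C_mul,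
    thetaL_coeff, psiL_coeff]
  have h := zpow_sub_one_eq x n
  linear_combination f.coeff n * h

theorem thetaL_add (f g : LaurentSeries A) : thetaL (f + g) = thetaL f + thetaL g := by
  ext n
  simp [mul_add]

theorem thetaL_zero : thetaL (0 : LaurentSeries A) = 0 := by
  ext n
  simp

theorem thetaL_neg (f : LaurentSeries A) : thetaL (-f) = -thetaL f := by
  ext n
  simp

theorem thetaL_sub (f g : LaurentSeries A) : thetaL (f - g) = thetaL f - thetaL g := by
  ext n
  simp [mul_sub]

theorem thetaL_C_mul (a : A) (f : LaurentSeries A) :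
    thetaL (HahnSeries.C a * f) = HahnSeries.C a * thetaL f := by
  ext n
  rw [thetaL_coeff, coeff_C_mul, coeff_C_mul, thetaL_coeff]
  ring

theorem thetaL_single (n : ℤ) (a : A) :
    thetaL (HahnSeries.single n a : LaurentSeries A) = HahnSeries.single n ((n : A) * a) := by
  ext m
  rw [thetaL_coeff]
  rcases eq_or_ne m n with rfl | hm
  · rw [HahnSeries.coeff_single_same, HahnSeries.coeff_single_same]
  · rw [HahnSeries.coeff_single_of_ne hm, HahnSeries.coeff_single_of_ne hm, mul_zero]

theorem thetaL_C (a : A) : thetaL (HahnSeries.C a : LaurentSeries A) = 0 := by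
  rw [HahnSeries.C_apply, thetaL_single]
  simp

theorem thetaL_one : thetaL (1 : LaurentSeries A) = 0 := by
  have h : (1 : LaurentSeries A) = HahnSeries.C 1 := (map_one _).symm
  rw [h, thetaL_C]

/-- `θ` is a derivation -/
theorem thetaL_mul (f g : LaurentSeries A) :
    thetaL (f * g) = thetaL f * g + f * thetaL g := by
  ext n
  rw [thetaL_coeff, HahnSeries.coeff_add, HahnSeries.coeff_mul, HahnSeries.coeff_mul,
    HahnSeries.coeff_mul, Finset.mul_sum]
  have hsub1 : Finset.antidiagonal (thetaL f).isPWO_support g.isPWO_support n ⊆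
      Finset.antidiagonal f.isPWO_support g.isPWO_support n := by
    intro ij hij
    rw [Finset.mem_antidiagonal] at hij ⊢
    refine ⟨?_, hij.2.1, hij.2.2⟩
    have h1 := hij.1
    rw [HahnSeries.mem_support] at h1 ⊢
    intro h0
    exact h1 (by rw [thetaL_coeff, h0, mul_zero])
  have hsub2 : Finset.antidiagonal f.isPWO_support (thetaL g).isPWO_support n ⊆
      Finset.antidiagonal f.isPWO_support g.isPWO_support n := by
    intro ij hij
    rw [Finset.mem_antidiagonal] at hij ⊢
    refine ⟨hij.1, ?_, hij.2.2⟩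
    have h1 := hij.2.1
    rw [HahnSeries.mem_support] at h1 ⊢
    intro h0
    exact h1 (by rw [thetaL_coeff, h0, mul_zero])
  rw [Finset.sum_subset hsub1, Finset.sum_subset hsub2, ← Finset.sum_add_distrib]
  · refine Finset.sum_congr rfl fun ij hij => ?_
    obtain ⟨-, -, hsum⟩ := Finset.mem_antidiagonal.mp hij
    rw [thetaL_coeff, thetaL_coeff, ← hsum]
    push_cast
    ring
  · intro ij _ hij
    rw [Finset.mem_antidiagonal] at hij
    by_cases hf : ij.1 ∈ f.support
    · have hg : ij.2 ∉ (thetaL g).support := by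
        intro hg
        rename_i h
        exact hij ⟨hf, hg, (Finset.mem_antidiagonal.mp h).2.2⟩
      rw [HahnSeries.mem_support, not_not] at hg
      rw [hg, mul_zero]
    · rw [HahnSeries.mem_support, not_not] at hf
      rw [hf, zero_mul]
  · intro ij _ hij
    rw [Finset.mem_antidiagonal] at hij
    by_cases hg : ij.2 ∈ g.support
    · have hf : ij.1 ∉ (thetaL f).support := by
        intro hf
        rename_i h
        exact hij ⟨hf, hg, (Finset.mem_antidiagonal.mp h).2.2⟩
      rw [HahnSeries.mem_support, not_not] at hf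
      rw [hf, zero_mul]
    · rw [HahnSeries.mem_support, not_not] at hg
      rw [hg, mul_zero]

theorem thetaL_pow (f : LaurentSeries A) (n : ℕ) :
    thetaL (f ^ (n + 1)) = HahnSeries.C ((n + 1 : ℕ) : A) * f ^ n * thetaL f := by
  induction n with
  | zero => simp
  | succ n ih =>
    rw [pow_succ, thetaL_mul, ih]
    have h : HahnSeries.C (((n + 1 + 1 : ℕ)) : A) =
        HahnSeries.C (((n + 1 : ℕ)) : A) + (1 : LaurentSeries A) := by
      rw [← map_one (HahnSeries.C (Γ := ℤ) (R := A)), ← map_add]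
      push_cast
      rfl
    rw [h]
    ring

/-- compatibility with coefficientwise ring homomorphisms -/
theorem coeffMap_thetaL {B : Type*} [CommRing B] (g : A →+* B) (f : LaurentSeries A) :
    coeffMap g (thetaL f) = thetaL (coeffMap g f) := by
  ext n
  simp

theorem twist_thetaL (x : Aˣ) (f : LaurentSeries A) : twist x (thetaL f) = thetaL (twist x f) := by
  ext n
  simp only [twist_coeff, thetaL_coeff]
  ring

end Series

section Domain

variable {A : Type*} [CommRing A] [IsDomain A] {q : ℕ} [hq : Fact q.Prime]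

/-- **The Wilson quotient of `Π_f`.** If `q w = Π_f ^ (q-1)` then `u w = (θ f + π ψ)^(q-1)` with
`u = wilsonUnit ζ q ≡ -1` modulo `π`. -/
theorem wilson_mul (ζ : Aˣ) (hζ : IsPrimitiveRoot (ζ : A) q) (f w : LaurentSeries A)
    (hw : HahnSeries.C (q : A) * w = (twist ζ f - f) ^ (q - 1)) :
    HahnSeries.C (wilsonUnit (ζ : A) q) * w =
      (thetaL f + HahnSeries.C ((ζ : A) - 1) * psiL ζ f) ^ (q - 1) := by
  have hπ : (ζ : A) - 1 ≠ 0 := by
    intro h
    have h1 : (ζ : A) = 1 := sub_eq_zero.mp h
    have := hζ.unique (h1 ▸ IsPrimitiveRoot.one)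
    exact hq.out.one_lt.ne' this
  have hCπ : (HahnSeries.C ((ζ : A) - 1) : LaurentSeries A) ≠ 0 := by
    intro h
    apply hπ
    have := congrArg (fun s : LaurentSeries A => s.coeff 0) h
    simpa [HahnSeries.C_apply] using this
  rw [twist_sub_self, mul_pow, natCast_eq_mul_pow hζ, map_mul, map_pow] at hw
  have h2 : (HahnSeries.C ((ζ : A) - 1) : LaurentSeries A) ^ (q - 1) *
      (HahnSeries.C (wilsonUnit (ζ : A) q) * w) =
      (HahnSeries.C ((ζ : A) - 1) : LaurentSeries A) ^ (q - 1) *
        (thetaL f + HahnSeries.C ((ζ : A) - 1) * psiL ζ f) ^ (q - 1) := by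
    rw [← hw]
    ring
  exact mul_left_cancel₀ (pow_ne_zero _ hCπ) h2

/-- **`-w ≡ (θ f)^(q-1)` modulo `π`.** -/
theorem neg_eq_theta_pow (ζ : Aˣ) (hζ : IsPrimitiveRoot (ζ : A) q) (f w : LaurentSeries A)
    (hw : HahnSeries.C (q : A) * w = (twist ζ f - f) ^ (q - 1)) :
    ∃ r : LaurentSeries A, -w = thetaL f ^ (q - 1) + HahnSeries.C ((ζ : A) - 1) * r := by
  have h1 := wilson_mul ζ hζ f w hw
  obtain ⟨c, hc⟩ := wilsonUnit_eq hζ
  obtain ⟨ρ, hρ⟩ := sub_dvd_pow_sub_pow
    (thetaL f + HahnSeries.C ((ζ : A) - 1) * psiL ζ f) (thetaL f) (q - 1)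
  rw [add_sub_cancel_left] at hρ
  refine ⟨psiL ζ f * ρ - HahnSeries.C c * w, ?_⟩
  rw [hc, map_add, map_neg, map_one, map_mul] at h1
  linear_combination h1 + hρ

end Domain

end Fermat.Agent.S36.R3.PiSeries
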