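import Mathlib
import Fermat.Agent.M2.JDeriv
import Fermat.Agent.S24.QExpHol
import Fermat.Agent.S16.BetaLemmaD
import Fermat.Agent.S36.R3.PiSeries

/-!
# S36, block [R3], leaf (R3-T), part 1: `θ j = -E₄² E₆ / Δ` as an identity of formal `q`-series

* `qExpansion_D` : for `F` holomorphic on `ℍ`, `1`-periodic and bounded at `i∞`,
  `qExpansion 1 (D F) = X d/dX (qExpansion 1 F)` (`D = (2πi)⁻¹ d/dz`), and `isHol_D`;
* `ramanujan_qExpansion`, `ramanujan_int`, `ramanujan_laurent` : Ramanujan's identity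
  `E₄ θΔ = 3 Δ θE₄ + E₆ Δ` for the formal `q`-expansions over `ℂ`, `ℤ` and every commutative ring
  (from the analytic identity `Δ D j = -E₄² E₆` of `M2/JDeriv`);
* `thetaL_jqModC R : thetaL (jqModC R) * DeltaL R = -(E4L R ^ 2 * E6L R)` in `LaurentSeries R` for
  every commutative ring `R` (`thetaL = Q d/dQ` of `R3/PiSeries`), with
  `E4L, E6L, DeltaL : LaurentSeries R` the base changes of the prelude's integral series
  (`= E4K, E6K, DeltaK` of `S16/BetaLemmaA` over a field), and `jqModC_mul_DeltaL`.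
-/

set_option autoImplicit false

namespace Fermat.Agent.S36.R3.ThetaJ

open UpperHalfPlane ModularForm ModularFormClass EisensteinSeries MatrixGroups Derivative
open Filter Function ModularCurve
open scoped Manifold Topology Real
open Fermat.Agent.S24.QExp Fermat.Agent.M2.JDeriv Fermat.Agent.S16.BetaLemma
open Fermat.Agent.S36.R3.PiSeries

local notation "Δ" => ModularForm.discriminant
local notation "𝕢" => Function.Periodic.qParam

/-- the power series operator `θ = X d/dX` -/
noncomputable def thetaP {R : Type*} [CommSemiring R] (f : PowerSeries R) : PowerSeries R :=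
  PowerSeries.X * PowerSeries.derivative R f

theorem coeff_thetaP {R : Type*} [CommSemiring R] (f : PowerSeries R) (n : ℕ) :
    PowerSeries.coeff n (thetaP f) = (n : R) * PowerSeries.coeff n f := by
  unfold thetaP
  cases n with
  | zero => simp
  | succ n =>
    rw [PowerSeries.coeff_succ_X_mul, PowerSeries.coeff_derivative]
    push_cast
    ring

theorem map_thetaP {R S : Type*} [CommSemiring R] [CommSemiring S] (f : R →+* S)
    (p : PowerSeries R) : PowerSeries.map f (thetaP p) = thetaP (PowerSeries.map f p) := by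
  ext n
  rw [PowerSeries.coeff_map, coeff_thetaP, coeff_thetaP, PowerSeries.coeff_map, map_mul,
    map_natCast]

theorem thetaL_ofPowerSeries {R : Type*} [CommRing R] (p : PowerSeries R) :
    thetaL (HahnSeries.ofPowerSeries ℤ R p) = HahnSeries.ofPowerSeries ℤ R (thetaP p) := by
  ext n
  rw [thetaL_coeff]
  rcases lt_or_ge n 0 with hn | hn
  · rw [ofPowerSeries_coeff_of_neg _ hn, ofPowerSeries_coeff_of_neg _ hn, mul_zero]
  · obtain ⟨m, rfl⟩ := Int.eq_ofNat_of_zero_le hn
    rw [HahnSeries.ofPowerSeries_apply_coeff, HahnSeries.ofPowerSeries_apply_coeff, coeff_thetaP]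
    push_cast
    rfl

/-- Taylor series of a derivative. -/
theorem taylor0_deriv (φ : ℂ → ℂ) : taylor0 (deriv φ) = PowerSeries.derivative ℂ (taylor0 φ) := by
  ext m
  rw [coeff_taylor0, PowerSeries.coeff_derivative, coeff_taylor0, ← iteratedDeriv_succ']
  have h : ((m + 1).factorial : ℂ) = ((m : ℂ) + 1) * (m.factorial : ℂ) := by
    rw [Nat.factorial_succ]
    push_cast
    ring
  rw [h]
  have h1 : ((m : ℂ) + 1) ≠ 0 := by exact_mod_cast Nat.succ_ne_zero m
  have h2 : (m.factorial : ℂ) ≠ 0 := by exact_mod_cast Nat.factorial_ne_zero m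
  field_simp

/-- `D F ∘ ofComplex` is `1`-periodic if `F ∘ ofComplex` is. -/
theorem periodic_D {F : ℍ → ℂ} (hper : Periodic (F ∘ ofComplex) 1) :
    Periodic ((D F) ∘ ofComplex) 1 := by
  intro w
  simp only [comp_apply]
  by_cases hw : 0 < w.im
  · have hw1 : 0 < (w + 1).im := by simpa using hw
    rw [normalizedDerivOfComplex, normalizedDerivOfComplex, ofComplex_apply_of_im_pos hw1,
      ofComplex_apply_of_im_pos hw]
    congr 1
    show deriv (F ∘ ofComplex) (w + 1) = deriv (F ∘ ofComplex) w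
    have h1 : (F ∘ ofComplex) = fun x => (F ∘ ofComplex) (x + 1) := by
      ext x
      exact (hper x).symm
    conv_rhs => rw [h1]
    rw [deriv_comp_add_const]
  · have hw' : w.im ≤ 0 := not_lt.mp hw
    have hw1 : (w + 1).im ≤ 0 := by simpa using hw'
    rw [ofComplex_apply_of_im_nonpos hw1, ofComplex_apply_of_im_nonpos hw']

theorem isHol_D {F : ℍ → ℂ} (hF : IsHol F) : IsHol (D F) := by
  have hper : Periodic (F ∘ ofComplex) 1 := by simpa using hF.periodic
  refine ⟨normalizedDerivOfComplex_mdifferentiable hF.mdiff, ?_, ?_⟩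
  · simpa using periodic_D hper
  · exact (tendsto_D_atImInfty hF.mdiff hper hF.bdd).isBigO_one ℝ

/-- **`q`-expansion of the derivative**: `qExpansion (D F) = X d/dX (qExpansion F)`. -/
theorem qExpansion_D {F : ℍ → ℂ} (hF : IsHol F) :
    qExpansion 1 (D F) = thetaP (qExpansion 1 F) := by
  have hper : Periodic (F ∘ ofComplex) 1 := by simpa using hF.periodic
  have hperD : Periodic ((D F) ∘ ofComplex) 1 := periodic_D hper
  set φ := cuspFunction 1 F with hφ
  have hzero : IsZeroAtImInfty (D F) := tendsto_D_atImInfty hF.mdiff hper hF.bdd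
  have h1 : cuspFunction 1 (D F) =ᶠ[𝓝 0] fun q : ℂ => q * deriv φ q := by
    filter_upwards [Metric.ball_mem_nhds (0 : ℂ) one_pos] with q hq
    rcases eq_or_ne q 0 with rfl | hq0
    · rw [UpperHalfPlane.IsZeroAtImInfty.cuspFunction_apply_zero hzero one_pos, zero_mul]
    · have hq1 : ‖q‖ < 1 := by simpa using hq
      have him : 0 < (Function.Periodic.invQParam 1 q).im := by
        rw [Function.Periodic.im_invQParam]
        have : Real.log ‖q‖ < 0 := Real.log_neg (norm_pos_iff.mpr hq0) hq1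
        have hpi : 0 < 2 * π := by positivity
        have : -1 / (2 * π) * Real.log ‖q‖ = (-Real.log ‖q‖) / (2 * π) := by ring
        rw [this]
        exact div_pos (by linarith) hpi
      set τ : ℍ := ⟨Function.Periodic.invQParam 1 q, him⟩ with hτ
      have hqτ : 𝕢 1 (τ : ℂ) = q := Function.Periodic.qParam_right_inv one_ne_zero hq0
      have h2 := eq_cuspFunction (f := D F) τ one_ne_zero hperD
      rw [hqτ] at h2
      rw [h2, D_eq_q_mul_deriv_cuspFunction hF.mdiff hper τ, hqτ]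
  rw [qExpansion_eq_taylor0, taylor0_congr h1]
  have hana : AnalyticAt ℂ φ 0 := hF.analyticAt
  have h3 : (fun q : ℂ => q * deriv φ q) = (fun q : ℂ => q) * deriv φ := rfl
  have hid : AnalyticAt ℂ (fun q : ℂ => q) 0 := analyticAt_id
  rw [h3, taylor0_mul hid hana.deriv, taylor0_id, taylor0_deriv]
  rfl


section Analytic

theorem isHol_E₄ : IsHol (E₄ : ℍ → ℂ) := IsHol.ofModularForm E₄
theorem isHol_E₆ : IsHol (E₆ : ℍ → ℂ) := IsHol.ofModularForm E₆

/-- the pointwise identity `E₄³ DΔ = 3 E₄² Δ DE₄ + E₄² E₆ Δ` -/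
theorem ramanujan_pointwise (z : ℍ) :
    E₄ z ^ 3 * D Δ z = 3 * E₄ z ^ 2 * Δ z * D (E₄ : ℍ → ℂ) z + E₄ z ^ 2 * E₆ z * Δ z := by
  have h1 := discriminant_mul_D_jF z
  have h2 := discriminant_mul_D_jF_eq z
  have hpow : D (fun w : ℍ => E₄ w ^ 3) z = 3 * E₄ z ^ 2 * D (E₄ : ℍ → ℂ) z := by
    have h3 := congrFun (normalizedDerivOfComplex_pow (E₄ : ℍ → ℂ) 3 mdiff_E₄) z
    have h' : (fun w : ℍ => E₄ w ^ 3) = (E₄ : ℍ → ℂ) ^ 3 := rfl
    rw [h', h3]
    simp [Pi.mul_apply, Pi.pow_apply]
  rw [h2, hpow] at h1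
  have hΔ := discriminant_ne_zero z
  field_simp at h1
  linear_combination h1

end Analytic

section Formal

/-- **Ramanujan's identity for `E₄`, formal version over `ℂ`**:
`E₄ θΔ = 3 Δ θE₄ + E₆ Δ` for the `q`-expansions. -/
theorem ramanujan_qExpansion :
    qExpansion 1 E₄ * thetaP (qExpansion 1 Δ) =
      3 * qExpansion 1 Δ * thetaP (qExpansion 1 E₄) + qExpansion 1 E₆ * qExpansion 1 Δ := by
  have hΔ : IsHol (Δ : ℍ → ℂ) := IsHol.discriminant
  have h4 := isHol_E₄
  have h6 := isHol_E₆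
  have hD4 := isHol_D h4
  have hDΔ := isHol_D hΔ
  have hfun : (E₄ : ℍ → ℂ) ^ 3 * D (Δ : ℍ → ℂ) =
      (fun _ : ℍ => (3 : ℂ)) * (E₄ : ℍ → ℂ) ^ 2 * (Δ : ℍ → ℂ) * D (E₄ : ℍ → ℂ) +
        (E₄ : ℍ → ℂ) ^ 2 * (E₆ : ℍ → ℂ) * (Δ : ℍ → ℂ) := by
    funext z
    simp only [Pi.mul_apply, Pi.pow_apply, Pi.add_apply]
    exact ramanujan_pointwise z
  have h3 : IsHol (fun _ : ℍ => (3 : ℂ)) := IsHol.const 3
  have hq := congrArg (qExpansion 1) hfun
  rw [IsHol.qExpansion_mul (h4.pow 3) hDΔ, IsHol.qExpansion_pow h4,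
    IsHol.qExpansion_add ((((h3.mul (h4.pow 2)).mul hΔ).mul hD4)) (((h4.pow 2).mul h6).mul hΔ),
    IsHol.qExpansion_mul ((h3.mul (h4.pow 2)).mul hΔ) hD4,
    IsHol.qExpansion_mul (h3.mul (h4.pow 2)) hΔ, IsHol.qExpansion_mul h3 (h4.pow 2),
    IsHol.qExpansion_pow h4, IsHol.qExpansion_mul ((h4.pow 2).mul h6) hΔ,
    IsHol.qExpansion_mul (h4.pow 2) h6, IsHol.qExpansion_pow h4, IsHol.qExpansion_const,
    qExpansion_D hΔ, qExpansion_D h4] at hq
  have hA0 : qExpansion 1 E₄ ≠ 0 := by
    rw [Ne, IsHol.qExpansion_eq_zero_iff h4]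
    intro h
    have := Fermat.Agent.M2.LevelOnePoly.tendsto_E₄_atImInfty
    rw [h] at this
    have h2 : Tendsto (0 : ℍ → ℂ) atImInfty (𝓝 0) := tendsto_const_nhds
    exact one_ne_zero (tendsto_nhds_unique this h2)
  have hA2 : qExpansion 1 E₄ ^ 2 ≠ 0 := pow_ne_zero 2 hA0
  apply mul_left_cancel₀ hA2
  have h3C : (PowerSeries.C (3 : ℂ) : PowerSeries ℂ) = 3 := by
    rw [map_ofNat]
  rw [h3C] at hq
  linear_combination hq

/-- **Ramanujan's identity for `E₄`, formal version over `ℤ`.** -/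
theorem ramanujan_int :
    eisenstein4 * thetaP (PowerSeries.X * dedekindEtaUnit) =
      3 * (PowerSeries.X * dedekindEtaUnit) * thetaP eisenstein4 +
        eis6 * (PowerSeries.X * dedekindEtaUnit) := by
  apply PowerSeries.map_injective (Int.castRingHom ℂ) Int.cast_injective
  have h := ramanujan_qExpansion
  rw [Fermat.Agent.S24.QExp.qExpansion_discriminant, Fermat.Agent.S24.QExp.qExpansion_E₄,
    qExpansion_E₆] at h
  rw [map_mul, map_add, map_mul, map_mul, map_mul, map_mul, map_mul, map_thetaP, map_thetaP,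
    map_mul, PowerSeries.map_X, map_ofNat]
  exact h

end Formal

section Laurent

variable (R : Type*) [CommRing R]

/-- the base change `ℤ⟦X⟧ → R((Q))` -/
noncomputable def toL : PowerSeries ℤ →+* LaurentSeries R :=
  (HahnSeries.ofPowerSeries ℤ R).comp (PowerSeries.map (Int.castRingHom R))

theorem toL_apply (p : PowerSeries ℤ) :
    toL R p = HahnSeries.ofPowerSeries ℤ R (p.map (Int.castRingHom R)) := rfl

theorem thetaL_toL (p : PowerSeries ℤ) : thetaL (toL R p) = toL R (thetaP p) := by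
  rw [toL_apply, toL_apply, thetaL_ofPowerSeries, map_thetaP]

/-- `E₄`, `E₆`, `Δ` as Laurent series over `R` -/
noncomputable def E4L : LaurentSeries R := toL R eisenstein4
noncomputable def E6L : LaurentSeries R := toL R eis6
noncomputable def DeltaL : LaurentSeries R := toL R (PowerSeries.X * dedekindEtaUnit)

theorem E4L_eq_E4K (K : Type*) [Field K] : E4L K = E4K K := rfl
theorem E6L_eq_E6K (K : Type*) [Field K] : E6L K = E6K K := rfl
theorem DeltaL_eq_DeltaK (K : Type*) [Field K] : DeltaL K = DeltaK K := rfl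

theorem coeffMap_toL {S : Type*} [CommRing S] (f : R →+* S) (p : PowerSeries ℤ) :
    coeffMap f (toL R p) = toL S p := by
  ext n
  rw [coeffMap_coeff, toL_apply, toL_apply]
  rcases lt_or_ge n 0 with hn | hn
  · rw [ofPowerSeries_coeff_of_neg _ hn, ofPowerSeries_coeff_of_neg _ hn, map_zero]
  · obtain ⟨m, rfl⟩ := Int.eq_ofNat_of_zero_le hn
    rw [HahnSeries.ofPowerSeries_apply_coeff, HahnSeries.ofPowerSeries_apply_coeff,
      PowerSeries.coeff_map, PowerSeries.coeff_map]
    simp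

/-- `j Δ = E₄³` over any commutative ring -/
theorem jqModC_mul_DeltaL : jqModC R * DeltaL R = E4L R ^ 3 := by
  have hΔ : DeltaL R = HahnSeries.single (1 : ℤ) (1 : R) * toL R dedekindEtaUnit := by
    rw [DeltaL, map_mul, toL_apply, PowerSeries.map_X, HahnSeries.ofPowerSeries_X]
  have hj : jqModC R = HahnSeries.single (-1 : ℤ) (1 : R) *
      (toL R eisenstein4 ^ 3 * toL R dedekindEtaUnitInv) := by
    rw [jqModC, jNum, ← map_pow, ← map_mul]
    rfl
  have h1 : (HahnSeries.single (-1 : ℤ) (1 : R)) * HahnSeries.single (1 : ℤ) (1 : R) = 1 := by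
    rw [HahnSeries.single_mul_single]
    simp
  have h2 : toL R dedekindEtaUnitInv * toL R dedekindEtaUnit = 1 := by
    rw [← map_mul, mul_comm, dedekindEtaUnit_mul_inv, map_one]
  rw [hΔ, hj, E4L]
  calc _ = (HahnSeries.single (-1 : ℤ) (1 : R) * HahnSeries.single (1 : ℤ) (1 : R)) *
        toL R eisenstein4 ^ 3 * (toL R dedekindEtaUnitInv * toL R dedekindEtaUnit) := by ring
    _ = _ := by rw [h1, h2, one_mul, mul_one]

/-- Ramanujan's identity for `E₄` in `R((Q))` -/
theorem ramanujan_laurent :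
    E4L R * thetaL (DeltaL R) = 3 * DeltaL R * thetaL (E4L R) + E6L R * DeltaL R := by
  have h := congrArg (toL R) ramanujan_int
  rw [E4L, E6L, DeltaL, thetaL_toL, thetaL_toL]
  simp only [map_mul, map_add, map_ofNat] at h ⊢
  exact h

end Laurent

section ThetaJ

/-- **`θ j = -E₄² E₆ / Δ`** over `ℤ`. -/
theorem thetaL_jqModC_int :
    thetaL (jqModC ℤ) * DeltaL ℤ = -(E4L ℤ ^ 2 * E6L ℤ) := by
  have h1 := congrArg thetaL (jqModC_mul_DeltaL ℤ)
  rw [thetaL_mul, pow_succ, thetaL_mul, pow_two, thetaL_mul] at h1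
  have h2 := ramanujan_laurent ℤ
  have h3 := jqModC_mul_DeltaL ℤ
  have ha : E4L ℤ ≠ 0 := by
    intro h
    have := congrArg (fun s : LaurentSeries ℤ => s.coeff 0) h
    simp only [E4L, toL_apply, HahnSeries.coeff_zero] at this
    rw [show (0 : ℤ) = ((0 : ℕ) : ℤ) from rfl, HahnSeries.ofPowerSeries_apply_coeff,
      PowerSeries.coeff_map, PowerSeries.coeff_zero_eq_constantCoeff,
      constantCoeff_eisenstein4] at this
    simp at this
  have hd : DeltaL ℤ ≠ 0 := by
    intro h
    rw [h, mul_zero] at h3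
    exact pow_ne_zero 3 ha h3.symm
  have had : E4L ℤ * DeltaL ℤ ≠ 0 := mul_ne_zero ha hd
  apply mul_left_cancel₀ had
  linear_combination (DeltaL ℤ) * (E4L ℤ) * h1 - jqModC ℤ * DeltaL ℤ * h2 -
    (3 * DeltaL ℤ * thetaL (E4L ℤ) + E6L ℤ * DeltaL ℤ) * h3

/-- **`θ j = -E₄² E₆ / Δ`** over any commutative ring. -/
theorem thetaL_jqModC (R : Type*) [CommRing R] :
    thetaL (jqModC R) * DeltaL R = -(E4L R ^ 2 * E6L R) := by
  have h := congrArg (coeffMap (Int.castRingHom R)) thetaL_jqModC_int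
  rw [map_mul, map_neg, map_mul, map_pow, coeffMap_thetaL] at h
  have hj : coeffMap (Int.castRingHom R) (jqModC ℤ) = jqModC R := map_jqModC (Int.castRingHom R)
  rw [hj] at h
  rw [DeltaL, E4L, E6L, ← coeffMap_toL ℤ (Int.castRingHom R), ← coeffMap_toL ℤ (Int.castRingHom R),
    ← coeffMap_toL ℤ (Int.castRingHom R)]
  exact h

end ThetaJ

end Fermat.Agent.S36.R3.ThetaJ
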