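import Mathlib
import Fermat.Agent.S36.R3.ThetaJ
import Fermat.Agent.S36.R1.PqLaurent

/-!
# S36 / block [R3], leaf (R3-T) part 2: `(θ j̄)^(q-1)` in closed form

`θ = Q d/dQ` on Laurent series (`PiSeries.thetaL`), `j = jqModC R`.  From `θ j · Δ = -E₄² E₆`
(`ThetaJ.thetaL_jqModC`), `j Δ = E₄³`, `(j - 1728) Δ = E₆²`:

* `thetaL_jqModC_of_six` : if `6 = 0` in `R` (characteristic `2` or `3`) then `θ j = -j`;
* `thetaL_pow_mul` : over any commutative ring, if `E₄^δ E₆^ε Δ^m · T = 1` then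
  `(θ j)^(12m+4δ+6ε) · T² = j^(8m+2δ+4ε) (j - 1728)^(6m+2δ+2ε)`;
* `exists_thetaL_pow` : for a field of characteristic `q ≥ 5`, with the supersingular polynomial
  `S` of `R1/PqLaurent.exists_structure` (`T = S(j̄)`, `12m+4δ+6ε = q-1`);
* `thetaL_tau_pow` : the corollary for the level-4 Hauptmodul: if
  `j · τ⁴ (τ + 16) = (τ² + 256 τ + 4096)³` then
  `(θ τ)^(12m+4δ+6ε) · T² · (τ²+256τ+4096)^(2δ) · ((τ+32)(τ²-512τ-8192))^(2ε)
     = τ^(4m+4δ+6ε) (τ+16)^(10m+4δ+6ε)`,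
  so `(θ τ)^(q-1)` is a unit wherever `τ` and `τ + 16` are units.
-/

set_option autoImplicit false

namespace Fermat.Agent.S36.R3.ThetaPow

open ModularCurve Polynomial
open Fermat.Agent.S16.BetaLemma Fermat.Agent.S36.R3.PiSeries Fermat.Agent.S36.R3.ThetaJ

section Ring

variable (R : Type*) [CommRing R]

theorem thetaL_natCast (n : ℕ) : thetaL ((n : LaurentSeries R)) = 0 := by
  rw [← map_natCast (HahnSeries.C (Γ := ℤ) (R := R)) n, thetaL_C]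

theorem thetaL_ofNat (n : ℕ) [n.AtLeastTwo] :
    thetaL (OfNat.ofNat n : LaurentSeries R) = 0 := by
  rw [← Nat.cast_ofNat (R := LaurentSeries R), thetaL_natCast]

variable {R} in
theorem thetaL_pow' (f : LaurentSeries R) (n : ℕ) :
    thetaL (f ^ n) = (n : LaurentSeries R) * f ^ (n - 1) * thetaL f := by
  cases n with
  | zero => simp [thetaL_one]
  | succ n =>
    rw [thetaL_pow, map_natCast]
    simp

/-- `E₄³ - E₆² = 1728 Δ` over any commutative ring -/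
theorem E4L_cube_sub : E4L R ^ 3 - E6L R ^ 2 = 1728 * DeltaL R := by
  have h := congrArg (toL R) h1728
  rw [map_sub, map_pow, map_pow, map_mul, map_ofNat] at h
  exact h

/-- `E₆² = (j - 1728) Δ` -/
theorem E6L_sq : E6L R ^ 2 = (jqModC R - 1728) * DeltaL R := by
  have h1 := E4L_cube_sub R
  have h2 := jqModC_mul_DeltaL R
  linear_combination -h2 - h1

theorem isUnit_DeltaL : IsUnit (DeltaL R) := by
  have h1 : toL R dedekindEtaUnit * toL R dedekindEtaUnitInv = 1 := by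
    rw [← map_mul, dedekindEtaUnit_mul_inv, map_one]
  have h2 : toL R PowerSeries.X * HahnSeries.single (-1 : ℤ) (1 : R) = 1 := by
    rw [toL_apply, PowerSeries.map_X, HahnSeries.ofPowerSeries_X, HahnSeries.single_mul_single]
    simp
  rw [DeltaL, map_mul]
  exact (IsUnit.of_mul_eq_one _ h2).mul (IsUnit.of_mul_eq_one _ h1)

theorem E4L_eq_one (h : (240 : R) = 0) : E4L R = 1 := by
  have h1 : eisenstein4.map (Int.castRingHom R) = 1 := by
    ext n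
    rw [PowerSeries.coeff_map, eisenstein4, PowerSeries.coeff_mk, PowerSeries.coeff_one]
    split_ifs with hn
    · simp
    · rw [map_mul, map_ofNat, h, zero_mul]
  rw [E4L, toL_apply, h1, map_one]

theorem E6L_eq_one (h : (504 : R) = 0) : E6L R = 1 := by
  have h1 : eis6.map (Int.castRingHom R) = 1 := by
    ext n
    rw [PowerSeries.coeff_map, eis6, PowerSeries.coeff_mk, PowerSeries.coeff_one]
    split_ifs with hn
    · simp
    · rw [map_mul, map_neg, map_ofNat, h, neg_zero, zero_mul]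
  rw [E6L, toL_apply, h1, map_one]

/-- **characteristic `2` and `3`**: `θ j̄ = -j̄`. -/
theorem thetaL_jqModC_of_six (h6 : (6 : R) = 0) : thetaL (jqModC R) = -jqModC R := by
  have h240 : (240 : R) = 0 := by
    have : (240 : R) = 6 * 40 := by norm_num
    rw [this, h6, zero_mul]
  have h504 : (504 : R) = 0 := by
    have : (504 : R) = 6 * 84 := by norm_num
    rw [this, h6, zero_mul]
  have h1 := thetaL_jqModC R
  have h2 := jqModC_mul_DeltaL R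
  rw [E4L_eq_one R h240, E6L_eq_one R h504] at h1
  rw [E4L_eq_one R h240] at h2
  apply (isUnit_DeltaL R).mul_left_injective
  simp only
  linear_combination h1 + h2

/-- **The closed form of `(θ j)^(q-1)`**, ring-theoretic version: if `E₄^δ E₆^ε Δ^m · T = 1` then
`(θ j)^(12m+4δ+6ε) · T² = j^(8m+2δ+4ε) (j - 1728)^(6m+2δ+2ε)`. -/
theorem thetaL_pow_mul {m δ ε : ℕ} (T : LaurentSeries R)
    (hT : E4L R ^ δ * E6L R ^ ε * DeltaL R ^ m * T = 1) :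
    thetaL (jqModC R) ^ (12 * m + 4 * δ + 6 * ε) * T ^ 2 =
      jqModC R ^ (8 * m + 2 * δ + 4 * ε) * (jqModC R - 1728) ^ (6 * m + 2 * δ + 2 * ε) := by
  have hunit : IsUnit (DeltaL R ^ (12 * m + 4 * δ + 6 * ε) *
      (E4L R ^ δ * E6L R ^ ε * DeltaL R ^ m) ^ 2) :=
    ((isUnit_DeltaL R).pow _).mul ((IsUnit.of_mul_eq_one _ hT).pow 2)
  apply hunit.mul_left_injective
  simp only
  have h1 := thetaL_jqModC R
  have h2 := jqModC_mul_DeltaL R
  have h3 := E6L_sq R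
  have heven : Even (12 * m + 4 * δ + 6 * ε) := ⟨6 * m + 2 * δ + 3 * ε, by ring⟩
  calc thetaL (jqModC R) ^ (12 * m + 4 * δ + 6 * ε) * T ^ 2 *
        (DeltaL R ^ (12 * m + 4 * δ + 6 * ε) * (E4L R ^ δ * E6L R ^ ε * DeltaL R ^ m) ^ 2)
      = (thetaL (jqModC R) * DeltaL R) ^ (12 * m + 4 * δ + 6 * ε) *
          (E4L R ^ δ * E6L R ^ ε * DeltaL R ^ m * T) ^ 2 := by ring
    _ = (E4L R ^ 2 * E6L R) ^ (12 * m + 4 * δ + 6 * ε) := by
        rw [h1, hT, one_pow, mul_one, heven.neg_pow]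
    _ = (E4L R ^ 3) ^ (8 * m + 2 * δ + 4 * ε) * (E6L R ^ 2) ^ (6 * m + 2 * δ + 2 * ε) *
          (E4L R ^ δ) ^ 2 * (E6L R ^ ε) ^ 2 := by ring
    _ = (jqModC R * DeltaL R) ^ (8 * m + 2 * δ + 4 * ε) *
          ((jqModC R - 1728) * DeltaL R) ^ (6 * m + 2 * δ + 2 * ε) *
          (E4L R ^ δ) ^ 2 * (E6L R ^ ε) ^ 2 := by rw [h2, h3]
    _ = _ := by
        generalize jqModC R - 1728 = k
        ring

theorem thetaL_jqModC_of_charP (q : ℕ) [CharP R q] (hq : q ∣ 6) :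
    thetaL (jqModC R) = -jqModC R := by
  apply thetaL_jqModC_of_six
  have h : ((6 : ℕ) : R) = 0 := (CharP.cast_eq_zero_iff R q 6).mpr hq
  exact_mod_cast h

end Ring

section Field

variable (q : ℕ) [hq : Fact q.Prime] (K : Type*) [Field K] [CharP K q]

/-- **`(θ j̄)^(q-1) · S(j̄)² = j̄^A (j̄ - 1728)^B`** over a field of characteristic `q ≥ 5`, with the
supersingular polynomial `S` of `R1/PqLaurent.exists_structure`, `A = 2(q-1-δ)/3`,
`B = (q-1-2ε)/2`. -/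
theorem exists_thetaL_pow (h5 : 5 ≤ q) :
    ∃ (m δ ε : ℕ) (S : K[X]), δ ≤ 1 ∧ ε ≤ 1 ∧ q - 1 = 12 * m + 4 * δ + 6 * ε ∧
      S.Monic ∧ S.natDegree = m ∧
      E4L K ^ δ * E6L K ^ ε * DeltaL K ^ m * aeval (jqModC K) S = 1 ∧
      thetaL (jqModC K) ^ (q - 1) * aeval (jqModC K) S ^ 2 =
        jqModC K ^ (8 * m + 2 * δ + 4 * ε) * (jqModC K - 1728) ^ (6 * m + 2 * δ + 2 * ε) := by
  obtain ⟨m, δ, ε, S, hδ, hε, hqm, hS1, hS2, hS, -⟩ :=
    Fermat.Agent.S36.R1.PqLaurent.exists_structure q K h5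
  refine ⟨m, δ, ε, S, hδ, hε, hqm, hS1, hS2, hS, ?_⟩
  rw [hqm]
  exact thetaL_pow_mul K _ hS

end Field

section Hauptmodul

/-- the algebra behind `thetaL_tau_pow` -/
theorem tau_pow_aux {F : Type*} [Field F] (j k τ s c d x y T : F) {m δ ε : ℕ}
    (h1 : j * (τ ^ 4 * s) = c ^ 3) (h2 : k * (τ ^ 4 * s) = d ^ 2)
    (h3 : y * (c ^ 2 * τ ^ 3 * d) = x * (τ ^ 4 * s) ^ 2)
    (h4 : x ^ (12 * m + 4 * δ + 6 * ε) * T ^ 2 =
      j ^ (8 * m + 2 * δ + 4 * ε) * k ^ (6 * m + 2 * δ + 2 * ε))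
    (hτ : τ ≠ 0) (hs : s ≠ 0) (hc : c ≠ 0) (hd : d ≠ 0) :
    y ^ (12 * m + 4 * δ + 6 * ε) * T ^ 2 * c ^ (2 * δ) * d ^ (2 * ε) =
      τ ^ (4 * m + 4 * δ + 6 * ε) * s ^ (10 * m + 4 * δ + 6 * ε) := by
  have hZ : c ^ (24 * m + 6 * δ + 12 * ε) * d ^ (12 * m + 4 * δ + 4 * ε) *
      τ ^ (3 * (12 * m + 4 * δ + 6 * ε)) * (τ ^ 4 * s) ^ (14 * m + 4 * δ + 6 * ε) ≠ 0 :=
    mul_ne_zero (mul_ne_zero (mul_ne_zero (pow_ne_zero _ hc) (pow_ne_zero _ hd))
      (pow_ne_zero _ hτ)) (pow_ne_zero _ (mul_ne_zero (pow_ne_zero _ hτ) hs))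
  apply mul_right_cancel₀ hZ
  calc y ^ (12 * m + 4 * δ + 6 * ε) * T ^ 2 * c ^ (2 * δ) * d ^ (2 * ε) *
        (c ^ (24 * m + 6 * δ + 12 * ε) * d ^ (12 * m + 4 * δ + 4 * ε) *
          τ ^ (3 * (12 * m + 4 * δ + 6 * ε)) * (τ ^ 4 * s) ^ (14 * m + 4 * δ + 6 * ε))
      = (y * (c ^ 2 * τ ^ 3 * d)) ^ (12 * m + 4 * δ + 6 * ε) * T ^ 2 *
          (τ ^ 4 * s) ^ (14 * m + 4 * δ + 6 * ε) := by ring
    _ = (x ^ (12 * m + 4 * δ + 6 * ε) * T ^ 2) * (τ ^ 4 * s) ^ (2 * (12 * m + 4 * δ + 6 * ε)) *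
          (τ ^ 4 * s) ^ (14 * m + 4 * δ + 6 * ε) := by rw [h3]; ring
    _ = (j * (τ ^ 4 * s)) ^ (8 * m + 2 * δ + 4 * ε) * (k * (τ ^ 4 * s)) ^ (6 * m + 2 * δ + 2 * ε) *
          (τ ^ 4 * s) ^ (2 * (12 * m + 4 * δ + 6 * ε)) := by rw [h4]; ring
    _ = _ := by rw [h1, h2]; ring

variable (K : Type*) [Field K]

/-- **The level-4 Hauptmodul corollary**: if `j · τ⁴ (τ + 16) = (τ² + 256 τ + 4096)³` in `K((Q))`,
`2 ≠ 0` in `K`, and `E₄^δ E₆^ε Δ^m · T = 1`, then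
`(θ τ)^(12m+4δ+6ε) · T² · c^(2δ) · d^(2ε) = τ^(4m+4δ+6ε) (τ + 16)^(10m+4δ+6ε)`
with `c = τ² + 256 τ + 4096`, `d = (τ + 32)(τ² - 512 τ - 8192)`. -/
theorem thetaL_tau_pow (h2 : (2 : K) ≠ 0) {m δ ε : ℕ} (T : LaurentSeries K)
    (hT : E4L K ^ δ * E6L K ^ ε * DeltaL K ^ m * T = 1) (τ : LaurentSeries K)
    (hτ : jqModC K * (τ ^ 4 * (τ + 16)) = (τ ^ 2 + 256 * τ + 4096) ^ 3) :
    thetaL τ ^ (12 * m + 4 * δ + 6 * ε) * T ^ 2 * (τ ^ 2 + 256 * τ + 4096) ^ (2 * δ) *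
        ((τ + 32) * (τ ^ 2 - 512 * τ - 8192)) ^ (2 * ε) =
      τ ^ (4 * m + 4 * δ + 6 * ε) * (τ + 16) ^ (10 * m + 4 * δ + 6 * ε) := by
  have hd : (jqModC K - 1728) * (τ ^ 4 * (τ + 16)) =
      ((τ + 32) * (τ ^ 2 - 512 * τ - 8192)) ^ 2 := by linear_combination hτ
  -- the derivative of the modular equation
  have hθ : thetaL (jqModC K) * (τ ^ 4 * (τ + 16)) +
      jqModC K * ((4 * τ ^ 3 * (τ + 16) + τ ^ 4) * thetaL τ) =
      3 * (τ ^ 2 + 256 * τ + 4096) ^ 2 * ((2 * τ + 256) * thetaL τ) := by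
    have h := congrArg thetaL hτ
    rw [thetaL_mul, thetaL_mul, thetaL_pow', thetaL_pow', thetaL_add, thetaL_add, thetaL_add,
      thetaL_mul, thetaL_pow', thetaL_ofNat, thetaL_ofNat, thetaL_ofNat] at h
    norm_num at h
    linear_combination h
  have h3 : thetaL τ * ((τ ^ 2 + 256 * τ + 4096) ^ 2 * τ ^ 3 *
      ((τ + 32) * (τ ^ 2 - 512 * τ - 8192))) = thetaL (jqModC K) * (τ ^ 4 * (τ + 16)) ^ 2 := by
    linear_combination (-(τ ^ 4 * (τ + 16))) * hθ +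
      ((4 * τ ^ 3 * (τ + 16) + τ ^ 4) * thetaL τ) * hτ
  have h4 := thetaL_pow_mul K T hT
  -- non-vanishing
  have hj : jqModC K ≠ 0 := by
    intro h0
    have h := jqModC_mul_DeltaL K
    rw [h0, zero_mul] at h
    exact E4K_ne_zero K (pow_eq_zero_iff (by norm_num) |>.mp h.symm)
  have hk : jqModC K - 1728 ≠ 0 := by
    intro h0
    have h := E6L_sq K
    rw [h0, zero_mul] at h
    exact E6K_ne_zero K (pow_eq_zero_iff (by norm_num) |>.mp h)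
  have h2L : (2 : LaurentSeries K) ≠ 0 := by
    intro h0
    apply h2
    have h : (HahnSeries.C (2 : K) : LaurentSeries K) = 0 := by
      rw [map_ofNat]
      exact h0
    exact (map_eq_zero (HahnSeries.C (Γ := ℤ) (R := K))).mp h
  have hτ0 : τ ≠ 0 := by
    intro h0
    rw [h0] at hτ
    have h4096 : (2 : LaurentSeries K) ^ 36 = 0 := by linear_combination -hτ
    exact h2L (pow_eq_zero_iff (by norm_num) |>.mp h4096)
  have hs0 : τ + 16 ≠ 0 := by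
    intro h0
    have hτ' : τ = -16 := by linear_combination h0
    rw [hτ'] at hτ
    have h256 : (2 : LaurentSeries K) ^ 24 = 0 := by linear_combination -hτ
    exact h2L (pow_eq_zero_iff (by norm_num) |>.mp h256)
  have hD0 : τ ^ 4 * (τ + 16) ≠ 0 := mul_ne_zero (pow_ne_zero _ hτ0) hs0
  have hc0 : τ ^ 2 + 256 * τ + 4096 ≠ 0 := by
    intro h0
    rw [h0] at hτ
    exact mul_ne_zero hj hD0 (by rw [hτ]; ring)
  have hd0 : (τ + 32) * (τ ^ 2 - 512 * τ - 8192) ≠ 0 := by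
    intro h0
    rw [h0] at hd
    exact mul_ne_zero hk hD0 (by rw [hd]; ring)
  exact tau_pow_aux (jqModC K) (jqModC K - 1728) τ (τ + 16) _ _ (thetaL (jqModC K)) (thetaL τ) T
    hτ hd h3 h4 hτ0 hs0 hc0 hd0

end Hauptmodul

end Fermat.Agent.S36.R3.ThetaPow
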