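/-
S36, block [R3], leaf (R3-G), file 3 (helper3): **factoriality at a point of `C11` from a generator
candidate, when the branch quotient is already known to be a principal ideal ring** (block [BRANCH]:
`R ⧸ P_i ≅ R̄0` is Dedekind, hence `(R-b)` holds at every point; then [R3] only owes `(R-a)`).

* `ufd_of_generator` (B-level): `Sat`, `τ` uniformiser of `V`, `τ ^ e / ϖ ∈ V` of invertible residue,
  `B / (B ∩ 𝔪_V)` a principal ideal ring  ⟹  `B` factorial (and `B ∩ 𝔪_V = τ B`, `τ` prime).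
* `ufd_of_chartHyp` : the same at a point `𝔫` of a chart with `ChartHyp`, lying on ONE component.
* `localRoots_of_generator_pid` : composition with `ChartRoots.localRoots_onlyOne`.

NOTE (for the instantiation): NO ordinarity hypothesis on the point is needed.  At a point through which
only `V11` passes, `w = Π ^ (q - 1) / q` lies in `R_𝔫` by saturation, and `w * w' ≡ 1` modulo `𝔪_{V11}` for
the explicit GLOBAL element `w' ∈ Rfin` (ThetaPow's closed form, `t` and `t + 16` units of `Rfin`) forces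
`w ∈ R_𝔫ˣ` because `R_𝔫 ∩ 𝔪_{V11} ⊆ 𝔪_{R_𝔫}`.  (At supersingular points `w ∉ R_𝔫`: they are triple points.)
-/
import Mathlib
import Fermat.Agent.S36.R3.GeneratorChart

set_option autoImplicit false
set_option linter.unusedSectionVars false
set_option linter.style.haveILetI false

namespace Fermat.Agent.S36.R3.GeneratorPid

open Fermat.Agent.S36.Local.LocalRoot Fermat.Agent.S36.Local.Spread
  Fermat.Agent.S36.Local.ChartSpread Fermat.Agent.S36.D.ChartRoots
  Fermat.Agent.N4.Cover.Globalize Fermat.Agent.P3G.Krull Fermat.Agent.P4.TwoValApprox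
  Fermat.Agent.S36.R3.Generator Fermat.Agent.S36.R3.GeneratorChart

universe u

section Abstract

variable {B F : Type*} [CommRing B] [IsDomain B] [Field F] [Algebra B F] [IsFractionRing B F]
  [IsLocalRing B] [IsNoetherianRing B]

/-- **(R3-G), PID form.** -/
theorem ufd_of_generator (V : ValuationSubring F) (hV : ∀ b : B, algebraMap B F b ∈ V) {ϖ τ : B}
    (hϖ0 : ϖ ≠ 0) (hsat : Sat V ϖ) {e : ℕ} (he : 0 < e)
    (hτ : algebraMap B F τ ∈ V.nonunits)
    (hunif : ∀ x ∈ V.nonunits, x * (algebraMap B F τ)⁻¹ ∈ V)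
    (hpow : algebraMap B F τ ^ e * (algebraMap B F ϖ)⁻¹ ∈ V)
    (hinv : ∃ w' : B,
      algebraMap B F τ ^ e * (algebraMap B F ϖ)⁻¹ * algebraMap B F w' - 1 ∈ V.nonunits)
    (hPID : IsPrincipalIdealRing (B ⧸ centre V hV)) :
    UniqueFactorizationMonoid B ∧ centre V hV = Ideal.span {τ} ∧ Prime τ ∧
      ∃ w : B, IsUnit w ∧ τ ^ e = ϖ * w := by
  obtain ⟨w, hwu, hw⟩ := exists_unit_pow_eq V hV hϖ0 hsat e hpow hinv
  have hc := centre_eq_span V hV hϖ0 hsat he hτ hunif hwu hw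
  have hp := prime_of_generator V hV hϖ0 hsat he hτ hunif hwu hw
  have hpid : IsPrincipalIdealRing (B ⧸ Ideal.span {τ}) := by rw [← hc]; exact hPID
  exact ⟨Fermat.Agent.N4.Cover.LocalUFD.uniqueFactorizationMonoid hp hpid, hc, hp, w, hwu, hw⟩

end Abstract

section Chart

variable {O K₀ : Type*} [CommRing O] [IsDomain O] [IsDiscreteValuationRing O]
  [Field K₀] [Algebra O K₀] [IsFractionRing O K₀]
variable {R : Type*} [CommRing R] [IsDomain R] [IsNoetherianRing R] [Algebra O R]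
variable {F : Type u} [Field F] [Algebra R F] [IsFractionRing R F] [Algebra O F] [Algebra K₀ F]
  [IsScalarTower O R F] [IsScalarTower O K₀ F]
variable {ι : Type*} [Fintype ι]
variable {V : ι → ValuationSubring F} {hV : ∀ i (r : R), algebraMap R F r ∈ V i}

/-- **(R-a) at a point of a `ChartHyp` lying on the single component `V i₀`**, given (R-b). -/
theorem ufd_of_chartHyp {π : O} {E : ℕ} (H : ChartHyp V hV π E)
    (𝔫 : Ideal R) [𝔫.IsPrime] (i₀ : ι) (hi₀ : centre (V i₀) (hV i₀) ≤ 𝔫)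
    (honly : ∀ j, j ≠ i₀ → ¬ centre (V j) (hV j) ≤ 𝔫)
    (τ : locAt (F := F) 𝔫) {e : ℕ} (he : 0 < e)
    (hτ : (τ : F) ∈ (V i₀).nonunits)
    (hunif : ∀ x ∈ (V i₀).nonunits, x * (τ : F)⁻¹ ∈ V i₀)
    (hpow : (τ : F) ^ e * (algebraMap R F (algebraMap O R π))⁻¹ ∈ V i₀)
    (hinv : ∃ w' : locAt (F := F) 𝔫,
      (τ : F) ^ e * (algebraMap R F (algebraMap O R π))⁻¹ * (w' : F) - 1 ∈ (V i₀).nonunits)
    (hPID : IsPrincipalIdealRing (locAt (F := F) 𝔫 ⧸
      centre (V i₀) (fun b => locAt_le 𝔫 (V i₀) (hV i₀) hi₀ b))) :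
    UniqueFactorizationMonoid (locAt (F := F) 𝔫) ∧
      centre (V i₀) (fun b => locAt_le 𝔫 (V i₀) (hV i₀) hi₀ b) = Ideal.span {τ} ∧ Prime τ := by
  haveI : IsLocalRing (locAt (F := F) 𝔫) := isLocalRing_locAt 𝔫
  haveI : IsNoetherianRing (locAt (F := F) 𝔫) := isNoetherianRing_locAt 𝔫
  have hsat : ∀ r : R, (∃ y : F, (∀ i, y ∈ V i) ∧
      algebraMap R F r = algebraMap R F (algebraMap O R π) * y) → algebraMap O R π ∣ r := by
    rintro r ⟨y, hy, hry⟩
    exact H.sat r (fun i => ⟨y, hy i, hry⟩)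
  have honly' : ∀ i, vCentre (V i) (hV i) ≤ 𝔫 → i = i₀ := by
    intro i hi
    by_contra hne
    exact honly i hne (by rw [← vCentre_eq_centre]; exact hi)
  have hϖB : algebraMap R (locAt (F := F) 𝔫) (algebraMap O R π) ≠ 0 := by
    intro h0
    have := congrArg (fun z : locAt (F := F) 𝔫 => (z : F)) h0
    exact Fermat.Agent.P3G.Krull.algebraMap_ne_zero (F := F) H.ne this
  have hS := sat_locAt_one V hV H.ne hsat (fun i => isArch_of_chartHyp H i) 𝔫 i₀ honly'
  obtain ⟨h1, h2, h3, -⟩ := ufd_of_generator (V i₀)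
    (fun b => locAt_le 𝔫 (V i₀) (hV i₀) hi₀ b) hϖB hS he hτ hunif hpow hinv hPID
  exact ⟨h1, h2, h3⟩

/-- **Local roots at a point of `C11` off the crossings** (PID form). -/
theorem localRoots_of_generator_pid {π : O} {E : ℕ} (H : ChartHyp V hV π E)
    (𝔫 : Ideal R) [𝔫.IsPrime] (i₀ : ι) (hi₀ : centre (V i₀) (hV i₀) ≤ 𝔫)
    (honly : ∀ j, j ≠ i₀ → ¬ centre (V j) (hV j) ≤ 𝔫)
    (τ : locAt (F := F) 𝔫) {m : ℕ} (hm : 0 < m)
    (hτ : (τ : F) ∈ (V i₀).nonunits)
    (hunif : ∀ x ∈ (V i₀).nonunits, x * (τ : F)⁻¹ ∈ V i₀)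
    (hpow : (τ : F) ^ m * (algebraMap R F (algebraMap O R π))⁻¹ ∈ V i₀)
    (hinv : ∃ w' : locAt (F := F) 𝔫,
      (τ : F) ^ m * (algebraMap R F (algebraMap O R π))⁻¹ * (w' : F) - 1 ∈ (V i₀).nonunits)
    (hPID : IsPrincipalIdealRing (locAt (F := F) 𝔫 ⧸
      centre (V i₀) (fun b => locAt_le 𝔫 (V i₀) (hV i₀) hi₀ b)))
    {e : ℕ} (he : IsUnit ((e : ℕ) : R)) {h : F}
    (hh1 : ∀ i, Cong (V i) (algebraMap R F (algebraMap O R π)) (h - 1))
    (hhor : Horizontal K₀ e h) :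
    ∃ η : F, η ≠ 0 ∧
      (∃ a r : R, a ∉ 𝔫 ∧ r ∉ 𝔫 ∧ h * algebraMap R F a = η ^ e * algebraMap R F r) ∧
      ∃ w : F, (∀ i, w ∈ V i) ∧ η - 1 = algebraMap R F (algebraMap O R π) * w := by
  obtain ⟨hufd, -⟩ := ufd_of_chartHyp H 𝔫 i₀ hi₀ honly τ hm hτ hunif hpow hinv hPID
  haveI := hufd
  exact localRoots_onlyOne (K₀ := K₀) H 𝔫 i₀ hi₀ honly hPID he hh1 hhor

end Chart

end Fermat.Agent.S36.R3.GeneratorPid
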