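/-
S36, block [R3], leaf (R3-G), file 4 (helper3): **the generator theorem at the finite points of `C11`
off the crossings, for the concrete chart `Rfin K (M₀ q²) O`**, with the generator
`Π_g = β₂β₁ g − α₂α₁ g` of a function `g ∈ Rfin K M₀ O` of level `M₀` (`g = t`, the level-4
Hauptmodul, for odd `q`).

All modular inputs are NAMED hypotheses, in the shapes in which they are produced:

* `H : ChartHyp V hV π E` on `Rfin K (M₀ q²) O`, `hπ : π = q` in the function field (block [C]/[V]);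
* `ev : V i₀ → κ'((Q))` a place of `V i₀ = V11` (`hev0`; `ThreeVal.ev11` / `MidVal.midEv`);
* `τ₀`, `hτ₀`, `hram` : a uniformiser of `V11` with `q = w τ₀ ^ (q-1)` (`ThreeVal.unif_V11/ram_V11`);
* `hw`, `hevw` : the Wilson residue `ev (Π_g ^ (q-1) / q) = -Θ ^ (q-1)` (`R3/WilsonMid`);
* `w0`, `hevw0` : the GLOBAL inverse `w0 ∈ Rfin K M₀ O`, `-Θ ^ (q-1) · ev (α₂α₁ w0) = 1` (`R3/WInv`);
* `hPID` : `(R-b)` from block [BRANCH].

Conclusion: `locAt 𝔫` is factorial, `Π_g` is a prime element generating the centre of `V11`.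
NO ordinarity hypothesis on the point.
-/
import Mathlib
import Fermat.Agent.P3G.LevelIntegrality
import Fermat.Agent.S36.R3.GeneratorPid

set_option autoImplicit false
set_option linter.unusedSectionVars false
set_option linter.style.haveILetI false

namespace Fermat.Agent.S36.R3.GeneratorInst

open Fermat.Agent.N4.Setting Fermat.Agent.N4F.E.DegreeLevelRaise
open Fermat.Agent.P3G.LevelIntegrality
open Fermat.Agent.S36.Local.LocalRoot Fermat.Agent.S36.Local.Spread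
  Fermat.Agent.S36.Local.ChartSpread Fermat.Agent.S36.D.ChartRoots
  Fermat.Agent.N4.Cover.Globalize Fermat.Agent.P3G.Krull
  Fermat.Agent.S36.R3.Generator Fermat.Agent.S36.R3.GeneratorPid

/-! ### The generic form: a chart with `ChartHyp` and a place of `V i₀` -/

section Place

universe u

variable {O' K₀ : Type*} [CommRing O'] [IsDomain O'] [IsDiscreteValuationRing O']
  [Field K₀] [Algebra O' K₀] [IsFractionRing O' K₀]
variable {R : Type*} [CommRing R] [IsDomain R] [IsNoetherianRing R] [Algebra O' R]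
variable {F : Type u} [Field F] [Algebra R F] [IsFractionRing R F] [Algebra O' F] [Algebra K₀ F]
  [IsScalarTower O' R F] [IsScalarTower O' K₀ F]
variable {ι : Type*} [Fintype ι]
variable {V : ι → ValuationSubring F} {hV : ∀ i (r : R), algebraMap R F r ∈ V i}

/-- **(R3-G) with a place.**  `ev` a place of `V i₀` (kernel `= 𝔪_{V i₀}`), `τ₀` a uniformiser of
`V i₀` with `ϖ = w τ₀ ^ e`, `τ ∈ R_𝔫` with Wilson residue `ev (τ ^ e / ϖ) = -Θ ^ e`, and `w' ∈ R_𝔫`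
with `-Θ ^ e · ev w' = 1`; `(R-b)` given.  Then `R_𝔫` is factorial and `τ` is a prime element
generating the centre of `V i₀`. -/
theorem ufd_of_place {π : O'} {E : ℕ} (H : ChartHyp V hV π E) (i₀ : ι)
    {κ' : Type*} [Field κ'] (ev : ↥(V i₀) →+* LaurentSeries κ')
    (hev0 : ∀ y : ↥(V i₀), ev y = 0 ↔ (y : F) ∈ (V i₀).nonunits)
    {e : ℕ} (he : 0 < e) (τ₀ : F) (hτ₀ : ∀ y ∈ (V i₀).nonunits, y * τ₀⁻¹ ∈ V i₀)
    (hram : ∃ w : F, w ∈ V i₀ ∧ w⁻¹ ∈ V i₀ ∧
      algebraMap R F (algebraMap O' R π) = w * τ₀ ^ e)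
    (𝔫 : Ideal R) [𝔫.IsPrime] (hi₀ : centre (V i₀) (hV i₀) ≤ 𝔫)
    (honly : ∀ j, j ≠ i₀ → ¬ centre (V j) (hV j) ≤ 𝔫)
    (τ w' : locAt (F := F) 𝔫) (Θ : LaurentSeries κ')
    (hw : (τ : F) ^ e * (algebraMap R F (algebraMap O' R π))⁻¹ ∈ V i₀)
    (hevw : ev ⟨_, hw⟩ = -Θ ^ e)
    (hw'V : (w' : F) ∈ V i₀) (hevw' : -Θ ^ e * ev ⟨_, hw'V⟩ = 1)
    (hPID : IsPrincipalIdealRing (locAt (F := F) 𝔫 ⧸
      centre (V i₀) (fun b => locAt_le 𝔫 (V i₀) (hV i₀) hi₀ b))) :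
    UniqueFactorizationMonoid (locAt (F := F) 𝔫) ∧
      centre (V i₀) (fun b => locAt_le 𝔫 (V i₀) (hV i₀) hi₀ b) = Ideal.span {τ} ∧ Prime τ := by
  set ϖ : F := algebraMap R F (algebraMap O' R π) with hϖ
  have hϖnu : ϖ ∈ (V i₀).nonunits := H.mem i₀
  have hϖ0 : ϖ ≠ 0 := Fermat.Agent.P3G.Krull.algebraMap_ne_zero (F := F) H.ne
  -- `τ` is a nonunit of `V i₀`
  have hτnu : (τ : F) ∈ (V i₀).nonunits := by
    rw [(V i₀).mem_nonunits_iff]
    by_contra hcon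
    rw [not_lt] at hcon
    have h1 : (V i₀).valuation ((τ : F) ^ e * ϖ⁻¹) ≤ 1 := ((V i₀).valuation_le_one_iff _).2 hw
    have h2 : (V i₀).valuation ϖ < 1 := ((V i₀).mem_nonunits_iff).1 hϖnu
    have h3 : (V i₀).valuation ((τ : F) ^ e) < 1 := by
      have : (τ : F) ^ e = (τ : F) ^ e * ϖ⁻¹ * ϖ := by
        rw [mul_assoc, inv_mul_cancel₀ hϖ0, mul_one]
      rw [this, map_mul]
      calc (V i₀).valuation ((τ : F) ^ e * ϖ⁻¹) * (V i₀).valuation ϖ
          ≤ 1 * (V i₀).valuation ϖ := by gcongr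
        _ = (V i₀).valuation ϖ := one_mul _
        _ < 1 := h2
    rw [map_pow] at h3
    exact absurd h3 (not_lt.2 (one_le_pow₀ hcon))
  -- the inverse of the Wilson quotient modulo `𝔪_{V i₀}`
  have hinvV : (τ : F) ^ e * ϖ⁻¹ * (w' : F) - 1 ∈ (V i₀).nonunits := by
    have hmem : (τ : F) ^ e * ϖ⁻¹ * (w' : F) - 1 ∈ V i₀ :=
      sub_mem (mul_mem hw hw'V) (one_mem _)
    rw [← hev0 ⟨_, hmem⟩]
    have : (⟨_, hmem⟩ : ↥(V i₀)) = ⟨_, hw⟩ * ⟨_, hw'V⟩ - 1 := rfl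
    rw [this, map_sub, map_mul, map_one, hevw, hevw', sub_self]
  obtain ⟨wr, hwr, hwri, hqw⟩ := hram
  have hunif : ∀ x ∈ (V i₀).nonunits, x * (τ : F)⁻¹ ∈ V i₀ :=
    unif_of_unif (V i₀) he hτ₀ hwr hwri hqw hϖ0 hw ⟨_, hw'V, hinvV⟩
  exact ufd_of_chartHyp H 𝔫 i₀ hi₀ honly τ he hτnu hunif hw ⟨w', hinvV⟩ hPID

end Place

/-! ### The concrete generator `Π_g = β₂β₁ g − α₂α₁ g` on `Rfin K (M₀ q²) O` -/

variable (K : Type) [Field K] (M0 q : ℕ) [NeZero M0] [NeZero q] (O : Subring K)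

/-- `α₂ α₁` on the finite charts: level `M₀` to level `M₀ q²`. -/
noncomputable def upA : Rfin K M0 O →ₐ[↥O] Rfin K (M0 * q * q) O :=
  (alphaR K (M0 * q) q O).comp (alphaR K M0 q O)

/-- `β₂ β₁` on the finite charts. -/
noncomputable def upB : Rfin K M0 O →ₐ[↥O] Rfin K (M0 * q * q) O :=
  (betaR K (M0 * q) q O).comp (betaR K M0 q O)

@[simp] theorem coe_upA (g : Rfin K M0 O) :
    ((upA K M0 q O g : Rfin K (M0 * q * q) O) : FF K (M0 * q * q)) =
      alphaF K (M0 * q) q (alphaF K M0 q (g : FF K M0)) := rfl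

@[simp] theorem coe_upB (g : Rfin K M0 O) :
    ((upB K M0 q O g : Rfin K (M0 * q * q) O) : FF K (M0 * q * q)) =
      betaF K (M0 * q) q (betaF K M0 q (g : FF K M0)) := rfl

/-- The generator candidate `Π_g = β₂β₁ g − α₂α₁ g` in the chart of level `M₀ q²`. -/
noncomputable def piR (g : Rfin K M0 O) : Rfin K (M0 * q * q) O := upB K M0 q O g - upA K M0 q O g

theorem coe_piR (g : Rfin K M0 O) :
    ((piR K M0 q O g : Rfin K (M0 * q * q) O) : FF K (M0 * q * q)) =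
      betaF K (M0 * q) q (betaF K M0 q (g : FF K M0)) -
        alphaF K (M0 * q) q (alphaF K M0 q (g : FF K M0)) := rfl

end Fermat.Agent.S36.R3.GeneratorInst
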