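import Mathlib
import Fermat.Agent.S36.R3.ThetaJ
import Fermat.Agent.S36.R1.PqLaurent
import Fermat.Agent.S16.BetaLemmaB

/-!
# S36, block [R3], leaf (R3-θt): `(θ t)^(q-1)` for the level-`4` Hauptmodul `t`

`κ` a field of characteristic `q ≥ 5`, everything in `κ((Q))`; `j = jqModC κ`, `θ = thetaL = Q d/dQ`
(`R3/PiSeries`).  Let `t ∈ κ((Q))` satisfy the level-`4` relation
`j · t⁴ (t + 16) = (t² + 256 t + 4096)³` (`Rel4 j t` of `AuxLvl/OrdAbs`), and put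
`c = t² + 256 t + 4096`, `d = (t + 32)(t² - 512 t - 8192)`, `T = t⁴ (t + 16)`.

* `sub_mul_T` : `(j - 1728) · T = d²`;
* `thetaL_j_mul` : `θj · t⁵ (t + 16)² = c² · d · θt` (chain rule; `3 c' T - c T' = t³ d`);
* `thetaL_j_pow` : with `q - 1 = 12 m + 4 δ + 6 ε` and `Ē₄^δ Ē₆^ε Δ̄^m S(j) = 1`
  (`PqLaurent.exists_structure`): `(θj)^(q-1) · S(j)² = j^(8m+2δ+4ε) (j - 1728)^(6m+2δ+2ε)`;
* `thetaL_t_pow` : `(θt)^(q-1) · (c^(2δ) d^(2ε) T^(2m) S(j)²) = (t (t + 16))^(q-1)`;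
* `thetaL_t_pow_six` : `(θt)^(6(q-1)) · T^(q-1) = Δ̄^(q-1) · (t (t + 16))^(6(q-1))`, and
  `thetaL_t_pow_six_mul` : with `P · Δ̄^(q-1) = 1`: `(θt)^(6(q-1)) · T^(q-1) · P = (t(t+16))^(6(q-1))`;
* `exists_structure_theta` : the package (same `S` for `P̄_q(j̄)` and for `θt`).
-/

set_option autoImplicit false

namespace Fermat.Agent.S36.R3.ThetaT

open Polynomial ModularCurve
open Fermat.Agent.S16.BetaLemma Fermat.Agent.S36.R3.PiSeries Fermat.Agent.S36.R3.ThetaJ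
open Fermat.Agent.S36.R1.PqLaurent

section Derivation

variable {A : Type*} [CommRing A]

theorem thetaL_ofNat (n : ℕ) [n.AtLeastTwo] :
    thetaL (OfNat.ofNat n : LaurentSeries A) = 0 := by
  have h : (OfNat.ofNat n : LaurentSeries A) = HahnSeries.C (OfNat.ofNat n : A) :=
    (map_ofNat (HahnSeries.C (Γ := ℤ) (R := A)) n).symm
  rw [h, thetaL_C]

theorem thetaL_ofNat_mul (n : ℕ) [n.AtLeastTwo] (f : LaurentSeries A) :
    thetaL (OfNat.ofNat n * f) = OfNat.ofNat n * thetaL f := by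
  rw [thetaL_mul, thetaL_ofNat, zero_mul, zero_add]

theorem thetaL_sq (f : LaurentSeries A) : thetaL (f ^ 2) = 2 * f * thetaL f := by
  rw [pow_two, thetaL_mul]; ring

theorem thetaL_cube (f : LaurentSeries A) : thetaL (f ^ 3) = 3 * f ^ 2 * thetaL f := by
  rw [pow_succ, thetaL_mul, thetaL_sq]; ring

theorem thetaL_pow_four (f : LaurentSeries A) : thetaL (f ^ 4) = 4 * f ^ 3 * thetaL f := by
  rw [pow_succ, thetaL_mul, thetaL_cube]; ring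

end Derivation

section Field

variable {κ : Type*} [Field κ]

theorem jqModC_ne_zero' : jqModC κ ≠ 0 := by
  intro h
  have := Fermat.Agent.S24.FFBasics.transcendental_jqModC κ
  rw [transcendental_iff] at this
  exact X_ne_zero (this X (by rw [aeval_X, h]))

theorem algebraMap_eq_C' (c : κ) : algebraMap κ (LaurentSeries κ) c = HahnSeries.C c := by
  rw [HahnSeries.algebraMap_apply', PowerSeries.algebraMap_apply, Algebra.algebraMap_self,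
    RingHom.id_apply, HahnSeries.ofPowerSeries_C]

theorem jqModC_sub_ne_zero' : jqModC κ - 1728 ≠ 0 := by
  intro h
  have := Fermat.Agent.S24.FFBasics.transcendental_jqModC κ
  rw [transcendental_iff] at this
  have h1 := this (X - C (1728 : κ)) (by
    rw [map_sub, aeval_X, aeval_C, map_ofNat]; exact h)
  exact X_sub_C_ne_zero _ h1

variable {t : LaurentSeries κ}

/-- `(j - 1728) T = d²` -/
theorem sub_mul_T
    (ht : jqModC κ * t ^ 4 * (t + 16) = (t ^ 2 + 256 * t + 4096) ^ 3) :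
    (jqModC κ - 1728) * (t ^ 4 * (t + 16)) = ((t + 32) * (t ^ 2 - 512 * t - 8192)) ^ 2 := by
  linear_combination ht

/-- the chain rule for `j T = c³`, multiplied by `T`:
`θj · T² = c² · t³ · d · θt`. -/
theorem thetaL_j_mul_T_sq
    (ht : jqModC κ * t ^ 4 * (t + 16) = (t ^ 2 + 256 * t + 4096) ^ 3) :
    thetaL (jqModC κ) * (t ^ 4 * (t + 16)) ^ 2 =
      (t ^ 2 + 256 * t + 4096) ^ 2 * (t ^ 3 * ((t + 32) * (t ^ 2 - 512 * t - 8192))) *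
        thetaL t := by
  have hc : thetaL (t ^ 2 + 256 * t + 4096) = (2 * t + 256) * thetaL t := by
    rw [thetaL_add, thetaL_add, thetaL_sq, thetaL_ofNat_mul, thetaL_ofNat]; ring
  have hT : thetaL (t ^ 4 * (t + 16)) = (5 * t ^ 4 + 64 * t ^ 3) * thetaL t := by
    rw [thetaL_mul, thetaL_pow_four, thetaL_add, thetaL_ofNat]; ring
  have h := congrArg thetaL ht
  rw [mul_assoc, thetaL_mul, thetaL_cube, hc, hT] at h
  have ht' : jqModC κ * (t ^ 4 * (t + 16)) = (t ^ 2 + 256 * t + 4096) ^ 3 := by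
    rw [← mul_assoc]; exact ht
  linear_combination (t ^ 4 * (t + 16)) * h - (5 * t ^ 4 + 64 * t ^ 3) * thetaL t * ht'

variable (q : ℕ) [CharP κ q]

theorem two_ne_zero_of_five_le (h5 : 5 ≤ q) : (2 : LaurentSeries κ) ≠ 0 := by
  intro h
  have h2 : ((2 : ℕ) : κ) = 0 := by
    have h' : (HahnSeries.C (2 : κ) : LaurentSeries κ) = 0 := by
      rw [map_ofNat]; exact h
    have := (map_eq_zero_iff (HahnSeries.C (Γ := ℤ) (R := κ)) HahnSeries.C_injective).1 h'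
    exact_mod_cast this
  have := (CharP.cast_eq_zero_iff κ q 2).1 h2
  have := Nat.le_of_dvd (by norm_num) this
  omega

theorem t_ne_zero (h5 : 5 ≤ q)
    (ht : jqModC κ * t ^ 4 * (t + 16) = (t ^ 2 + 256 * t + 4096) ^ 3) : t ≠ 0 := by
  rintro rfl
  have h2 := two_ne_zero_of_five_le (κ := κ) q h5
  have : (2 : LaurentSeries κ) ^ 36 = 0 := by
    have e : (2 : LaurentSeries κ) ^ 36 = ((0 : LaurentSeries κ) ^ 2 + 256 * 0 + 4096) ^ 3 := by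
      norm_num
    rw [e, ← ht]; ring
  exact h2 (pow_eq_zero_iff (by norm_num) |>.1 this)

theorem t_add_ne_zero (h5 : 5 ≤ q)
    (ht : jqModC κ * t ^ 4 * (t + 16) = (t ^ 2 + 256 * t + 4096) ^ 3) : t + 16 ≠ 0 := by
  intro h0
  have h2 := two_ne_zero_of_five_le (κ := κ) q h5
  have ht16 : t = -16 := by linear_combination h0
  have : (2 : LaurentSeries κ) ^ 24 = 0 := by
    have e : (2 : LaurentSeries κ) ^ 24 = (t ^ 2 + 256 * t + 4096) ^ 3 := by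
      rw [ht16]; norm_num
    rw [e, ← ht, h0, mul_zero]
  exact h2 (pow_eq_zero_iff (by norm_num) |>.1 this)

theorem T_ne_zero (h5 : 5 ≤ q)
    (ht : jqModC κ * t ^ 4 * (t + 16) = (t ^ 2 + 256 * t + 4096) ^ 3) :
    t ^ 4 * (t + 16) ≠ 0 :=
  mul_ne_zero (pow_ne_zero 4 (t_ne_zero q h5 ht)) (t_add_ne_zero q h5 ht)

theorem c_ne_zero (h5 : 5 ≤ q)
    (ht : jqModC κ * t ^ 4 * (t + 16) = (t ^ 2 + 256 * t + 4096) ^ 3) :
    t ^ 2 + 256 * t + 4096 ≠ 0 := by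
  intro h0
  have hT := T_ne_zero q h5 ht
  have h1 : jqModC κ * (t ^ 4 * (t + 16)) = 0 := by
    rw [← mul_assoc, ht, h0, zero_pow (by norm_num)]
  exact mul_ne_zero (jqModC_ne_zero' (κ := κ)) hT h1

theorem d_ne_zero (h5 : 5 ≤ q)
    (ht : jqModC κ * t ^ 4 * (t + 16) = (t ^ 2 + 256 * t + 4096) ^ 3) :
    (t + 32) * (t ^ 2 - 512 * t - 8192) ≠ 0 := by
  intro h0
  have h1 := sub_mul_T ht
  rw [h0] at h1
  exact mul_ne_zero (jqModC_sub_ne_zero' (κ := κ)) (T_ne_zero q h5 ht) (by rw [h1]; ring)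

/-- `θj · t⁵ (t + 16)² = c² · d · θt`. -/
theorem thetaL_j_mul (h5 : 5 ≤ q)
    (ht : jqModC κ * t ^ 4 * (t + 16) = (t ^ 2 + 256 * t + 4096) ^ 3) :
    thetaL (jqModC κ) * (t ^ 5 * (t + 16) ^ 2) =
      (t ^ 2 + 256 * t + 4096) ^ 2 * ((t + 32) * (t ^ 2 - 512 * t - 8192)) * thetaL t := by
  have h := thetaL_j_mul_T_sq ht
  have h3 : t ^ 3 ≠ 0 := pow_ne_zero 3 (t_ne_zero q h5 ht)
  apply mul_left_cancel₀ h3
  linear_combination h

omit [CharP κ q] in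
/-- `(θj)^(q-1) · S(j)² = j^(8m+2δ+4ε) (j - 1728)^(6m+2δ+2ε)`. -/
theorem thetaL_j_pow {m δ ε : ℕ} {S : κ[X]} (hqm : q - 1 = 12 * m + 4 * δ + 6 * ε)
    (hS : E4K κ ^ δ * E6K κ ^ ε * DeltaK κ ^ m * aeval (jqModC κ) S = 1) :
    thetaL (jqModC κ) ^ (q - 1) * aeval (jqModC κ) S ^ 2 =
      jqModC κ ^ (8 * m + 2 * δ + 4 * ε) * (jqModC κ - 1728) ^ (6 * m + 2 * δ + 2 * ε) := by
  have h1 : thetaL (jqModC κ) * DeltaK κ = -(E4K κ ^ 2 * E6K κ) := thetaL_jqModC κ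
  have h2 : jqModC κ * DeltaK κ = E4K κ ^ 3 := jqModC_mul_DeltaK κ
  have h3 : E6K κ ^ 2 = DeltaK κ * (jqModC κ - 1728) := E6K_sq κ
  have hD : DeltaK κ ^ (12 * m + 4 * δ + 6 * ε + 2 * m) ≠ 0 := pow_ne_zero _ DeltaK_ne_zero
  have hev : Even (12 * m + 4 * δ + 6 * ε) := ⟨6 * m + 2 * δ + 3 * ε, by ring⟩
  rw [hqm]
  set w := jqModC κ - 1728 with hw
  apply mul_right_cancel₀ hD
  calc thetaL (jqModC κ) ^ (12 * m + 4 * δ + 6 * ε) * aeval (jqModC κ) S ^ 2 *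
        DeltaK κ ^ (12 * m + 4 * δ + 6 * ε + 2 * m)
      = (thetaL (jqModC κ) * DeltaK κ) ^ (12 * m + 4 * δ + 6 * ε) *
          (aeval (jqModC κ) S ^ 2 * DeltaK κ ^ (2 * m)) := by ring
    _ = (E4K κ ^ 3) ^ (8 * m + 2 * δ + 4 * ε) * (E6K κ ^ 2) ^ (6 * m + 2 * δ + 2 * ε) *
          (E4K κ ^ δ * E6K κ ^ ε * DeltaK κ ^ m * aeval (jqModC κ) S) ^ 2 := by
        rw [h1, Even.neg_pow hev]; ring
    _ = (jqModC κ * DeltaK κ) ^ (8 * m + 2 * δ + 4 * ε) *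
          (DeltaK κ * w) ^ (6 * m + 2 * δ + 2 * ε) := by
        rw [hS, h2, h3, one_pow, mul_one]
    _ = _ := by ring_nf

/-- **`(θt)^(q-1) · (c^(2δ) d^(2ε) T^(2m) S(j)²) = (t (t + 16))^(q-1)`**. -/
theorem thetaL_t_pow (h5 : 5 ≤ q)
    (ht : jqModC κ * t ^ 4 * (t + 16) = (t ^ 2 + 256 * t + 4096) ^ 3)
    {m δ ε : ℕ} {S : κ[X]} (hqm : q - 1 = 12 * m + 4 * δ + 6 * ε)
    (hS : E4K κ ^ δ * E6K κ ^ ε * DeltaK κ ^ m * aeval (jqModC κ) S = 1) :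
    thetaL t ^ (q - 1) * ((t ^ 2 + 256 * t + 4096) ^ (2 * δ) *
        ((t + 32) * (t ^ 2 - 512 * t - 8192)) ^ (2 * ε) * (t ^ 4 * (t + 16)) ^ (2 * m) *
        aeval (jqModC κ) S ^ 2) = (t * (t + 16)) ^ (q - 1) := by
  have hj := thetaL_j_pow q hqm hS
  have hθ := thetaL_j_mul q h5 ht
  have hjT : jqModC κ * (t ^ 4 * (t + 16)) = (t ^ 2 + 256 * t + 4096) ^ 3 := by
    rw [← mul_assoc]; exact ht
  have hjT' := sub_mul_T ht
  have hc := c_ne_zero q h5 ht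
  have hd := d_ne_zero q h5 ht
  have hT := T_ne_zero q h5 ht
  set c := t ^ 2 + 256 * t + 4096 with hcdef
  set d := (t + 32) * (t ^ 2 - 512 * t - 8192) with hddef
  set T := t ^ 4 * (t + 16) with hTdef
  set s := t * (t + 16) with hsdef
  set Sj := aeval (jqModC κ) S with hSj
  set w := jqModC κ - 1728 with hw
  set j := jqModC κ with hjdef
  rw [hqm] at hj ⊢
  have hne : c ^ (3 * (8 * m + 2 * δ + 4 * ε)) * d ^ (2 * (6 * m + 2 * δ + 2 * ε)) *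
      T ^ (12 * m + 4 * δ + 6 * ε) ≠ 0 :=
    mul_ne_zero (mul_ne_zero (pow_ne_zero _ hc) (pow_ne_zero _ hd)) (pow_ne_zero _ hT)
  apply mul_right_cancel₀ hne
  have e5 : t ^ 5 * (t + 16) ^ 2 = T * s := by rw [hTdef, hsdef]; ring
  calc thetaL t ^ (12 * m + 4 * δ + 6 * ε) * (c ^ (2 * δ) * d ^ (2 * ε) * T ^ (2 * m) * Sj ^ 2) *
        (c ^ (3 * (8 * m + 2 * δ + 4 * ε)) * d ^ (2 * (6 * m + 2 * δ + 2 * ε)) *
          T ^ (12 * m + 4 * δ + 6 * ε))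
      = (c ^ 2 * d * thetaL t) ^ (12 * m + 4 * δ + 6 * ε) * Sj ^ 2 *
          T ^ (8 * m + 2 * δ + 4 * ε + (6 * m + 2 * δ + 2 * ε)) := by ring_nf
    _ = (thetaL j ^ (12 * m + 4 * δ + 6 * ε) * Sj ^ 2) *
          (T * s) ^ (12 * m + 4 * δ + 6 * ε) *
          T ^ (8 * m + 2 * δ + 4 * ε + (6 * m + 2 * δ + 2 * ε)) := by
        rw [← hθ, e5]; ring_nf
    _ = (j * T) ^ (8 * m + 2 * δ + 4 * ε) * (w * T) ^ (6 * m + 2 * δ + 2 * ε) *
          (T * s) ^ (12 * m + 4 * δ + 6 * ε) := by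
        rw [hj]; ring_nf
    _ = _ := by
        rw [hjT, hjT']; ring_nf

/-- **`(θt)^(6(q-1)) · T^(q-1) = Δ̄^(q-1) · (t (t + 16))^(6(q-1))`** -/
theorem thetaL_t_pow_six (h5 : 5 ≤ q)
    (ht : jqModC κ * t ^ 4 * (t + 16) = (t ^ 2 + 256 * t + 4096) ^ 3)
    {m δ ε : ℕ} {S : κ[X]} (hqm : q - 1 = 12 * m + 4 * δ + 6 * ε)
    (hS : E4K κ ^ δ * E6K κ ^ ε * DeltaK κ ^ m * aeval (jqModC κ) S = 1)
    (hstr : DeltaK κ ^ (q - 1) * (jqModC κ ^ (4 * δ) * (jqModC κ - 1728) ^ (6 * ε) *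
        aeval (jqModC κ) S ^ 12) = 1) :
    thetaL t ^ (6 * (q - 1)) * (t ^ 4 * (t + 16)) ^ (q - 1) =
      DeltaK κ ^ (q - 1) * (t * (t + 16)) ^ (6 * (q - 1)) := by
  have h := thetaL_t_pow q h5 ht hqm hS
  have hjT : jqModC κ * (t ^ 4 * (t + 16)) = (t ^ 2 + 256 * t + 4096) ^ 3 := by
    rw [← mul_assoc]; exact ht
  have hjT' := sub_mul_T ht
  set c := t ^ 2 + 256 * t + 4096 with hcdef
  set d := (t + 32) * (t ^ 2 - 512 * t - 8192) with hddef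
  set T := t ^ 4 * (t + 16) with hTdef
  set s := t * (t + 16) with hsdef
  set Sj := aeval (jqModC κ) S with hSj
  set w := jqModC κ - 1728 with hw
  set j := jqModC κ with hjdef
  rw [hqm] at h hstr ⊢
  clear_value c d T s Sj w j
  have e1 : c ^ (12 * δ) = (j * T) ^ (4 * δ) := by
    rw [hjT, ← pow_mul]; congr 1; ring
  have e2 : d ^ (12 * ε) = (w * T) ^ (6 * ε) := by
    rw [hjT', ← pow_mul]; congr 1; ring
  calc thetaL t ^ (6 * (12 * m + 4 * δ + 6 * ε)) * T ^ (12 * m + 4 * δ + 6 * ε)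
      = thetaL t ^ (6 * (12 * m + 4 * δ + 6 * ε)) * T ^ (12 * m + 4 * δ + 6 * ε) *
          (DeltaK κ ^ (12 * m + 4 * δ + 6 * ε) * (j ^ (4 * δ) * w ^ (6 * ε) *
            Sj ^ 12)) := by rw [hstr, mul_one]
    _ = DeltaK κ ^ (12 * m + 4 * δ + 6 * ε) *
          (thetaL t ^ (6 * (12 * m + 4 * δ + 6 * ε)) * ((j * T) ^ (4 * δ) * (w * T) ^ (6 * ε)) *
            T ^ (12 * m) * Sj ^ 12) := by ring
    _ = DeltaK κ ^ (12 * m + 4 * δ + 6 * ε) *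
          (thetaL t ^ (6 * (12 * m + 4 * δ + 6 * ε)) * (c ^ (12 * δ) * d ^ (12 * ε)) *
            T ^ (12 * m) * Sj ^ 12) := by rw [e1, e2]
    _ = DeltaK κ ^ (12 * m + 4 * δ + 6 * ε) *
          ((thetaL t ^ (12 * m + 4 * δ + 6 * ε) * (c ^ (2 * δ) * d ^ (2 * ε) * T ^ (2 * m) *
            Sj ^ 2)) ^ 6) := by ring
    _ = _ := by rw [h]; ring

/-- with `P · Δ̄^(q-1) = 1` (`P = θ₁(Δ(z)/Δ(qz))`):
`(θt)^(6(q-1)) · T^(q-1) · P = (t (t + 16))^(6(q-1))`. -/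
theorem thetaL_t_pow_six_mul (h5 : 5 ≤ q)
    (ht : jqModC κ * t ^ 4 * (t + 16) = (t ^ 2 + 256 * t + 4096) ^ 3)
    {m δ ε : ℕ} {S : κ[X]} (hqm : q - 1 = 12 * m + 4 * δ + 6 * ε)
    (hS : E4K κ ^ δ * E6K κ ^ ε * DeltaK κ ^ m * aeval (jqModC κ) S = 1)
    (hstr : DeltaK κ ^ (q - 1) * (jqModC κ ^ (4 * δ) * (jqModC κ - 1728) ^ (6 * ε) *
        aeval (jqModC κ) S ^ 12) = 1)
    {P : LaurentSeries κ} (hP : P * DeltaK κ ^ (q - 1) = 1) :
    thetaL t ^ (6 * (q - 1)) * (t ^ 4 * (t + 16)) ^ (q - 1) * P =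
      (t * (t + 16)) ^ (6 * (q - 1)) := by
  rw [thetaL_t_pow_six q h5 ht hqm hS hstr]
  linear_combination (t * (t + 16)) ^ (6 * (q - 1)) * hP

/-- **The package**: the data `(m, δ, ε, S)` of `PqLaurent.exists_structure` together with the
formula for `(θt)^(q-1)` (same `S`). -/
theorem exists_structure_theta [Fact q.Prime] (h5 : 5 ≤ q)
    (ht : jqModC κ * t ^ 4 * (t + 16) = (t ^ 2 + 256 * t + 4096) ^ 3) :
    ∃ (m δ ε : ℕ) (S : κ[X]), δ ≤ 1 ∧ ε ≤ 1 ∧ q - 1 = 12 * m + 4 * δ + 6 * ε ∧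
      S.Monic ∧ S.natDegree = m ∧
      E4K κ ^ δ * E6K κ ^ ε * DeltaK κ ^ m * aeval (jqModC κ) S = 1 ∧
      DeltaK κ ^ (q - 1) * (jqModC κ ^ (4 * δ) * (jqModC κ - 1728) ^ (6 * ε) *
        aeval (jqModC κ) S ^ 12) = 1 ∧
      thetaL (jqModC κ) ^ (q - 1) * aeval (jqModC κ) S ^ 2 =
        jqModC κ ^ (8 * m + 2 * δ + 4 * ε) * (jqModC κ - 1728) ^ (6 * m + 2 * δ + 2 * ε) ∧
      thetaL t ^ (q - 1) * ((t ^ 2 + 256 * t + 4096) ^ (2 * δ) *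
        ((t + 32) * (t ^ 2 - 512 * t - 8192)) ^ (2 * ε) * (t ^ 4 * (t + 16)) ^ (2 * m) *
        aeval (jqModC κ) S ^ 2) = (t * (t + 16)) ^ (q - 1) ∧
      thetaL t ^ (6 * (q - 1)) * (t ^ 4 * (t + 16)) ^ (q - 1) =
        DeltaK κ ^ (q - 1) * (t * (t + 16)) ^ (6 * (q - 1)) := by
  obtain ⟨m, δ, ε, S, hδ, hε, hqm, hS1, hS2, hS, hstr⟩ := exists_structure q κ h5
  exact ⟨m, δ, ε, S, hδ, hε, hqm, hS1, hS2, hS, hstr, thetaL_j_pow q hqm hS,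
    thetaL_t_pow q h5 ht hqm hS, thetaL_t_pow_six q h5 ht hqm hS hstr⟩

end Field

end Fermat.Agent.S36.R3.ThetaT
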