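/-
S36, block [R3] (helper3): **the level-4 Hauptmodul in characteristic `3`** — the companion of
`ThetaPow.thetaL_tau_pow` (`q ≥ 5`) for `q = 3`, so that R3-G can use the SAME generator
`Π_t = t'' - t` (and a GLOBAL inverse of the Wilson residue, no ordinarity input) for every odd `q`.

Over a field `K` with `3 = 0`: if `j · τ⁴ (τ + 16) = (τ² + 256 τ + 4096)³` in `K((Q))` then
`θ τ · d = -c · τ (τ + 16)` and `(θ τ)² · c = τ² (τ + 16)²`,  `c = τ² + 256 τ + 4096`,
`d = (τ + 32)(τ² - 512 τ - 8192)` (`d² = c³` because `1728 = 0`).  Hence the Wilson residue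
`w̄ = -(θ τ)²` has the global inverse `-c · τ⁻² (τ + 16)⁻²`.
-/
import Mathlib
import Fermat.Agent.S36.R3.ThetaPow

set_option autoImplicit false

namespace Fermat.Agent.S36.R3.ThetaThree

open ModularCurve
open Fermat.Agent.S16.BetaLemma Fermat.Agent.S36.R3.PiSeries Fermat.Agent.S36.R3.ThetaJ
  Fermat.Agent.S36.R3.ThetaPow

variable (K : Type*) [Field K]

/-- The chain rule for the modular equation of level `4` (any field, `2 ≠ 0`):
`θ τ · (c² τ³ d) = θ j · (τ⁴ (τ + 16))²`. -/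
theorem thetaL_tau_mul (τ : LaurentSeries K)
    (hτ : jqModC K * (τ ^ 4 * (τ + 16)) = (τ ^ 2 + 256 * τ + 4096) ^ 3) :
    thetaL τ * ((τ ^ 2 + 256 * τ + 4096) ^ 2 * τ ^ 3 *
      ((τ + 32) * (τ ^ 2 - 512 * τ - 8192))) = thetaL (jqModC K) * (τ ^ 4 * (τ + 16)) ^ 2 := by
  have hθ : thetaL (jqModC K) * (τ ^ 4 * (τ + 16)) +
      jqModC K * ((4 * τ ^ 3 * (τ + 16) + τ ^ 4) * thetaL τ) =
      3 * (τ ^ 2 + 256 * τ + 4096) ^ 2 * ((2 * τ + 256) * thetaL τ) := by
    have h := congrArg thetaL hτ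
    rw [thetaL_mul, thetaL_mul, thetaL_pow', thetaL_pow', thetaL_add, thetaL_add, thetaL_add,
      thetaL_mul, thetaL_pow', thetaL_ofNat, thetaL_ofNat, thetaL_ofNat] at h
    norm_num at h
    linear_combination h
  linear_combination (-(τ ^ 4 * (τ + 16))) * hθ +
    ((4 * τ ^ 3 * (τ + 16) + τ ^ 4) * thetaL τ) * hτ

/-- **Characteristic `3`**: `θ τ · d = -c · τ (τ + 16)`. -/
theorem thetaL_tau_three (h3 : (3 : K) = 0) (τ : LaurentSeries K)
    (hτ : jqModC K * (τ ^ 4 * (τ + 16)) = (τ ^ 2 + 256 * τ + 4096) ^ 3) :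
    thetaL τ * ((τ + 32) * (τ ^ 2 - 512 * τ - 8192)) =
      -((τ ^ 2 + 256 * τ + 4096) * (τ * (τ + 16))) := by
  have h6 : (6 : K) = 0 := by
    have : (6 : K) = 3 * 2 := by norm_num
    rw [this, h3, zero_mul]
  have hj := thetaL_jqModC_of_six K h6
  have hmul := thetaL_tau_mul K τ hτ
  rw [hj] at hmul
  have h2 : (2 : K) ≠ 0 := by
    intro h0
    have : (1 : K) = 3 - 2 := by norm_num
    rw [h3, h0, sub_zero] at this
    exact one_ne_zero this
  have h2L : (2 : LaurentSeries K) ≠ 0 := by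
    intro h0
    apply h2
    have h : (HahnSeries.C (2 : K) : LaurentSeries K) = 0 := by
      rw [map_ofNat]
      exact h0
    exact (map_eq_zero (HahnSeries.C (Γ := ℤ) (R := K))).mp h
  have hJ : jqModC K ≠ 0 := by
    intro h0
    have h := jqModC_mul_DeltaL K
    rw [h0, zero_mul] at h
    exact E4K_ne_zero K (pow_eq_zero_iff (by norm_num) |>.mp h.symm)
  have hτ0 : τ ≠ 0 := by
    intro h0
    rw [h0] at hτ
    have h4096 : (2 : LaurentSeries K) ^ 36 = 0 := by linear_combination -hτ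
    exact h2L (pow_eq_zero_iff (by norm_num) |>.mp h4096)
  have hs0 : τ + 16 ≠ 0 := by
    intro h0
    have hτ' : τ = -16 := by linear_combination h0
    rw [hτ'] at hτ
    have h256 : (2 : LaurentSeries K) ^ 24 = 0 := by linear_combination -hτ
    exact h2L (pow_eq_zero_iff (by norm_num) |>.mp h256)
  have hD0 : τ ^ 4 * (τ + 16) ≠ 0 := mul_ne_zero (pow_ne_zero _ hτ0) hs0
  have hc0 : τ ^ 2 + 256 * τ + 4096 ≠ 0 := by
    intro h0
    rw [h0] at hτ
    exact mul_ne_zero hJ hD0 (by rw [hτ]; ring)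
  have hne : (τ ^ 2 + 256 * τ + 4096) ^ 2 * τ ^ 3 ≠ 0 :=
    mul_ne_zero (pow_ne_zero _ hc0) (pow_ne_zero _ hτ0)
  apply mul_left_cancel₀ hne
  linear_combination hmul - (τ ^ 4 * (τ + 16)) * hτ

/-- **Characteristic `3`**: `(θ τ)² · c = τ² (τ + 16)²`; so `-(θ τ)²` has the inverse
`-c · τ⁻² (τ + 16)⁻²` wherever `τ` and `τ + 16` are units. -/
theorem thetaL_tau_sq_three (h3 : (3 : K) = 0) (τ : LaurentSeries K)
    (hτ : jqModC K * (τ ^ 4 * (τ + 16)) = (τ ^ 2 + 256 * τ + 4096) ^ 3) :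
    thetaL τ ^ 2 * (τ ^ 2 + 256 * τ + 4096) = (τ * (τ + 16)) ^ 2 := by
  have h1 := thetaL_tau_three K h3 τ hτ
  have h3L : (3 : LaurentSeries K) = 0 := by
    have h : (HahnSeries.C (3 : K) : LaurentSeries K) = 0 := by rw [h3, map_zero]
    rwa [map_ofNat] at h
  -- `d² = c³` because `1728 = 0`
  have hd : ((τ + 32) * (τ ^ 2 - 512 * τ - 8192)) ^ 2 = (τ ^ 2 + 256 * τ + 4096) ^ 3 := by
    linear_combination (-576 * τ ^ 4 * (τ + 16)) * h3L
  have hJ : jqModC K ≠ 0 := by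
    intro h0
    have h := jqModC_mul_DeltaL K
    rw [h0, zero_mul] at h
    exact E4K_ne_zero K (pow_eq_zero_iff (by norm_num) |>.mp h.symm)
  have hc0 : τ ^ 2 + 256 * τ + 4096 ≠ 0 := by
    intro h0
    rw [h0] at hd
    have hd0 : (τ + 32) * (τ ^ 2 - 512 * τ - 8192) = 0 := by
      have : ((τ + 32) * (τ ^ 2 - 512 * τ - 8192)) ^ 2 = 0 := by rw [hd]; ring
      exact pow_eq_zero_iff (by norm_num) |>.mp this
    rw [hd0, mul_zero, h0, zero_mul, neg_zero] at h1
    -- then `j τ⁴ (τ+16) = 0`, so `τ = 0` or `τ = -16`, both excluded by `c = 0`…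
    rw [h0] at hτ
    have hz : τ ^ 4 * (τ + 16) = 0 := by
      have : jqModC K * (τ ^ 4 * (τ + 16)) = 0 := by rw [hτ]; ring
      exact (mul_eq_zero.mp this).resolve_left hJ
    rcases mul_eq_zero.mp hz with h4 | h16
    · have hτ0 : τ = 0 := pow_eq_zero_iff (by norm_num) |>.mp h4
      rw [hτ0] at h0
      have : (4096 : LaurentSeries K) = 0 := by linear_combination h0
      have h1' : (1 : LaurentSeries K) = 0 := by linear_combination this - 1365 * h3L
      exact one_ne_zero h1'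
    · have hτ' : τ = -16 := by linear_combination h16
      rw [hτ'] at h0
      have : (256 : LaurentSeries K) = 0 := by linear_combination h0
      have h1' : (1 : LaurentSeries K) = 0 := by linear_combination this - 85 * h3L
      exact one_ne_zero h1'
  apply mul_left_cancel₀ (pow_ne_zero 2 hc0)
  have hsq : (thetaL τ * ((τ + 32) * (τ ^ 2 - 512 * τ - 8192))) ^ 2 =
      ((τ ^ 2 + 256 * τ + 4096) * (τ * (τ + 16))) ^ 2 := by rw [h1]; ring
  linear_combination hsq - thetaL τ ^ 2 * hd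

end Fermat.Agent.S36.R3.ThetaThree
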