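import Mathlib
import Fermat.Agent.S36.R3.ThetaT
import Fermat.Agent.S36.R3.ThetaThree
import Fermat.Agent.S36.Haupt.FourRfin
import Fermat.Agent.P3G.TwoComponentsB

/-!
# S36, block [R3]: the global inverse `w' ∈ Rfin` of the Wilson residue `-(θ t̄)^(q-1)`

Level `(K, O)` (Setting language), `κ` the residue field of `O` of characteristic `q` odd, `4 ∣ N`,
`2 ∈ Oˣ`.  `t = FourRfin.tFin K N O h4 ∈ Rfin K N O` is helper10's Hauptmodul of `Γ₀(4)` and
`t̄ = tBar = thetaFin K N O t ∈ κ((Q))` its Gauss reduction.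

* `rel4_tBar` : `j̄ · t̄⁴ (t̄ + 16) = (t̄² + 256 t̄ + 4096)³` in `κ((Q))`;
* `thetaFin_aeval` : `θ (S(j)) = S̄(j̄)` for `S ∈ O[X]`;
* `exists_winv_of_five_le`, `exists_winv_three`, and for every odd prime `q`
  **`exists_winv : ∃ w' : Rfin K N O, -(thetaL t̄ ^ (q-1)) * thetaFin K N O w' = 1`**:
  the residue `w̄ = -(θ t̄)^(q-1)` of `w = Π_t^(q-1)/q` has an inverse which is the reduction of a
  GLOBAL element of the finite chart (`q ≥ 5`: `w' = -S(j)² c^(2δ) d^(2ε) T^(2m) (t(t+16))^(-(q-1))`,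
  `q = 3`: `w' = -c (t(t+16))^(-2)`).  This is the hypothesis `hinv` of `R3/Generator`.
-/

set_option autoImplicit false

namespace Fermat.Agent.S36.R3.WInv

open Polynomial ModularCurve
open Fermat.Agent.N4.Setting Fermat.Agent.N4.Chart Fermat.Agent.P3G.RbarFin
open Fermat.Agent.P3G.TwoComponentsB
open Fermat.Agent.S16.BetaLemma Fermat.Agent.S36.R3.PiSeries
open Fermat.Agent.S36.Haupt.FourRfin Fermat.Agent.S36.R3.ThetaT

variable (K : Type) [Field K] [CharZero K] (N : ℕ) [NeZero N]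
  (O : Subring K) [IsDiscreteValuationRing ↥O] [IsFractionRing ↥O K]

/-- the Gauss reduction of the level-`4` Hauptmodul -/
noncomputable def tBar (h4 : 2 * 2 ∣ N) : LaurentSeries (IsLocalRing.ResidueField ↥O) :=
  thetaFin K N O (tFin K N O h4)

/-- `j̄ · t̄⁴ (t̄ + 16) = (t̄² + 256 t̄ + 4096)³`. -/
theorem rel4_tBar (h4 : 2 * 2 ∣ N) :
    jqModC (IsLocalRing.ResidueField ↥O) * tBar K N O h4 ^ 4 * (tBar K N O h4 + 16) =
      (tBar K N O h4 ^ 2 + 256 * tBar K N O h4 + 4096) ^ 3 := by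
  have h := congrArg (thetaFin K N O) (jFin_mul_tFin K N O h4)
  simp only [map_mul, map_pow, map_add, map_ofNat] at h
  rw [thetaFin_jFin] at h
  exact h

/-- `θ (S(j)) = S̄(j̄)` for `S ∈ O[X]`. -/
theorem thetaFin_aeval (S : (↥O)[X]) :
    thetaFin K N O (aeval (jFin K N O) S) =
      aeval (jqModC (IsLocalRing.ResidueField ↥O)) (S.map (IsLocalRing.residue ↥O)) := by
  rw [aeval_def, hom_eval₂, aeval_def, eval₂_map, thetaFin_jFin]
  congr 1
  ext a
  rw [RingHom.comp_apply, RingHom.comp_apply, thetaFin_algebraMap, algebraMap_eq_C']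

omit [IsDiscreteValuationRing ↥O] [IsFractionRing ↥O K] in
/-- the inverse of `(t (t + 16))^n` in `Rfin` -/
theorem exists_inv_pow (h4 : 2 * 2 ∣ N) (h2 : IsUnit (2 : ↥O)) (n : ℕ) :
    ∃ v : ↥(Rfin K N O), (tFin K N O h4 * (tFin K N O h4 + 16)) ^ n * v = 1 :=
  (((isUnit_tFin K N O h4 h2).mul (isUnit_tFin_add K N O h4 h2)).pow n).exists_right_inv

/-- **`q ≥ 5`.** -/
theorem exists_winv_of_five_le (q : ℕ) [Fact q.Prime] [CharP (IsLocalRing.ResidueField ↥O) q]
    (h5 : 5 ≤ q) (h4 : 2 * 2 ∣ N) (h2 : IsUnit (2 : ↥O)) :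
    ∃ w' : ↥(Rfin K N O),
      -(thetaL (tBar K N O h4) ^ (q - 1)) * thetaFin K N O w' = 1 := by
  obtain ⟨m, δ, ε, Sb, -, -, hqm, -, -, hS, -⟩ :=
    Fermat.Agent.S36.R1.PqLaurent.exists_structure q (IsLocalRing.ResidueField ↥O) h5
  obtain ⟨S, hSmap⟩ := Polynomial.map_surjective (IsLocalRing.residue ↥O)
    IsLocalRing.residue_surjective Sb
  obtain ⟨v, hv⟩ := exists_inv_pow K N O h4 h2 (q - 1)
  have hrel := rel4_tBar K N O h4
  have hmain := thetaL_t_pow q h5 hrel hqm hS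
  set t := tFin K N O h4 with htdef
  refine ⟨-((t ^ 2 + 256 * t + 4096) ^ (2 * δ) * ((t + 32) * (t ^ 2 - 512 * t - 8192)) ^ (2 * ε) *
    (t ^ 4 * (t + 16)) ^ (2 * m) * aeval (jFin K N O) S ^ 2) * v, ?_⟩
  have hv' := congrArg (thetaFin K N O) hv
  simp only [map_mul, map_pow, map_add, map_ofNat, map_one] at hv'
  simp only [map_mul, map_neg, map_pow, map_add, map_sub, map_ofNat, thetaFin_aeval, hSmap]
  have ht : thetaFin K N O t = tBar K N O h4 := rfl
  rw [ht] at hv' ⊢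
  linear_combination (thetaFin K N O v) * hmain + hv'

/-- **`q = 3`.** -/
theorem exists_winv_three [CharP (IsLocalRing.ResidueField ↥O) 3]
    (h4 : 2 * 2 ∣ N) (h2 : IsUnit (2 : ↥O)) :
    ∃ w' : ↥(Rfin K N O),
      -(thetaL (tBar K N O h4) ^ (3 - 1)) * thetaFin K N O w' = 1 := by
  obtain ⟨v, hv⟩ := exists_inv_pow K N O h4 h2 2
  have hrel := rel4_tBar K N O h4
  have h3 : (3 : IsLocalRing.ResidueField ↥O) = 0 := by
    have : ((3 : ℕ) : IsLocalRing.ResidueField ↥O) = 0 := CharP.cast_eq_zero _ 3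
    exact_mod_cast this
  have hmain := Fermat.Agent.S36.R3.ThetaThree.thetaL_tau_sq_three
    (IsLocalRing.ResidueField ↥O) h3 (tBar K N O h4) (by rw [← mul_assoc]; exact hrel)
  set t := tFin K N O h4 with htdef
  refine ⟨-(t ^ 2 + 256 * t + 4096) * v, ?_⟩
  have hv' := congrArg (thetaFin K N O) hv
  simp only [map_mul, map_pow, map_add, map_ofNat, map_one] at hv'
  simp only [map_mul, map_neg, map_pow, map_add, map_ofNat]
  have ht : thetaFin K N O t = tBar K N O h4 := rfl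
  rw [ht] at hv' ⊢
  norm_num
  linear_combination (thetaFin K N O v) * hmain + hv'

/-- **The global inverse of the Wilson residue, every odd `q`.** -/
theorem exists_winv (q : ℕ) [hq : Fact q.Prime] [CharP (IsLocalRing.ResidueField ↥O) q]
    (hq2 : q ≠ 2) (h4 : 2 * 2 ∣ N) (h2 : IsUnit (2 : ↥O)) :
    ∃ w' : ↥(Rfin K N O),
      -(thetaL (tBar K N O h4) ^ (q - 1)) * thetaFin K N O w' = 1 := by
  by_cases h5 : 5 ≤ q
  · exact exists_winv_of_five_le K N O q h5 h4 h2
  · have hq2' := hq.out.two_le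
    have h3 : q = 3 := by
      have : q ≠ 4 := by
        rintro rfl
        exact absurd hq.out (by norm_num)
      omega
    subst h3
    exact exists_winv_three K N O h4 h2

end Fermat.Agent.S36.R3.WInv
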