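import Mathlib
import Fermat.Agent.S28.GaussRing

/-!
# S36 / block [R3]: base change of Gauss rings

`A → A'` a local homomorphism of discrete valuation rings, `Q → Q'` a compatible homomorphism of their
fraction fields.  Then coefficientwise base change maps `gaussRing A Q` into `gaussRing A' Q'`, and
`gaussRed (coeffMap ψ x) = coeffMap (κ → κ') (gaussRed x)` (two-ring version of
`P3G/GammaGauss.coeffMap_mem_gaussRing`, `gaussRed_coeffMap`).
-/

set_option autoImplicit false
set_option linter.unusedSectionVars false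

namespace Fermat.Agent.S36.R3.GaussBaseChange

open ModularCurve Fermat.Agent.S28.Gauss

variable {A : Type*} [CommRing A] [IsDomain A] [IsDiscreteValuationRing A]
  {Q : Type*} [Field Q] [Algebra A Q] [IsFractionRing A Q]
  {A' : Type*} [CommRing A'] [IsDomain A'] [IsDiscreteValuationRing A']
  {Q' : Type*} [Field Q'] [Algebra A' Q'] [IsFractionRing A' Q']
  (φ : A →+* A') [IsLocalHom φ] (ψ : Q →+* Q')
  (hcomp : ψ.comp (algebraMap A Q) = (algebraMap A' Q').comp φ)

include hcomp in
theorem coeffMap_emb (a : LaurentSeries A) :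
    coeffMap ψ (emb A Q a) = emb A' Q' (coeffMap φ a) := by
  show coeffMap ψ (coeffMap (algebraMap A Q) a) = coeffMap (algebraMap A' Q') (coeffMap φ a)
  rw [coeffMap_coeffMap, coeffMap_coeffMap, hcomp]

theorem red_coeffMap (a : LaurentSeries A) :
    red A' (coeffMap φ a) = coeffMap (IsLocalRing.ResidueField.map φ) (red A a) := by
  show coeffMap (IsLocalRing.residue A') (coeffMap φ a) =
    coeffMap (IsLocalRing.ResidueField.map φ) (coeffMap (IsLocalRing.residue A) a)
  rw [coeffMap_coeffMap, coeffMap_coeffMap]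
  refine coeffMap_congr (RingHom.ext fun c => ?_) a
  simp [IsLocalRing.ResidueField.map_residue]

theorem coeffMap_residueMap_injective :
    Function.Injective (coeffMap (IsLocalRing.ResidueField.map φ)) := by
  intro x y hxy
  ext n
  exact (IsLocalRing.ResidueField.map φ).injective
    (congrArg (fun z : LaurentSeries (IsLocalRing.ResidueField A') => z.coeff n) hxy)

theorem red_coeffMap_ne_zero {b : LaurentSeries A} (hb : red A b ≠ 0) :
    red A' (coeffMap φ b) ≠ 0 := by
  rw [red_coeffMap]
  intro h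
  exact hb (coeffMap_residueMap_injective φ (h.trans (map_zero _).symm))

include hcomp in
/-- **Base change of the Gauss ring.** -/
theorem coeffMap_mem_gaussRing {x : LaurentSeries Q} (hx : x ∈ gaussRing A Q) :
    coeffMap ψ x ∈ gaussRing A' Q' := by
  obtain ⟨a, b, hb, h⟩ := hx
  refine ⟨coeffMap φ a, coeffMap φ b, red_coeffMap_ne_zero φ hb, ?_⟩
  rw [← coeffMap_emb φ ψ hcomp, ← coeffMap_emb φ ψ hcomp, ← map_mul, h]

include hcomp in
/-- **Base change of the Gauss reduction.** -/
theorem gaussRed_coeffMap {x : LaurentSeries Q} (hx : x ∈ gaussRing A Q)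
    (hx' : coeffMap ψ x ∈ gaussRing A' Q') :
    gaussRed (⟨coeffMap ψ x, hx'⟩ : gaussRing A' Q') =
      coeffMap (IsLocalRing.ResidueField.map φ) (gaussRed (⟨x, hx⟩ : gaussRing A Q)) := by
  have hx₀ := hx
  obtain ⟨a, b, hb, h⟩ := hx₀
  have h' : coeffMap ψ x * emb A' Q' (coeffMap φ b) = emb A' Q' (coeffMap φ a) := by
    rw [← coeffMap_emb φ ψ hcomp, ← coeffMap_emb φ ψ hcomp, ← map_mul, h]
  rw [gaussRed_eq (⟨coeffMap ψ x, hx'⟩ : gaussRing A' Q') (red_coeffMap_ne_zero φ hb) h',
    gaussRed_eq (⟨x, hx⟩ : gaussRing A Q) hb h, red_coeffMap, red_coeffMap, map_div₀]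

end Fermat.Agent.S36.R3.GaussBaseChange
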