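import Mathlib
import Fermat.Agent.S28.GaussRing
import Fermat.Agent.S36.R3.PiSeries

/-!
# S36 / block [R3]: the residue of `w_φ = Π_φ^(q-1)/q` for every `φ` of the Gauss ring

`A` a discrete valuation ring with fraction field `Qf` and residue field `κ`,
`gaussRing A Qf ⊆ Qf((Q))` the Gauss ring (quotients `a / b` of Laurent series over `A` with `b̄ ≠ 0`)
with its reduction `gaussRed` to `κ((Q))` (`S28/GaussRing`).  Let `u ∈ Aˣ` be a primitive `q`-th root of
unity with residue `1` and `f ∈ gaussRing A Qf`.  An element of the Gauss ring is only a *quotient* of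
integral series, so `PiSeries.neg_eq_theta_pow` does not apply directly; here:

* `twist_mem_gaussRing`, `gaussRed_twist` : `f(uQ)` lies in the Gauss ring, with the same reduction;
* `gaussRed_wilson` : if `q · W = (f(uQ) - f)^(q-1)` in `Qf((Q))` then `W` lies in the Gauss ring and
  `W̄ = -(θ f̄)^(q-1)` (`θ = Q d/dQ`);
* `gaussRed_wilson_unit` (unit version, for the cusps): if `q · W' · f(uQ)^(q-1) = (f(uQ) - f)^(q-1)`
  and `f̄ ≠ 0` then `W'` lies in the Gauss ring and `W̄' · f̄^(q-1) = -(θ f̄)^(q-1)`.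
-/

set_option autoImplicit false
set_option linter.unusedSectionVars false

namespace Fermat.Agent.S36.R3.GaussPi

open ModularCurve
open Fermat.Agent.S28.Gauss Fermat.Agent.N4.TwistSeries Fermat.Agent.S36.R3.Wilson
open Fermat.Agent.S36.R3.PiSeries

section General

variable {B C : Type*} [CommRing B] [CommRing C]

/-- coefficientwise ring homomorphisms commute with `twist` -/
theorem coeffMap_twist_map (ρ : B →+* C) (u : Bˣ) (f : LaurentSeries B) :
    coeffMap ρ (twist u f) = twist (Units.map (ρ : B →* C) u) (coeffMap ρ f) := by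
  ext n
  rw [coeffMap_coeff, twist_coeff, twist_coeff, coeffMap_coeff, map_mul]
  congr 1
  rw [← map_zpow, Units.coe_map]
  rfl

theorem coeffMap_C' (ρ : B →+* C) (a : B) :
    coeffMap ρ (HahnSeries.C a : LaurentSeries B) = HahnSeries.C (ρ a) := by
  rw [HahnSeries.C_apply, HahnSeries.C_apply, coeffMap_single]

/-- the integral identity behind the quotient rule -/
theorem twist_mul_sub (u : Bˣ) (a b : LaurentSeries B) :
    twist u a * b - a * twist u b =
      HahnSeries.C ((u : B) - 1) *
        ((thetaL a + HahnSeries.C ((u : B) - 1) * psiL u a) * b -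
          a * (thetaL b + HahnSeries.C ((u : B) - 1) * psiL u b)) := by
  have ha := twist_sub_self u a
  have hb := twist_sub_self u b
  linear_combination b * ha - a * hb

/-- the quotient rule for `θ` over a field -/
theorem thetaL_div {K : Type*} [Field K] (f g : LaurentSeries K) (hg : g ≠ 0) :
    thetaL (f / g) = (thetaL f * g - f * thetaL g) / g ^ 2 := by
  have h := thetaL_mul (f / g) g
  rw [div_mul_cancel₀ f hg] at h
  rw [eq_div_iff (pow_ne_zero 2 hg), h]
  field_simp
  ring

end General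

section Gauss

variable {A : Type*} [CommRing A] [IsDomain A] [IsDiscreteValuationRing A]
  (Qf : Type*) [Field Qf] [Algebra A Qf] [IsFractionRing A Qf]

/-- the image of a unit of `A` in the fraction field -/
noncomputable def unitQ (u : Aˣ) : Qfˣ := Units.map (algebraMap A Qf : A →* Qf) u

@[simp] theorem coe_unitQ (u : Aˣ) : ((unitQ Qf u : Qfˣ) : Qf) = algebraMap A Qf (u : A) := rfl

theorem emb_twist (u : Aˣ) (a : LaurentSeries A) :
    emb A Qf (twist u a) = twist (unitQ Qf u) (emb A Qf a) :=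
  coeffMap_twist_map (algebraMap A Qf) u a

omit [IsDomain A] [IsDiscreteValuationRing A] in
theorem red_twist [IsLocalRing A] (u : Aˣ) (hu1 : IsLocalRing.residue A (u : A) = 1)
    (a : LaurentSeries A) :
    coeffMap (IsLocalRing.residue A) (twist u a) = coeffMap (IsLocalRing.residue A) a := by
  rw [coeffMap_twist_map]
  have h1 : Units.map ((IsLocalRing.residue A : A →+* IsLocalRing.ResidueField A) :
      A →* IsLocalRing.ResidueField A) u = 1 := by
    ext
    rw [Units.coe_map]
    simpa using hu1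
  rw [h1, twist_one]

variable {Qf}

/-- **`f(uQ)` lies in the Gauss ring.** -/
theorem twist_mem_gaussRing (u : Aˣ) (hu1 : IsLocalRing.residue A (u : A) = 1)
    {f : LaurentSeries Qf} (hf : f ∈ gaussRing A Qf) :
    twist (unitQ Qf u) f ∈ gaussRing A Qf := by
  obtain ⟨a, b, hb, hfab⟩ := hf
  refine ⟨twist u a, twist u b, ?_, ?_⟩
  · rw [show red A (twist u b) = red A b from red_twist u hu1 b]
    exact hb
  · rw [emb_twist, emb_twist, ← map_mul, hfab]

/-- **`f(uQ)` has the same reduction as `f`.** -/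
theorem gaussRed_twist (u : Aˣ) (hu1 : IsLocalRing.residue A (u : A) = 1)
    {f : LaurentSeries Qf} (hf : f ∈ gaussRing A Qf)
    (htf : twist (unitQ Qf u) f ∈ gaussRing A Qf) :
    gaussRed (⟨twist (unitQ Qf u) f, htf⟩ : gaussRing A Qf) =
      gaussRed (⟨f, hf⟩ : gaussRing A Qf) := by
  have hf' := hf
  obtain ⟨a, b, hb, hfab⟩ := hf'
  have hb' : red A (twist u b) ≠ 0 := by
    rw [show red A (twist u b) = red A b from red_twist u hu1 b]
    exact hb
  have h1 : twist (unitQ Qf u) f * emb A Qf (twist u b) = emb A Qf (twist u a) := by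
    rw [emb_twist, emb_twist, ← map_mul, hfab]
  rw [gaussRed_eq (⟨twist (unitQ Qf u) f, htf⟩ : gaussRing A Qf) hb' h1,
    gaussRed_eq (⟨f, hf⟩ : gaussRing A Qf) hb hfab,
    show red A (twist u b) = red A b from red_twist u hu1 b,
    show red A (twist u a) = red A a from red_twist u hu1 a]

variable {q : ℕ} [hq : Fact q.Prime]

/-- **The residue of the Wilson quotient `W = (f(uQ) - f)^(q-1) / q` is `-(θ f̄)^(q-1)`**, for every
`f` of the Gauss ring. -/
theorem gaussRed_wilson (u : Aˣ) (hu : IsPrimitiveRoot (u : A) q)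
    (hu1 : IsLocalRing.residue A (u : A) = 1)
    {f : LaurentSeries Qf} (hf : f ∈ gaussRing A Qf) (W : LaurentSeries Qf)
    (hW : HahnSeries.C (q : Qf) * W = (twist (unitQ Qf u) f - f) ^ (q - 1)) :
    ∃ hWm : W ∈ gaussRing A Qf,
      gaussRed (⟨W, hWm⟩ : gaussRing A Qf) =
        -(thetaL (gaussRed (⟨f, hf⟩ : gaussRing A Qf))) ^ (q - 1) := by
  have hf' := hf
  obtain ⟨a, b, hb, hfab⟩ := hf'
  have hb0 : red A b ≠ 0 := hb
  set π : A := (u : A) - 1 with hπ
  set a₁ := thetaL a + HahnSeries.C π * psiL u a with ha₁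
  set b₁ := thetaL b + HahnSeries.C π * psiL u b with hb₁
  set n := a₁ * b - a * b₁ with hn
  set b' := twist u b with hb'
  have hredb' : red A b' = red A b := red_twist u hu1 b
  have hresπ : IsLocalRing.residue A π = 0 := by rw [hπ, map_sub, hu1, map_one, sub_self]
  -- the twisted quotient
  have h1 : twist (unitQ Qf u) f * emb A Qf b' = emb A Qf (twist u a) := by
    rw [hb', emb_twist, emb_twist, ← map_mul, hfab]
  have h2 : (twist (unitQ Qf u) f - f) * emb A Qf (b * b') = emb A Qf (HahnSeries.C π * n) := by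
    rw [hn, ha₁, hb₁, hπ, ← twist_mul_sub, map_sub, map_mul, map_mul, map_mul, ← h1, ← hfab]
    ring
  -- `q = wilsonUnit · π^(q-1)`
  have hqC : (HahnSeries.C (q : Qf) : LaurentSeries Qf) =
      emb A Qf (HahnSeries.C (wilsonUnit (u : A) q)) * emb A Qf (HahnSeries.C π) ^ (q - 1) := by
    have e1 : (HahnSeries.C (q : Qf) : LaurentSeries Qf) = emb A Qf (HahnSeries.C ((q : ℕ) : A)) := by
      show _ = coeffMap (algebraMap A Qf) _
      rw [coeffMap_C', map_natCast (algebraMap A Qf)]
    have e2 : (HahnSeries.C ((q : ℕ) : A) : LaurentSeries A) =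
        HahnSeries.C (wilsonUnit (u : A) q) * HahnSeries.C π ^ (q - 1) := by
      rw [← map_pow, ← map_mul, hπ, ← natCast_eq_mul_pow hu]
    rw [e1, e2, map_mul, map_pow]
  have hπ0 : π ≠ 0 := by
    intro h
    have h1 : (u : A) = 1 := sub_eq_zero.mp h
    have := hu.unique (h1 ▸ IsPrimitiveRoot.one)
    exact hq.out.one_lt.ne' this
  have hCπ : emb A Qf (HahnSeries.C π) ≠ 0 := by
    rw [Ne, emb_eq_zero_iff]
    intro h
    apply hπ0
    have := congrArg (fun s : LaurentSeries A => s.coeff 0) h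
    simpa [HahnSeries.C_apply] using this
  have h3 : W * emb A Qf (HahnSeries.C (wilsonUnit (u : A) q) * (b * b') ^ (q - 1)) =
      emb A Qf (n ^ (q - 1)) := by
    apply mul_left_cancel₀ (pow_ne_zero (q - 1) hCπ)
    calc emb A Qf (HahnSeries.C π) ^ (q - 1) *
          (W * emb A Qf (HahnSeries.C (wilsonUnit (u : A) q) * (b * b') ^ (q - 1)))
        = (HahnSeries.C (q : Qf) * W) * emb A Qf (b * b') ^ (q - 1) := by
          rw [hqC, map_mul, map_pow]; ring
      _ = ((twist (unitQ Qf u) f - f) * emb A Qf (b * b')) ^ (q - 1) := by rw [hW, mul_pow]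
      _ = emb A Qf (HahnSeries.C π) ^ (q - 1) * emb A Qf (n ^ (q - 1)) := by
          rw [h2, map_mul, mul_pow, map_pow]
  -- the reduction of the denominator
  obtain ⟨c, hc⟩ := wilsonUnit_eq (q := q) hu
  have hreswu : IsLocalRing.residue A (wilsonUnit (u : A) q) = -1 := by
    rw [hc, map_add, map_neg, map_one, map_mul, ← hπ, hresπ, mul_zero, add_zero]
  have hredC : ∀ x : A, red A (HahnSeries.C x) = HahnSeries.C (IsLocalRing.residue A x) :=
    fun x => coeffMap_C' _ x
  have hden : red A (HahnSeries.C (wilsonUnit (u : A) q) * (b * b') ^ (q - 1)) =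
      -((red A b) ^ 2) ^ (q - 1) := by
    rw [map_mul, map_pow, map_mul, hredb', hredC, hreswu, map_neg, map_one]
    ring
  have hden0 : red A (HahnSeries.C (wilsonUnit (u : A) q) * (b * b') ^ (q - 1)) ≠ 0 := by
    rw [hden]
    exact neg_ne_zero.mpr (pow_ne_zero _ (pow_ne_zero _ hb0))
  have hWm : W ∈ gaussRing A Qf := ⟨n ^ (q - 1), _, hden0, h3⟩
  refine ⟨hWm, ?_⟩
  rw [gaussRed_eq (⟨W, hWm⟩ : gaussRing A Qf) hden0 h3,
    gaussRed_eq (⟨f, hf⟩ : gaussRing A Qf) hb hfab, hden, thetaL_div _ _ hb0]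
  -- the reduction of the numerator
  have hredθ : ∀ x : LaurentSeries A, red A (thetaL x) = thetaL (red A x) :=
    fun x => coeffMap_thetaL _ x
  have hreda₁ : red A a₁ = thetaL (red A a) := by
    rw [ha₁, map_add, map_mul, hredC, hresπ, map_zero, zero_mul, add_zero, hredθ]
  have hredb₁ : red A b₁ = thetaL (red A b) := by
    rw [hb₁, map_add, map_mul, hredC, hresπ, map_zero, zero_mul, add_zero, hredθ]
  have hredn : red A n = thetaL (red A a) * red A b - red A a * thetaL (red A b) := by
    rw [hn, map_sub, map_mul, map_mul, hreda₁, hredb₁]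
  rw [map_pow, hredn, div_pow, div_neg]

/-- **Unit version** (for the cusps): the residue of `W' = (1 - f/f(uQ))^(q-1) / q`. -/
theorem gaussRed_wilson_unit (u : Aˣ) (hu : IsPrimitiveRoot (u : A) q)
    (hu1 : IsLocalRing.residue A (u : A) = 1)
    {f : LaurentSeries Qf} (hf : f ∈ gaussRing A Qf)
    (hf0 : gaussRed (⟨f, hf⟩ : gaussRing A Qf) ≠ 0) (W' : LaurentSeries Qf)
    (hW : HahnSeries.C (q : Qf) * W' * twist (unitQ Qf u) f ^ (q - 1) =
      (twist (unitQ Qf u) f - f) ^ (q - 1)) :
    ∃ hWm : W' ∈ gaussRing A Qf,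
      gaussRed (⟨W', hWm⟩ : gaussRing A Qf) * gaussRed (⟨f, hf⟩ : gaussRing A Qf) ^ (q - 1) =
        -(thetaL (gaussRed (⟨f, hf⟩ : gaussRing A Qf))) ^ (q - 1) := by
  obtain ⟨hWm, hWred⟩ := gaussRed_wilson u hu hu1 hf (W' * twist (unitQ Qf u) f ^ (q - 1))
    (by rw [← mul_assoc]; exact hW)
  have htm := twist_mem_gaussRing u hu1 hf
  have htred := gaussRed_twist u hu1 hf htm
  have ht0 : gaussRed (⟨twist (unitQ Qf u) f, htm⟩ : gaussRing A Qf) ≠ 0 := by
    rw [htred]; exact hf0
  have hinv := inv_mem_gaussRing_of_gaussRed_ne_zero ht0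
  have htne : twist (unitQ Qf u) f ≠ 0 := ne_zero_of_gaussRed_ne_zero ht0
  have hW' : W' = (W' * twist (unitQ Qf u) f ^ (q - 1)) * (twist (unitQ Qf u) f)⁻¹ ^ (q - 1) := by
    rw [mul_assoc, ← mul_pow, mul_inv_cancel₀ htne, one_pow, mul_one]
  have hWm' : W' ∈ gaussRing A Qf := by
    rw [hW']
    exact (gaussRing A Qf).mul_mem hWm ((gaussRing A Qf).pow_mem hinv _)
  refine ⟨hWm', ?_⟩
  rw [← hWred, ← htred, ← map_pow, ← map_mul]
  rfl

end Gauss

end Fermat.Agent.S36.R3.GaussPi
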