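import Mathlib
import Fermat.Agent.S36.R3.ThetaPow
import Fermat.Prelude.Def_ModularCurve_X0ModL

/-!
# S36 / block [R3]: residues of the Wilson quotients `w = Π^(q-1)/q` (for (R3-G) and [CUSP])

`A` a domain, `ζ ∈ Aˣ` a primitive `q`-th root of unity, `ρ : A →+* K` a ring homomorphism with
`ρ ζ = 1` (automatic if `K` is a domain of characteristic `q`), `f ∈ A((Q))`,
`f'' := twist ζ f = f(ζ Q)`.

* `coeffMap_eq_neg_theta_pow` : `q w = (f'' - f)^(q-1)` ⇒ `w̄ = -(θ f̄)^(q-1)`;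
* `coeffMap_mul_pow_eq_neg_theta_pow` (unit version, for the cusps): `q w' f''^(q-1) = (f'' - f)^(q-1)`
  (i.e. `w' = (f''/f'' - f/f'')^(q-1)/q = (1 - f/f'')^(q-1)/q`) ⇒ `w̄' f̄^(q-1) = -(θ f̄)^(q-1)`;
* closed forms for `f = j` (`jqModC`), `K` a field of characteristic `q`:
  `residue_j` (`q ≥ 5`: `w̄ S(j̄)² = -j̄^A (j̄-1728)^B`), `residue_small` (`q ∣ 6`: `w̄ = -(-j̄)^(q-1)`),
  `residue_tau` (level-4 Hauptmodul), and at the cusps, in the coordinate `a = 1/j̄`: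
  `cusp_residue` (`q ≥ 5`: `w̄' · S^rev(a)² = -(1 - 1728 a)^B`, a unit wherever `a` is in the
  maximal ideal), `cusp_residue_small` (`q ∣ 6`: `w̄' = -(-1)^(q-1)`).
-/

set_option autoImplicit false

namespace Fermat.Agent.S36.R3.PiUnit

open ModularCurve Polynomial
open Fermat.Agent.N4.TwistSeries Fermat.Agent.S36.R3.Wilson
open Fermat.Agent.S36.R3.PiSeries Fermat.Agent.S36.R3.ThetaJ Fermat.Agent.S36.R3.ThetaPow

section General

variable {A : Type*} [CommRing A] {K : Type*} [CommRing K]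

theorem coeffMap_C (ρ : A →+* K) (a : A) :
    coeffMap ρ (HahnSeries.C a : LaurentSeries A) = HahnSeries.C (ρ a) := by
  rw [HahnSeries.C_apply, HahnSeries.C_apply, coeffMap_single]

/-- reduction kills the twist by a root of unity that reduces to `1` -/
theorem coeffMap_twist (ρ : A →+* K) (ζ : Aˣ) (hρ : ρ (ζ : A) = 1) (f : LaurentSeries A) :
    coeffMap ρ (twist ζ f) = coeffMap ρ f := by
  ext n
  rw [coeffMap_coeff, coeffMap_coeff, twist_coeff, map_mul]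
  have h1 : Units.map (ρ : A →* K) ζ = 1 := by
    ext
    rw [Units.coe_map]
    simpa using hρ
  have h2 : ρ ((ζ ^ n : Aˣ) : A) = ((Units.map (ρ : A →* K) ζ ^ n : Kˣ) : K) := by
    rw [← map_zpow, Units.coe_map]
    rfl
  rw [h2, h1, one_zpow, Units.val_one, one_mul]

/-- in a domain of characteristic `q`, a `q`-th root of unity is `1` -/
theorem map_eq_one_of_charP [IsDomain K] (q : ℕ) [Fact q.Prime] [CharP K q] (ρ : A →+* K)
    {ζ : A} (hζ : ζ ^ q = 1) : ρ ζ = 1 := by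
  have h1 : (ρ ζ - 1) ^ q = 0 := by
    rw [sub_pow_char, one_pow, ← map_pow, hζ, map_one, sub_self]
  exact sub_eq_zero.mp (pow_eq_zero_iff (Fact.out : q.Prime).ne_zero |>.mp h1)

end General

section Domain

variable {A : Type*} [CommRing A] [IsDomain A] {q : ℕ} [hq : Fact q.Prime]
variable {K : Type*} [CommRing K]

/-- **the residue of `w = Π_f^(q-1)/q` is `-(θ f̄)^(q-1)`** -/
theorem coeffMap_eq_neg_theta_pow (ζ : Aˣ) (hζ : IsPrimitiveRoot (ζ : A) q) (ρ : A →+* K)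
    (hρ : ρ (ζ : A) = 1) (f w : LaurentSeries A)
    (hw : HahnSeries.C (q : A) * w = (twist ζ f - f) ^ (q - 1)) :
    coeffMap ρ w = -(thetaL (coeffMap ρ f)) ^ (q - 1) := by
  obtain ⟨r, hr⟩ := neg_eq_theta_pow ζ hζ f w hw
  have h := congrArg (coeffMap ρ) hr
  rw [map_neg, map_add, map_pow, map_mul, coeffMap_C, map_sub, hρ, map_one, sub_self, map_zero,
    zero_mul, add_zero, coeffMap_thetaL] at h
  rw [← h, neg_neg]

/-- **unit version** (for the cusps): the residue of `w' = (1 - f/f'')^(q-1)/q` is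
`-(θ f̄ / f̄)^(q-1)`. -/
theorem coeffMap_mul_pow_eq_neg_theta_pow (ζ : Aˣ) (hζ : IsPrimitiveRoot (ζ : A) q) (ρ : A →+* K)
    (hρ : ρ (ζ : A) = 1) (f w' : LaurentSeries A)
    (hw : HahnSeries.C (q : A) * w' * twist ζ f ^ (q - 1) = (twist ζ f - f) ^ (q - 1)) :
    coeffMap ρ w' * coeffMap ρ f ^ (q - 1) = -(thetaL (coeffMap ρ f)) ^ (q - 1) := by
  have h := coeffMap_eq_neg_theta_pow ζ hζ ρ hρ f (w' * twist ζ f ^ (q - 1))
    (by rw [← mul_assoc]; exact hw)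
  rw [map_mul, map_pow, coeffMap_twist ρ ζ hρ] at h
  exact h

end Domain

section Field

variable {A : Type*} [CommRing A] [IsDomain A] (q : ℕ) [hq : Fact q.Prime]
variable (K : Type*) [Field K] [CharP K q]

/-- **residue of `w_j`, `q ≥ 5`**: `w̄ · S(j̄)² = -j̄^A (j̄ - 1728)^B`. -/
theorem residue_j (h5 : 5 ≤ q) (ζ : Aˣ) (hζ : IsPrimitiveRoot (ζ : A) q) (ρ : A →+* K)
    (w : LaurentSeries A)
    (hw : HahnSeries.C (q : A) * w = (twist ζ (jqModC A) - jqModC A) ^ (q - 1)) :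
    ∃ (m δ ε : ℕ) (S : K[X]), δ ≤ 1 ∧ ε ≤ 1 ∧ q - 1 = 12 * m + 4 * δ + 6 * ε ∧
      S.Monic ∧ S.natDegree = m ∧
      E4L K ^ δ * E6L K ^ ε * DeltaL K ^ m * aeval (jqModC K) S = 1 ∧
      coeffMap ρ w * aeval (jqModC K) S ^ 2 =
        -(jqModC K ^ (8 * m + 2 * δ + 4 * ε) * (jqModC K - 1728) ^ (6 * m + 2 * δ + 2 * ε)) := by
  obtain ⟨m, δ, ε, S, hδ, hε, hqm, hS1, hS2, hS, hθ⟩ := exists_thetaL_pow q K h5
  refine ⟨m, δ, ε, S, hδ, hε, hqm, hS1, hS2, hS, ?_⟩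
  have hρ : ρ (ζ : A) = 1 := map_eq_one_of_charP q ρ hζ.pow_eq_one
  have h := coeffMap_eq_neg_theta_pow ζ hζ ρ hρ (jqModC A) w hw
  rw [coeffMap_jqModC] at h
  rw [h, neg_mul, hθ]

/-- **residue of `w_j`, `q ∈ {2, 3}`**: `w̄ = -(-j̄)^(q-1)`. -/
theorem residue_small (h6 : q ∣ 6) (ζ : Aˣ) (hζ : IsPrimitiveRoot (ζ : A) q) (ρ : A →+* K)
    (w : LaurentSeries A)
    (hw : HahnSeries.C (q : A) * w = (twist ζ (jqModC A) - jqModC A) ^ (q - 1)) :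
    coeffMap ρ w = -(-jqModC K) ^ (q - 1) := by
  have hρ : ρ (ζ : A) = 1 := map_eq_one_of_charP q ρ hζ.pow_eq_one
  have h := coeffMap_eq_neg_theta_pow ζ hζ ρ hρ (jqModC A) w hw
  rw [coeffMap_jqModC, thetaL_jqModC_of_charP K q h6] at h
  exact h

/-- **residue of `w_t`, `q ≥ 5`, level-4 Hauptmodul**: if `f̄ = τ` satisfies
`j̄ τ⁴ (τ + 16) = (τ² + 256 τ + 4096)³` then
`w̄ · S(j̄)² c^(2δ) d^(2ε) = -τ^(4m+4δ+6ε) (τ + 16)^(10m+4δ+6ε)`. -/
theorem residue_tau (h5 : 5 ≤ q) (ζ : Aˣ) (hζ : IsPrimitiveRoot (ζ : A) q) (ρ : A →+* K)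
    (f w : LaurentSeries A) (hw : HahnSeries.C (q : A) * w = (twist ζ f - f) ^ (q - 1))
    (τ : LaurentSeries K) (hf : coeffMap ρ f = τ)
    (hτ : jqModC K * (τ ^ 4 * (τ + 16)) = (τ ^ 2 + 256 * τ + 4096) ^ 3) :
    ∃ (m δ ε : ℕ) (S : K[X]), δ ≤ 1 ∧ ε ≤ 1 ∧ q - 1 = 12 * m + 4 * δ + 6 * ε ∧
      S.Monic ∧ S.natDegree = m ∧
      E4L K ^ δ * E6L K ^ ε * DeltaL K ^ m * aeval (jqModC K) S = 1 ∧
      coeffMap ρ w * aeval (jqModC K) S ^ 2 * (τ ^ 2 + 256 * τ + 4096) ^ (2 * δ) *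
          ((τ + 32) * (τ ^ 2 - 512 * τ - 8192)) ^ (2 * ε) =
        -(τ ^ (4 * m + 4 * δ + 6 * ε) * (τ + 16) ^ (10 * m + 4 * δ + 6 * ε)) := by
  obtain ⟨m, δ, ε, S, hδ, hε, hqm, hS1, hS2, hS, -⟩ := exists_thetaL_pow q K h5
  refine ⟨m, δ, ε, S, hδ, hε, hqm, hS1, hS2, hS, ?_⟩
  have hρ : ρ (ζ : A) = 1 := map_eq_one_of_charP q ρ hζ.pow_eq_one
  have h := coeffMap_eq_neg_theta_pow ζ hζ ρ hρ f w hw
  have h2 : (2 : K) ≠ 0 := by
    intro h0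
    have h2' : ((2 : ℕ) : K) = 0 := by exact_mod_cast h0
    have := (CharP.cast_eq_zero_iff K q 2).mp h2'
    have := Nat.le_of_dvd (by norm_num) this
    omega
  have key := thetaL_tau_pow K h2 (aeval (jqModC K) S) hS τ hτ
  rw [h, hf, hqm, neg_mul, neg_mul, neg_mul, key]

/-- the reversed polynomial: `a^m S(1/a) = S^rev(a)` -/
theorem inv_pow_mul_aeval {x : LaurentSeries K} (hx : x ≠ 0) (S : K[X]) :
    x⁻¹ ^ S.natDegree * aeval x S = aeval x⁻¹ S.reverse := by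
  let _ : Invertible x := invertibleOfNonzero hx
  have h := Polynomial.eval₂_reverse_mul_pow (algebraMap K (LaurentSeries K)) x S
  rw [invOf_eq_inv] at h
  rw [aeval_def, aeval_def, ← h, inv_pow]
  field_simp

/-- **cusp residue, `q ≥ 5`**: for `w' = (1 - j/j'')^(q-1)/q`, in the coordinate `a = 1/j̄`:
`w̄' · S^rev(a)² = -(1 - 1728 a)^B`. -/
theorem cusp_residue (h5 : 5 ≤ q) (ζ : Aˣ) (hζ : IsPrimitiveRoot (ζ : A) q) (ρ : A →+* K)
    (w' : LaurentSeries A)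
    (hw : HahnSeries.C (q : A) * w' * twist ζ (jqModC A) ^ (q - 1) =
      (twist ζ (jqModC A) - jqModC A) ^ (q - 1)) :
    ∃ (m δ ε : ℕ) (S : K[X]), δ ≤ 1 ∧ ε ≤ 1 ∧ q - 1 = 12 * m + 4 * δ + 6 * ε ∧
      S.Monic ∧ S.natDegree = m ∧
      E4L K ^ δ * E6L K ^ ε * DeltaL K ^ m * aeval (jqModC K) S = 1 ∧
      coeffMap ρ w' * aeval (jqModC K)⁻¹ S.reverse ^ 2 =
        -(1 - 1728 * (jqModC K)⁻¹) ^ (6 * m + 2 * δ + 2 * ε) := by
  obtain ⟨m, δ, ε, S, hδ, hε, hqm, hS1, hS2, hS, hθ⟩ := exists_thetaL_pow q K h5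
  refine ⟨m, δ, ε, S, hδ, hε, hqm, hS1, hS2, hS, ?_⟩
  have hρ : ρ (ζ : A) = 1 := map_eq_one_of_charP q ρ hζ.pow_eq_one
  have h := coeffMap_mul_pow_eq_neg_theta_pow ζ hζ ρ hρ (jqModC A) w' hw
  rw [coeffMap_jqModC] at h
  have hJ : jqModC K ≠ 0 := jqModC_ne_zero_of_nontrivial K
  have hrev := inv_pow_mul_aeval K hJ S
  rw [hS2] at hrev
  rw [← hrev]
  have hJJ : (jqModC K)⁻¹ * jqModC K = 1 := inv_mul_cancel₀ hJ
  have hk : 1 - 1728 * (jqModC K)⁻¹ = (jqModC K)⁻¹ * (jqModC K - 1728) := by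
    rw [mul_sub, hJJ]; ring
  rw [hk]
  generalize (jqModC K)⁻¹ = a at hJJ ⊢
  have e1 : coeffMap ρ w' * (a ^ m * aeval (jqModC K) S) ^ 2 =
      (coeffMap ρ w' * jqModC K ^ (q - 1)) * aeval (jqModC K) S ^ 2 * a ^ (2 * m + (q - 1)) := by
    calc coeffMap ρ w' * (a ^ m * aeval (jqModC K) S) ^ 2
        = coeffMap ρ w' * aeval (jqModC K) S ^ 2 * a ^ (2 * m) * (a * jqModC K) ^ (q - 1) := by
          rw [hJJ, one_pow]; ring
      _ = _ := by ring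
  rw [e1, h, neg_mul, neg_mul, hθ, hqm]
  congr 1
  calc jqModC K ^ (8 * m + 2 * δ + 4 * ε) * (jqModC K - 1728) ^ (6 * m + 2 * δ + 2 * ε) *
        a ^ (2 * m + (12 * m + 4 * δ + 6 * ε))
      = (a * jqModC K) ^ (8 * m + 2 * δ + 4 * ε) *
          (a * (jqModC K - 1728)) ^ (6 * m + 2 * δ + 2 * ε) := by
        generalize jqModC K - 1728 = k
        ring
    _ = _ := by rw [hJJ, one_pow, one_mul]

/-- **cusp residue, `q ∈ {2, 3}`**: `w̄' = -(-1)^(q-1)`. -/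
theorem cusp_residue_small (h6 : q ∣ 6) (ζ : Aˣ) (hζ : IsPrimitiveRoot (ζ : A) q) (ρ : A →+* K)
    (w' : LaurentSeries A)
    (hw : HahnSeries.C (q : A) * w' * twist ζ (jqModC A) ^ (q - 1) =
      (twist ζ (jqModC A) - jqModC A) ^ (q - 1)) :
    coeffMap ρ w' = -(-1) ^ (q - 1) := by
  have hρ : ρ (ζ : A) = 1 := map_eq_one_of_charP q ρ hζ.pow_eq_one
  have h := coeffMap_mul_pow_eq_neg_theta_pow ζ hζ ρ hρ (jqModC A) w' hw
  rw [coeffMap_jqModC, thetaL_jqModC_of_charP K q h6] at h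
  have hJ : jqModC K ≠ 0 := jqModC_ne_zero_of_nontrivial K
  apply mul_right_cancel₀ (pow_ne_zero (q - 1) hJ)
  rw [h, neg_pow (jqModC K)]
  ring

end Field

end Fermat.Agent.S36.R3.PiUnit
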