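import Mathlib
import Fermat.Agent.S36.R3.GaussPi
import Fermat.Agent.S36.R3.GaussBaseChange
import Fermat.Agent.S36.R3.PiUnit

/-!
# S36 / block [R3]: the residue on `V11` of `w_φ = Π_φ^(q-1)/q` (glue of `sigma11` and `GaussPi`)

Abstract setting: `A → A'` a local homomorphism of discrete valuation rings (`O → O' = O[ζ_q]`),
`Q → Q'` their fraction fields (`K → K'`), `s : F2 →+* Q'((Q))` a ring homomorphism (the expansion
`sigma11` at the middle cusp), `u ∈ A'ˣ` a primitive `q`-th root of unity with residue `1`.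
For `g ∈ gaussRing A Q` (the expansion of `φ ∈ gaussSubalgebra K M0 O`) and `x0 x2 w : F2` with
`s x0 = g` (base changed), `s x2 = g(uQ)` and `q w = (x2 - x0)^(q-1)`:

* `residue_sigma` : `s w` lies in the Gauss ring of `A'` (i.e. `w ∈ V11`) and its reduction is
  `-(θ ḡ)^(q-1)` (`ḡ` the reduction of `g`, base changed to `κ'`);
* `residue_sigma_unit` : the same for `w'` with `q w' x2^(q-1) = (x2 - x0)^(q-1)` when `ḡ ≠ 0`;
* closed forms: `residue_sigma_j`, `residue_sigma_small`, `residue_sigma_tau`,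
  `cusp_residue_sigma`, `cusp_residue_sigma_small`.
-/

set_option autoImplicit false
set_option linter.unusedSectionVars false

namespace Fermat.Agent.S36.R3.ResidueV11

open ModularCurve Polynomial
open Fermat.Agent.S28.Gauss Fermat.Agent.N4.TwistSeries
open Fermat.Agent.S36.R3.PiSeries Fermat.Agent.S36.R3.GaussPi Fermat.Agent.S36.R3.GaussBaseChange
open Fermat.Agent.S36.R3.ThetaJ Fermat.Agent.S36.R3.ThetaPow

variable {A : Type*} [CommRing A] [IsDomain A] [IsDiscreteValuationRing A]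
  {Q : Type*} [Field Q] [Algebra A Q] [IsFractionRing A Q]
  {A' : Type*} [CommRing A'] [IsDomain A'] [IsDiscreteValuationRing A']
  {Q' : Type*} [Field Q'] [Algebra A' Q'] [IsFractionRing A' Q']
  (φ : A →+* A') [IsLocalHom φ] (ψ : Q →+* Q')
  (hcomp : ψ.comp (algebraMap A Q) = (algebraMap A' Q').comp φ)
  {F2 : Type*} [CommRing F2] (s : F2 →+* LaurentSeries Q')
  {q : ℕ} [hq : Fact q.Prime] (u : A'ˣ) (hu : IsPrimitiveRoot (u : A') q)
  (hu1 : IsLocalRing.residue A' (u : A') = 1)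

/-- the reduction of `g`, base changed to the residue field of `A'` -/
noncomputable def gbar {g : LaurentSeries Q} (hg : g ∈ gaussRing A Q) :
    LaurentSeries (IsLocalRing.ResidueField A') :=
  coeffMap (IsLocalRing.ResidueField.map φ) (gaussRed (⟨g, hg⟩ : gaussRing A Q))

include hcomp hu hu1 in
/-- **The residue of `w_φ` on `V11`.** -/
theorem residue_sigma {g : LaurentSeries Q} (hg : g ∈ gaussRing A Q) (x0 x2 w : F2)
    (h0 : s x0 = coeffMap ψ g) (h2 : s x2 = twist (unitQ Q' u) (coeffMap ψ g))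
    (hw : (q : F2) * w = (x2 - x0) ^ (q - 1)) :
    ∃ hm : s w ∈ gaussRing A' Q',
      gaussRed (⟨s w, hm⟩ : gaussRing A' Q') = -(thetaL (gbar φ hg)) ^ (q - 1) := by
  have hf := coeffMap_mem_gaussRing φ ψ hcomp hg
  have hW : HahnSeries.C (q : Q') * s w =
      (twist (unitQ Q' u) (coeffMap ψ g) - coeffMap ψ g) ^ (q - 1) := by
    have h := congrArg s hw
    rw [map_mul, map_pow, map_sub, h0, h2, map_natCast] at h
    rw [← h, ← map_natCast (HahnSeries.C (Γ := ℤ) (R := Q')) q]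
  obtain ⟨hm, hred⟩ := gaussRed_wilson u hu hu1 hf (s w) hW
  refine ⟨hm, ?_⟩
  rw [hred, gaussRed_coeffMap φ ψ hcomp hg hf]
  rfl

include hcomp hu hu1 in
/-- **Unit version** (cusps): the residue of `w' = (1 - x0/x2)^(q-1)/q`. -/
theorem residue_sigma_unit {g : LaurentSeries Q} (hg : g ∈ gaussRing A Q)
    (hg0 : gaussRed (⟨g, hg⟩ : gaussRing A Q) ≠ 0) (x0 x2 w' : F2)
    (h0 : s x0 = coeffMap ψ g) (h2 : s x2 = twist (unitQ Q' u) (coeffMap ψ g))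
    (hw : (q : F2) * w' * x2 ^ (q - 1) = (x2 - x0) ^ (q - 1)) :
    ∃ hm : s w' ∈ gaussRing A' Q',
      gaussRed (⟨s w', hm⟩ : gaussRing A' Q') * gbar φ hg ^ (q - 1) =
        -(thetaL (gbar φ hg)) ^ (q - 1) := by
  have hf := coeffMap_mem_gaussRing φ ψ hcomp hg
  have hfred := gaussRed_coeffMap φ ψ hcomp hg hf
  have hf0 : gaussRed (⟨coeffMap ψ g, hf⟩ : gaussRing A' Q') ≠ 0 := by
    rw [hfred]
    intro h
    exact hg0 (coeffMap_residueMap_injective φ (h.trans (map_zero _).symm))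
  have hW : HahnSeries.C (q : Q') * s w' * twist (unitQ Q' u) (coeffMap ψ g) ^ (q - 1) =
      (twist (unitQ Q' u) (coeffMap ψ g) - coeffMap ψ g) ^ (q - 1) := by
    have h := congrArg s hw
    rw [map_mul, map_mul, map_pow, map_pow, map_sub, h0, h2, map_natCast] at h
    rw [← h, ← map_natCast (HahnSeries.C (Γ := ℤ) (R := Q')) q]
  obtain ⟨hm, hred⟩ := gaussRed_wilson_unit u hu hu1 hf hf0 (s w') hW
  refine ⟨hm, ?_⟩
  rw [hfred] at hred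
  exact hred

/-! ### Closed forms -/

/-- the algebra of the cusp closed form: from `x · j̄^(q-1) = -(θ j̄)^(q-1)` and
`(θ j̄)^(q-1) S(j̄)² = j̄^A (j̄ - 1728)^B` to `x · S^rev(1/j̄)² = -(1 - 1728/j̄)^B` -/
theorem cusp_closed_form (K : Type*) [Field K] {q m δ ε : ℕ}
    (hqm : q - 1 = 12 * m + 4 * δ + 6 * ε) {S : K[X]} (hS2 : S.natDegree = m)
    {x : LaurentSeries K}
    (hθ : thetaL (jqModC K) ^ (q - 1) * aeval (jqModC K) S ^ 2 =
      jqModC K ^ (8 * m + 2 * δ + 4 * ε) * (jqModC K - 1728) ^ (6 * m + 2 * δ + 2 * ε))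
    (h : x * jqModC K ^ (q - 1) = -(thetaL (jqModC K)) ^ (q - 1)) :
    x * aeval (jqModC K)⁻¹ S.reverse ^ 2 =
      -(1 - 1728 * (jqModC K)⁻¹) ^ (6 * m + 2 * δ + 2 * ε) := by
  have hJ : jqModC K ≠ 0 := jqModC_ne_zero_of_nontrivial K
  have hrev := Fermat.Agent.S36.R3.PiUnit.inv_pow_mul_aeval K hJ S
  rw [hS2] at hrev
  rw [← hrev]
  have hJJ : (jqModC K)⁻¹ * jqModC K = 1 := inv_mul_cancel₀ hJ
  have hk : 1 - 1728 * (jqModC K)⁻¹ = (jqModC K)⁻¹ * (jqModC K - 1728) := by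
    rw [mul_sub, hJJ]; ring
  rw [hk]
  generalize (jqModC K)⁻¹ = a at hJJ ⊢
  have e1 : x * (a ^ m * aeval (jqModC K) S) ^ 2 =
      (x * jqModC K ^ (q - 1)) * aeval (jqModC K) S ^ 2 * a ^ (2 * m + (q - 1)) := by
    calc x * (a ^ m * aeval (jqModC K) S) ^ 2
        = x * aeval (jqModC K) S ^ 2 * a ^ (2 * m) * (a * jqModC K) ^ (q - 1) := by
          rw [hJJ, one_pow]; ring
      _ = _ := by ring
  rw [e1, h, neg_mul, neg_mul, hθ, hqm]
  congr 1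
  calc jqModC K ^ (8 * m + 2 * δ + 4 * ε) * (jqModC K - 1728) ^ (6 * m + 2 * δ + 2 * ε) *
        a ^ (2 * m + (12 * m + 4 * δ + 6 * ε))
      = (a * jqModC K) ^ (8 * m + 2 * δ + 4 * ε) *
          (a * (jqModC K - 1728)) ^ (6 * m + 2 * δ + 2 * ε) := by
        generalize jqModC K - 1728 = k
        ring
    _ = _ := by rw [hJJ, one_pow, one_mul]

section Closed

variable [CharP (IsLocalRing.ResidueField A') q]

local notation "κ'" => IsLocalRing.ResidueField A'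

include hcomp hu hu1 in
/-- **`φ = j`, `q ≥ 5`**: `w̄ · S(j̄)² = -j̄^A (j̄ - 1728)^B`. -/
theorem residue_sigma_j (h5 : 5 ≤ q) {g : LaurentSeries Q} (hg : g ∈ gaussRing A Q)
    (hgj : gaussRed (⟨g, hg⟩ : gaussRing A Q) = jqModC (IsLocalRing.ResidueField A))
    (x0 x2 w : F2) (h0 : s x0 = coeffMap ψ g)
    (h2 : s x2 = twist (unitQ Q' u) (coeffMap ψ g))
    (hw : (q : F2) * w = (x2 - x0) ^ (q - 1)) :
    ∃ hm : s w ∈ gaussRing A' Q', ∃ (m δ ε : ℕ) (S : κ'[X]),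
      δ ≤ 1 ∧ ε ≤ 1 ∧ q - 1 = 12 * m + 4 * δ + 6 * ε ∧ S.Monic ∧ S.natDegree = m ∧
      E4L κ' ^ δ * E6L κ' ^ ε * DeltaL κ' ^ m * aeval (jqModC κ') S = 1 ∧
      gaussRed (⟨s w, hm⟩ : gaussRing A' Q') * aeval (jqModC κ') S ^ 2 =
        -(jqModC κ' ^ (8 * m + 2 * δ + 4 * ε) * (jqModC κ' - 1728) ^ (6 * m + 2 * δ + 2 * ε)) := by
  obtain ⟨hm, hred⟩ := residue_sigma φ ψ hcomp s u hu hu1 hg x0 x2 w h0 h2 hw
  obtain ⟨m, δ, ε, S, hδ, hε, hqm, hS1, hS2, hS, hθ⟩ := exists_thetaL_pow q κ' h5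
  refine ⟨hm, m, δ, ε, S, hδ, hε, hqm, hS1, hS2, hS, ?_⟩
  have hgb : gbar φ hg = jqModC κ' := by
    rw [gbar, hgj, coeffMap_jqModC]
  rw [hred, hgb, neg_mul, hθ]

include hcomp hu hu1 in
/-- **`φ = j`, `q ∈ {2, 3}`**: `w̄ = -(-j̄)^(q-1)`. -/
theorem residue_sigma_small (h6 : q ∣ 6) {g : LaurentSeries Q} (hg : g ∈ gaussRing A Q)
    (hgj : gaussRed (⟨g, hg⟩ : gaussRing A Q) = jqModC (IsLocalRing.ResidueField A))
    (x0 x2 w : F2) (h0 : s x0 = coeffMap ψ g)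
    (h2 : s x2 = twist (unitQ Q' u) (coeffMap ψ g))
    (hw : (q : F2) * w = (x2 - x0) ^ (q - 1)) :
    ∃ hm : s w ∈ gaussRing A' Q',
      gaussRed (⟨s w, hm⟩ : gaussRing A' Q') = -(-jqModC κ') ^ (q - 1) := by
  obtain ⟨hm, hred⟩ := residue_sigma φ ψ hcomp s u hu hu1 hg x0 x2 w h0 h2 hw
  refine ⟨hm, ?_⟩
  have hgb : gbar φ hg = jqModC κ' := by
    rw [gbar, hgj, coeffMap_jqModC]
  rw [hred, hgb, thetaL_jqModC_of_charP κ' q h6]

include hcomp hu hu1 in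
/-- **`φ = t` (level-4 Hauptmodul), `q ≥ 5`**: with `τ = t̄` and
`j̄ τ⁴ (τ + 16) = (τ² + 256 τ + 4096)³`:
`w̄ · S(j̄)² c^(2δ) d^(2ε) = -τ^(4m+4δ+6ε) (τ + 16)^(10m+4δ+6ε)`. -/
theorem residue_sigma_tau (h5 : 5 ≤ q) {g : LaurentSeries Q} (hg : g ∈ gaussRing A Q)
    (τ : LaurentSeries κ') (hgτ : gbar φ hg = τ)
    (hτ : jqModC κ' * (τ ^ 4 * (τ + 16)) = (τ ^ 2 + 256 * τ + 4096) ^ 3)
    (x0 x2 w : F2) (h0 : s x0 = coeffMap ψ g)
    (h2 : s x2 = twist (unitQ Q' u) (coeffMap ψ g))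
    (hw : (q : F2) * w = (x2 - x0) ^ (q - 1)) :
    ∃ hm : s w ∈ gaussRing A' Q', ∃ (m δ ε : ℕ) (S : κ'[X]),
      δ ≤ 1 ∧ ε ≤ 1 ∧ q - 1 = 12 * m + 4 * δ + 6 * ε ∧ S.Monic ∧ S.natDegree = m ∧
      E4L κ' ^ δ * E6L κ' ^ ε * DeltaL κ' ^ m * aeval (jqModC κ') S = 1 ∧
      gaussRed (⟨s w, hm⟩ : gaussRing A' Q') * aeval (jqModC κ') S ^ 2 *
          (τ ^ 2 + 256 * τ + 4096) ^ (2 * δ) * ((τ + 32) * (τ ^ 2 - 512 * τ - 8192)) ^ (2 * ε) =
        -(τ ^ (4 * m + 4 * δ + 6 * ε) * (τ + 16) ^ (10 * m + 4 * δ + 6 * ε)) := by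
  obtain ⟨hm, hred⟩ := residue_sigma φ ψ hcomp s u hu hu1 hg x0 x2 w h0 h2 hw
  obtain ⟨m, δ, ε, S, hδ, hε, hqm, hS1, hS2, hS, -⟩ := exists_thetaL_pow q κ' h5
  refine ⟨hm, m, δ, ε, S, hδ, hε, hqm, hS1, hS2, hS, ?_⟩
  have h2' : (2 : κ') ≠ 0 := by
    intro h0'
    have h2'' : ((2 : ℕ) : κ') = 0 := by exact_mod_cast h0'
    have := (CharP.cast_eq_zero_iff κ' q 2).mp h2''
    have := Nat.le_of_dvd (by norm_num) this
    omega
  have key := thetaL_tau_pow κ' h2' (aeval (jqModC κ') S) hS τ hτ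
  rw [hred, hgτ, hqm, neg_mul, neg_mul, neg_mul, key]

include hcomp hu hu1 in
/-- **cusps, `q ≥ 5`**: for `w' = (1 - j/j'')^(q-1)/q`, in the coordinate `a = 1/j̄`:
`w̄' · S^rev(a)² = -(1 - 1728 a)^B`. -/
theorem cusp_residue_sigma (h5 : 5 ≤ q) {g : LaurentSeries Q} (hg : g ∈ gaussRing A Q)
    (hgj : gaussRed (⟨g, hg⟩ : gaussRing A Q) = jqModC (IsLocalRing.ResidueField A))
    (x0 x2 w' : F2) (h0 : s x0 = coeffMap ψ g)
    (h2 : s x2 = twist (unitQ Q' u) (coeffMap ψ g))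
    (hw : (q : F2) * w' * x2 ^ (q - 1) = (x2 - x0) ^ (q - 1)) :
    ∃ hm : s w' ∈ gaussRing A' Q', ∃ (m δ ε : ℕ) (S : κ'[X]),
      δ ≤ 1 ∧ ε ≤ 1 ∧ q - 1 = 12 * m + 4 * δ + 6 * ε ∧ S.Monic ∧ S.natDegree = m ∧
      E4L κ' ^ δ * E6L κ' ^ ε * DeltaL κ' ^ m * aeval (jqModC κ') S = 1 ∧
      gaussRed (⟨s w', hm⟩ : gaussRing A' Q') * aeval (jqModC κ')⁻¹ S.reverse ^ 2 =
        -(1 - 1728 * (jqModC κ')⁻¹) ^ (6 * m + 2 * δ + 2 * ε) := by
  have hg0 : gaussRed (⟨g, hg⟩ : gaussRing A Q) ≠ 0 := by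
    rw [hgj]; exact jqModC_ne_zero_of_nontrivial _
  obtain ⟨hm, hred⟩ := residue_sigma_unit φ ψ hcomp s u hu hu1 hg hg0 x0 x2 w' h0 h2 hw
  obtain ⟨m, δ, ε, S, hδ, hε, hqm, hS1, hS2, hS, hθ⟩ := exists_thetaL_pow q κ' h5
  refine ⟨hm, m, δ, ε, S, hδ, hε, hqm, hS1, hS2, hS, ?_⟩
  have hgb : gbar φ hg = jqModC κ' := by
    rw [gbar, hgj, coeffMap_jqModC]
  rw [hgb] at hred
  exact cusp_closed_form κ' hqm hS2 hθ hred

include hcomp hu hu1 in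
/-- **cusps, `q ∈ {2, 3}`**: `w̄' = -(-1)^(q-1)`. -/
theorem cusp_residue_sigma_small (h6 : q ∣ 6) {g : LaurentSeries Q} (hg : g ∈ gaussRing A Q)
    (hgj : gaussRed (⟨g, hg⟩ : gaussRing A Q) = jqModC (IsLocalRing.ResidueField A))
    (x0 x2 w' : F2) (h0 : s x0 = coeffMap ψ g)
    (h2 : s x2 = twist (unitQ Q' u) (coeffMap ψ g))
    (hw : (q : F2) * w' * x2 ^ (q - 1) = (x2 - x0) ^ (q - 1)) :
    ∃ hm : s w' ∈ gaussRing A' Q',
      gaussRed (⟨s w', hm⟩ : gaussRing A' Q') = -(-1) ^ (q - 1) := by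
  have hg0 : gaussRed (⟨g, hg⟩ : gaussRing A Q) ≠ 0 := by
    rw [hgj]; exact jqModC_ne_zero_of_nontrivial _
  obtain ⟨hm, hred⟩ := residue_sigma_unit φ ψ hcomp s u hu hu1 hg hg0 x0 x2 w' h0 h2 hw
  refine ⟨hm, ?_⟩
  have hgb : gbar φ hg = jqModC κ' := by
    rw [gbar, hgj, coeffMap_jqModC]
  rw [hgb, thetaL_jqModC_of_charP κ' q h6] at hred
  have hJ : jqModC κ' ≠ 0 := jqModC_ne_zero_of_nontrivial κ'
  apply mul_right_cancel₀ (pow_ne_zero (q - 1) hJ)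
  rw [hred, neg_pow (jqModC κ')]
  ring

end Closed

end Fermat.Agent.S36.R3.ResidueV11
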