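import Mathlib
import Fermat.Agent.S36.V.MidVal
import Fermat.Agent.S36.R3.ResidueV11

/-!
# S36 / block [R3]: the Wilson residue on `V11 = midVS` (for every `g` of the Gauss ring of level `M₀`)

For `h : MidEmb K M0 q O K' O' s u` (`V/MidVal`: the middle embedding `s = sigma11` and the cyclotomic
discrete valuation ring `O'`), `u` a primitive `q`-th root of unity, and `g ∈ gaussSubalgebra K M0 O`,
`Π_g := β₂ β₁ g − α₂ α₁ g`:

* `wilson_mid` : `Π_g^(q-1) / q ∈ V11` and `ev11 (Π_g^(q-1)/q) = -(θ ḡ)^(q-1)`, `ḡ` the reduction of `g`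
  (base changed to the residue field of `O'`);
* `wilson_mid_unit` : for `ḡ ≠ 0`: `(1 − α₂α₁g / β₂β₁g)^(q-1) / q ∈ V11` with residue
  `w̄' · ḡ^(q-1) = -(θ ḡ)^(q-1)`;
* `wilson_mid_j` : the case `g = j`: `ev11 ((j'' − j)^(q-1)/q) = -(θ j̄)^(q-1)`.
-/

set_option autoImplicit false
set_option linter.unusedSectionVars false
set_option linter.style.haveILetI false

namespace Fermat.Agent.S36.R3.WilsonMid

open ModularCurve IsLocalRing
open Fermat.Agent.S28.Gauss Fermat.Agent.N4.Setting Fermat.Agent.N4.FibreEmbedding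
open Fermat.Agent.N4F.E.DegreeLevelRaise Fermat.Agent.N4F.E.GaussDVR
open Fermat.Agent.N4.TwistSeries Fermat.Agent.S36.R3.PiSeries
open Fermat.Agent.S36.V.MidVal Fermat.Agent.S36.R3.GaussPi Fermat.Agent.S36.R3.ResidueV11

variable {K : Type} [Field K] [CharZero K] {M0 q : ℕ} [NeZero M0] [NeZero q]
  {O : Subring K} [IsDiscreteValuationRing ↥O] [IsFractionRing ↥O K]
  {K' : Type} [Field K'] [Algebra K K']
  {O' : Subring K'} [IsDiscreteValuationRing ↥O'] [IsFractionRing ↥O' K']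
  {s : FF K (M0 * q * q) →+* LaurentSeries K'} {u : K'ˣ}

theorem natCast_ne_zero_FF (N : ℕ) [NeZero N] (n : ℕ) [NeZero n] : ((n : ℕ) : FF K N) ≠ 0 := by
  haveI : CharZero (FF K N) :=
    charZero_of_injective_algebraMap (algebraMap K (FF K N)).injective
  exact Nat.cast_ne_zero.mpr (NeZero.ne n)

theorem unitQ_uO (h : MidEmb K M0 q O K' O' s u) : unitQ K' h.uO = u :=
  Units.ext rfl

theorem isPrimitiveRoot_uO (h : MidEmb K M0 q O K' O' s u) (hu : IsPrimitiveRoot (u : K') q) :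
    IsPrimitiveRoot ((h.uO : (↥O')ˣ) : ↥O') q :=
  IsPrimitiveRoot.of_map_of_injective (f := O'.subtype) hu Subtype.val_injective

theorem hcomp_incl (h : MidEmb K M0 q O K' O' s u) :
    (algebraMap K K').comp (algebraMap ↥O K) = (algebraMap ↥O' K').comp (incl O O' h.dom) :=
  RingHom.ext fun _ => rfl

/-- **The Wilson residue on `V11`**, for every `g` of the Gauss ring of level `M₀`. -/
theorem wilson_mid (h : MidEmb K M0 q O K' O' s u) (hu : IsPrimitiveRoot (u : K') q)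
    (g : FF K M0) (hg : g ∈ gaussSubalgebra K M0 O) :
    ∃ hw : (betaF K (M0 * q) q (betaF K M0 q g) - alphaF K (M0 * q) q (alphaF K M0 q g)) ^ (q - 1) *
        ((q : ℕ) : FF K (M0 * q * q))⁻¹ ∈ midVS h,
      midEv h ⟨_, hw⟩ =
        -(thetaL (coeffMap (resMap O O' h.dom) (theta K M0 O ⟨g, hg⟩))) ^ (q - 1) := by
  haveI : Fact q.Prime := ⟨h.prime⟩
  haveI := isLocalHom_incl O O' h.dom
  have hq0 : ((q : ℕ) : FF K (M0 * q * q)) ≠ 0 := natCast_ne_zero_FF _ q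
  have hg' : ((g : FF K M0) : LaurentSeries K) ∈ gaussRing ↥O K := hg
  obtain ⟨hm, hred⟩ := residue_sigma (incl O O' h.dom) (algebraMap K K') (hcomp_incl h) s h.uO
    (isPrimitiveRoot_uO h hu) h.residue_u hg'
    (alphaF K (M0 * q) q (alphaF K M0 q g)) (betaF K (M0 * q) q (betaF K M0 q g))
    ((betaF K (M0 * q) q (betaF K M0 q g) - alphaF K (M0 * q) q (alphaF K M0 q g)) ^ (q - 1) *
        ((q : ℕ) : FF K (M0 * q * q))⁻¹)
    (by rw [h.alpha, coe_alphaF])
    (by rw [h.beta, unitQ_uO h])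
    (by field_simp)
  exact ⟨hm, hred⟩

/-- **Unit version** (cusps). -/
theorem wilson_mid_unit (h : MidEmb K M0 q O K' O' s u) (hu : IsPrimitiveRoot (u : K') q)
    (g : FF K M0) (hg : g ∈ gaussSubalgebra K M0 O) (hg0 : theta K M0 O ⟨g, hg⟩ ≠ 0) :
    ∃ hw : (1 - alphaF K (M0 * q) q (alphaF K M0 q g) /
        betaF K (M0 * q) q (betaF K M0 q g)) ^ (q - 1) *
        ((q : ℕ) : FF K (M0 * q * q))⁻¹ ∈ midVS h,
      midEv h ⟨_, hw⟩ * coeffMap (resMap O O' h.dom) (theta K M0 O ⟨g, hg⟩) ^ (q - 1) =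
        -(thetaL (coeffMap (resMap O O' h.dom) (theta K M0 O ⟨g, hg⟩))) ^ (q - 1) := by
  haveI : Fact q.Prime := ⟨h.prime⟩
  haveI := isLocalHom_incl O O' h.dom
  have hq0 : ((q : ℕ) : FF K (M0 * q * q)) ≠ 0 := natCast_ne_zero_FF _ q
  have hg' : ((g : FF K M0) : LaurentSeries K) ∈ gaussRing ↥O K := hg
  have hg00 : g ≠ 0 := by
    rintro rfl
    apply hg0
    have : (⟨0, hg⟩ : gaussSubalgebra K M0 O) = 0 := rfl
    rw [this, map_zero]
  have hx2 : betaF K (M0 * q) q (betaF K M0 q g) ≠ 0 :=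
    (map_ne_zero (betaF K (M0 * q) q)).mpr ((map_ne_zero (betaF K M0 q)).mpr hg00)
  obtain ⟨hm, hred⟩ := residue_sigma_unit (incl O O' h.dom) (algebraMap K K') (hcomp_incl h) s
    h.uO (isPrimitiveRoot_uO h hu) h.residue_u hg' hg0
    (alphaF K (M0 * q) q (alphaF K M0 q g)) (betaF K (M0 * q) q (betaF K M0 q g))
    ((1 - alphaF K (M0 * q) q (alphaF K M0 q g) /
        betaF K (M0 * q) q (betaF K M0 q g)) ^ (q - 1) * ((q : ℕ) : FF K (M0 * q * q))⁻¹)
    (by rw [h.alpha, coe_alphaF])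
    (by rw [h.beta, unitQ_uO h])
    (by
      rw [one_sub_div hx2, div_pow]
      field_simp)
  exact ⟨hm, hred⟩

/-- **The case `g = j`**: `ev11 ((j'' − j)^(q-1) / q) = -(θ j̄)^(q-1)`. -/
theorem wilson_mid_j (h : MidEmb K M0 q O K' O' s u) (hu : IsPrimitiveRoot (u : K') q) :
    ∃ hw : PiElt K M0 q ^ (q - 1) * ((q : ℕ) : FF K (M0 * q * q))⁻¹ ∈ midVS h,
      midEv h ⟨_, hw⟩ = -(thetaL (jqModC (ResidueField ↥O'))) ^ (q - 1) := by
  obtain ⟨hw, hred⟩ := wilson_mid h hu (jF K M0) (jF_mem_gaussSubalgebra K M0 O)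
  refine ⟨hw, ?_⟩
  exact hred.trans (by rw [theta_jF, coeffMap_jqModC])

end Fermat.Agent.S36.R3.WilsonMid
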