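/-
S36, block [R3], leaf (R3-G), file 5 (helper3): **the final plug of (R3-G)** — at every prime `𝔫` of a
chart `R` of level `M₀ q²` (`R ⊇ α₂α₁ Rfin(M₀), β₂β₁ Rfin(M₀)`; e.g. `R = Rfin K (M₀ q²) O`) lying on
the component `C11` only, the local ring `R_𝔫` is factorial and the generator `Π_t = β₂β₁ t − α₂α₁ t`
of the level-4 Hauptmodul `t` is a prime element of `R_𝔫` generating the centre of `V11`.
Every odd prime `q`; NO ordinarity hypothesis; NO hypothesis on the point except `(R-b)`.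

* `ufd_of_wilson` : hypothesis-driven on a "`V11`-package" `(V11, ev, ρ)`
  (`ev ∘ α₂α₁ = ρ ∘ θ₀`, the Wilson residue `ev (Π_g^(q-1)/q) = -(θ ρ ḡ)^(q-1)` for every `g` of the
  Gauss ring of level `M₀`, a uniformiser `τ₀` with `q = w τ₀^(q-1)`) — the shape of
  `V/ThreeVal` (`ρ = id`) and of `V/MidVal` (`ρ = resMap`);
* `ufd_of_midEmb` : the instance `V11 = midVS h`, `ev = midEv h` for `h : MidEmb …` (helper15), with
  helper26's `WilsonMid.wilson_mid`; the only input left about `V11` is `unif` (`Π_j` is a uniformiser,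
  from the counting `e(V11 | V10) = q − 1`, `V/CountAlong`).

Inputs used: `Haupt/FourRfin` (helper10: `tFin`), `R3/WInv.exists_winv` (helper9: the GLOBAL inverse
`w' ∈ Rfin K M₀ O` of `-(θ t̄)^(q-1)`), `R3/WilsonMid` (helper26), `V/MidVal` (helper15),
`R3/GeneratorInst.ufd_of_place`.
-/
import Mathlib
import Fermat.Agent.S36.R3.GeneratorInst
import Fermat.Agent.S36.R3.WilsonMid
import Fermat.Agent.S36.R3.WInv
import Fermat.Agent.S36.V.MidVal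

set_option autoImplicit false
set_option linter.unusedSectionVars false
set_option linter.style.haveILetI false

namespace Fermat.Agent.S36.R3.GeneratorFinal

open ModularCurve IsLocalRing
open Fermat.Agent.S28.Gauss Fermat.Agent.N4.Setting Fermat.Agent.N4.FibreEmbedding
open Fermat.Agent.N4F.E.DegreeLevelRaise Fermat.Agent.N4F.E.GaussDVR
open Fermat.Agent.N4.Chart Fermat.Agent.P3G.RbarFin
open Fermat.Agent.S36.R3.PiSeries
open Fermat.Agent.S36.Local.LocalRoot Fermat.Agent.S36.Local.Spread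
  Fermat.Agent.S36.Local.ChartSpread Fermat.Agent.S36.D.ChartRoots
  Fermat.Agent.N4.Cover.Globalize Fermat.Agent.P3G.Krull
  Fermat.Agent.S36.R3.Generator Fermat.Agent.S36.R3.GeneratorPid
  Fermat.Agent.S36.R3.GeneratorInst
open Fermat.Agent.S36.Haupt.FourRfin Fermat.Agent.S36.R3.WInv

section Package

variable (K : Type) [Field K] [CharZero K] (M0 q : ℕ) [NeZero M0] [NeZero q]
  (O : Subring K) [IsDiscreteValuationRing ↥O] [IsFractionRing ↥O K]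

variable {R : Type*} [CommRing R] [IsDomain R] [IsNoetherianRing R] [Algebra ↥O R]
  [Algebra R (FF K (M0 * q * q))] [IsFractionRing R (FF K (M0 * q * q))]
  [IsScalarTower ↥O R (FF K (M0 * q * q))]
variable {ι : Type*} [Fintype ι] {V : ι → ValuationSubring (FF K (M0 * q * q))}
  {hV : ∀ i (r : R), algebraMap R (FF K (M0 * q * q)) r ∈ V i}

/-- **(R3-G), final form on a `V11`-package.** -/
theorem ufd_of_wilson {π : ↥O} {E : ℕ} (H : ChartHyp V hV π E)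
    (hπ : algebraMap R (FF K (M0 * q * q)) (algebraMap ↥O R π) = ((q : ℕ) : FF K (M0 * q * q)))
    (i₀ : ι) (V11 : ValuationSubring (FF K (M0 * q * q))) (hV11 : V i₀ = V11)
    {κ' : Type*} [Field κ'] (ρ : ResidueField ↥O →+* κ') (ev : ↥V11 →+* LaurentSeries κ')
    (hev0 : ∀ y : ↥V11, ev y = 0 ↔ (y : FF K (M0 * q * q)) ∈ V11.nonunits)
    (hevα : ∀ (g : FF K M0) (hg : g ∈ gaussSubalgebra K M0 O),
      ∃ hm : alphaF K (M0 * q) q (alphaF K M0 q g) ∈ V11,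
        ev ⟨_, hm⟩ = coeffMap ρ (theta K M0 O ⟨g, hg⟩))
    (hwil : ∀ (g : FF K M0) (hg : g ∈ gaussSubalgebra K M0 O),
      ∃ hw : (betaF K (M0 * q) q (betaF K M0 q g) - alphaF K (M0 * q) q (alphaF K M0 q g)) ^ (q - 1) *
          ((q : ℕ) : FF K (M0 * q * q))⁻¹ ∈ V11,
        ev ⟨_, hw⟩ = -(thetaL (coeffMap ρ (theta K M0 O ⟨g, hg⟩))) ^ (q - 1))
    (τ₀ : FF K (M0 * q * q)) (hτ₀ : ∀ y ∈ V11.nonunits, y * τ₀⁻¹ ∈ V11)
    (hram : ∃ w : FF K (M0 * q * q), w ∈ V11 ∧ w⁻¹ ∈ V11 ∧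
      ((q : ℕ) : FF K (M0 * q * q)) = w * τ₀ ^ (q - 1))
    [hq : Fact q.Prime] [CharP (ResidueField ↥O) q] (hq2 : q ≠ 2) (h4 : 2 * 2 ∣ M0)
    (h2 : IsUnit (2 : ↥O))
    (hRa : ∀ x : ↥(Rfin K M0 O), ∃ r : R, algebraMap R (FF K (M0 * q * q)) r =
      alphaF K (M0 * q) q (alphaF K M0 q (x : FF K M0)))
    (hRb : ∀ x : ↥(Rfin K M0 O), ∃ r : R, algebraMap R (FF K (M0 * q * q)) r =
      betaF K (M0 * q) q (betaF K M0 q (x : FF K M0)))
    (𝔫 : Ideal R) [𝔫.IsPrime] (hi₀ : centre (V i₀) (hV i₀) ≤ 𝔫)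
    (honly : ∀ j, j ≠ i₀ → ¬ centre (V j) (hV j) ≤ 𝔫)
    (hPID : IsPrincipalIdealRing (locAt (F := FF K (M0 * q * q)) 𝔫 ⧸
      centre (V i₀) (fun b => locAt_le 𝔫 (V i₀) (hV i₀) hi₀ b))) :
    UniqueFactorizationMonoid (locAt (F := FF K (M0 * q * q)) 𝔫) ∧
      ∃ τ : locAt (F := FF K (M0 * q * q)) 𝔫,
        (τ : FF K (M0 * q * q)) =
          betaF K (M0 * q) q (betaF K M0 q (tK K M0 h4)) -
            alphaF K (M0 * q) q (alphaF K M0 q (tK K M0 h4)) ∧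
        centre (V i₀) (fun b => locAt_le 𝔫 (V i₀) (hV i₀) hi₀ b) = Ideal.span {τ} ∧ Prime τ := by
  subst hV11
  have hq1 : 0 < q - 1 := Nat.sub_pos_of_lt hq.out.one_lt
  -- the Hauptmodul and the global inverse
  obtain ⟨w', hw'⟩ := exists_winv K M0 O q hq2 h4 h2
  have hle : ∀ x : ↥(Rfin K M0 O), (x : FF K M0) ∈ gaussSubalgebra K M0 O := fun x =>
    chartAlg_le_gaussSubalgebra K M0 O (sFin_le_gauss K M0 O) x.2
  have htg : tK K M0 h4 ∈ gaussSubalgebra K M0 O := hle (tFin K M0 O h4)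
  -- the two elements of the chart
  obtain ⟨ra, hra⟩ := hRa (tFin K M0 O h4)
  obtain ⟨rb, hrb⟩ := hRb (tFin K M0 O h4)
  obtain ⟨rw, hrw⟩ := hRa w'
  have hτmem : betaF K (M0 * q) q (betaF K M0 q (tK K M0 h4)) -
      alphaF K (M0 * q) q (alphaF K M0 q (tK K M0 h4)) ∈ locAt (F := FF K (M0 * q * q)) 𝔫 := by
    have : algebraMap R (FF K (M0 * q * q)) (rb - ra) ∈ locAt (F := FF K (M0 * q * q)) 𝔫 :=
      Subalgebra.algebraMap_mem _ _
    rwa [map_sub, hra, hrb] at this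
  have hw'mem : alphaF K (M0 * q) q (alphaF K M0 q (w' : FF K M0)) ∈
      locAt (F := FF K (M0 * q * q)) 𝔫 := by
    have : algebraMap R (FF K (M0 * q * q)) rw ∈ locAt (F := FF K (M0 * q * q)) 𝔫 :=
      Subalgebra.algebraMap_mem _ _
    rwa [hrw] at this
  -- the Wilson residue and the inverse
  obtain ⟨hw, hevw⟩ := hwil (tK K M0 h4) htg
  obtain ⟨hm, hevm⟩ := hevα (w' : FF K M0) (hle w')
  have hinv : -(thetaL (coeffMap ρ (theta K M0 O ⟨tK K M0 h4, htg⟩))) ^ (q - 1) *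
      coeffMap ρ (theta K M0 O ⟨(w' : FF K M0), hle w'⟩) = 1 := by
    have h1 := congrArg (coeffMap ρ) hw'
    rw [map_mul, map_neg, map_pow, map_one, coeffMap_thetaL] at h1
    exact h1
  have hram' : ∃ w : FF K (M0 * q * q), w ∈ V i₀ ∧ w⁻¹ ∈ V i₀ ∧
      algebraMap R (FF K (M0 * q * q)) (algebraMap ↥O R π) = w * τ₀ ^ (q - 1) := by
    rw [hπ]; exact hram
  have hw2 : (betaF K (M0 * q) q (betaF K M0 q (tK K M0 h4)) -
      alphaF K (M0 * q) q (alphaF K M0 q (tK K M0 h4))) ^ (q - 1) *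
      (algebraMap R (FF K (M0 * q * q)) (algebraMap ↥O R π))⁻¹ ∈ V i₀ := by
    rw [hπ]; exact hw
  have hevw2 : ev ⟨_, hw2⟩ =
      -(thetaL (coeffMap ρ (theta K M0 O ⟨tK K M0 h4, htg⟩))) ^ (q - 1) := by
    have e : (⟨_, hw2⟩ : ↥(V i₀)) = ⟨_, hw⟩ := Subtype.ext (by dsimp only; rw [hπ])
    rw [e]; exact hevw
  have hevw' : -(thetaL (coeffMap ρ (theta K M0 O ⟨tK K M0 h4, htg⟩))) ^ (q - 1) *
      ev ⟨_, hm⟩ = 1 := by
    rw [hevm]; exact hinv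
  have hres := ufd_of_place H i₀ ev hev0 hq1 τ₀ hτ₀ hram' 𝔫 hi₀ honly
    ⟨_, hτmem⟩ ⟨_, hw'mem⟩ (thetaL (coeffMap ρ (theta K M0 O ⟨tK K M0 h4, htg⟩)))
    hw2 hevw2 hm hevw' hPID
  exact ⟨hres.1, ⟨_, hτmem⟩, rfl, hres.2.1, hres.2.2⟩

/-- **(R3-G), `κ`-valued form** (`ρ = id`: the shape of the `V/ThreeVal` fields `ev11`, `ev11_alpha`,
`wilson`, `unif_V11`, `ram_V11`). -/
theorem ufd_of_wilson_id {π : ↥O} {E : ℕ} (H : ChartHyp V hV π E)
    (hπ : algebraMap R (FF K (M0 * q * q)) (algebraMap ↥O R π) = ((q : ℕ) : FF K (M0 * q * q)))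
    (i₀ : ι) (V11 : ValuationSubring (FF K (M0 * q * q))) (hV11 : V i₀ = V11)
    (ev : ↥V11 →+* LaurentSeries (ResidueField ↥O))
    (hev0 : ∀ y : ↥V11, ev y = 0 ↔ (y : FF K (M0 * q * q)) ∈ V11.nonunits)
    (hevα : ∀ (g : FF K M0) (hg : g ∈ gaussSubalgebra K M0 O),
      ∃ hm : alphaF K (M0 * q) q (alphaF K M0 q g) ∈ V11,
        ev ⟨_, hm⟩ = theta K M0 O ⟨g, hg⟩)
    (hwil : ∀ (g : FF K M0) (hg : g ∈ gaussSubalgebra K M0 O),
      ∃ hw : (betaF K (M0 * q) q (betaF K M0 q g) - alphaF K (M0 * q) q (alphaF K M0 q g)) ^ (q - 1) *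
          ((q : ℕ) : FF K (M0 * q * q))⁻¹ ∈ V11,
        ev ⟨_, hw⟩ = -(thetaL (theta K M0 O ⟨g, hg⟩)) ^ (q - 1))
    (τ₀ : FF K (M0 * q * q)) (hτ₀ : ∀ y ∈ V11.nonunits, y * τ₀⁻¹ ∈ V11)
    (hram : ∃ w : FF K (M0 * q * q), w ∈ V11 ∧ w⁻¹ ∈ V11 ∧
      ((q : ℕ) : FF K (M0 * q * q)) = w * τ₀ ^ (q - 1))
    [hq : Fact q.Prime] [CharP (ResidueField ↥O) q] (hq2 : q ≠ 2) (h4 : 2 * 2 ∣ M0)
    (h2 : IsUnit (2 : ↥O))
    (hRa : ∀ x : ↥(Rfin K M0 O), ∃ r : R, algebraMap R (FF K (M0 * q * q)) r =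
      alphaF K (M0 * q) q (alphaF K M0 q (x : FF K M0)))
    (hRb : ∀ x : ↥(Rfin K M0 O), ∃ r : R, algebraMap R (FF K (M0 * q * q)) r =
      betaF K (M0 * q) q (betaF K M0 q (x : FF K M0)))
    (𝔫 : Ideal R) [𝔫.IsPrime] (hi₀ : centre (V i₀) (hV i₀) ≤ 𝔫)
    (honly : ∀ j, j ≠ i₀ → ¬ centre (V j) (hV j) ≤ 𝔫)
    (hPID : IsPrincipalIdealRing (locAt (F := FF K (M0 * q * q)) 𝔫 ⧸
      centre (V i₀) (fun b => locAt_le 𝔫 (V i₀) (hV i₀) hi₀ b))) :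
    UniqueFactorizationMonoid (locAt (F := FF K (M0 * q * q)) 𝔫) ∧
      ∃ τ : locAt (F := FF K (M0 * q * q)) 𝔫,
        (τ : FF K (M0 * q * q)) =
          betaF K (M0 * q) q (betaF K M0 q (tK K M0 h4)) -
            alphaF K (M0 * q) q (alphaF K M0 q (tK K M0 h4)) ∧
        centre (V i₀) (fun b => locAt_le 𝔫 (V i₀) (hV i₀) hi₀ b) = Ideal.span {τ} ∧ Prime τ :=
  ufd_of_wilson K M0 q O H hπ i₀ V11 hV11 (RingHom.id _) ev hev0
    (fun g hg => by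
      obtain ⟨hm, h1⟩ := hevα g hg
      exact ⟨hm, by rw [coeffMap_id]; exact h1⟩)
    (fun g hg => by
      obtain ⟨hw, h1⟩ := hwil g hg
      exact ⟨hw, by rw [coeffMap_id]; exact h1⟩)
    τ₀ hτ₀ hram hq2 h4 h2 hRa hRb 𝔫 hi₀ honly hPID

end Package

/-! ### The instance `V11 = midVS h` (helper15's middle valuation) -/

section Mid

open Fermat.Agent.S36.V.MidVal Fermat.Agent.S36.R3.WilsonMid

variable {K : Type} [Field K] [CharZero K] {M0 q : ℕ} [NeZero M0] [NeZero q]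
  {O : Subring K} [IsDiscreteValuationRing ↥O] [IsFractionRing ↥O K]
  {K' : Type} [Field K'] [Algebra K K']
  {O' : Subring K'} [IsDiscreteValuationRing ↥O'] [IsFractionRing ↥O' K']
  {s : FF K (M0 * q * q) →+* LaurentSeries K'} {u : K'ˣ}

variable {R : Type*} [CommRing R] [IsDomain R] [IsNoetherianRing R] [Algebra ↥O R]
  [Algebra R (FF K (M0 * q * q))] [IsFractionRing R (FF K (M0 * q * q))]
  [IsScalarTower ↥O R (FF K (M0 * q * q))]
variable {ι : Type*} [Fintype ι] {V : ι → ValuationSubring (FF K (M0 * q * q))}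
  {hV : ∀ i (r : R), algebraMap R (FF K (M0 * q * q)) r ∈ V i}

/-- `ev11 ∘ α₂ ∘ α₁ = ρ ∘ θ₀` on `V11 = midVS h`. -/
theorem midEv_alphaF_alphaF (h : MidEmb K M0 q O K' O' s u) (g : FF K M0)
    (hg : g ∈ gaussSubalgebra K M0 O) :
    ∃ hm : alphaF K (M0 * q) q (alphaF K M0 q g) ∈ midVS h,
      midEv h ⟨_, hm⟩ = coeffMap (resMap O O' h.dom) (theta K M0 O ⟨g, hg⟩) := by
  refine ⟨alphaF_mem_midVS h (alphaF_mem K O M0 q hg), ?_⟩
  rw [midEv_alphaF h (alphaF_mem K O M0 q hg), theta_alphaF K O M0 q ⟨g, hg⟩]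

/-- **(R3-G) on `V11 = midVS h`.**  The only input about `V11` which is not on `V/MidVal` is `hunif`:
`Π_j` is a uniformiser of `V11` (`e(V11 | V10) = q − 1` exactly; `ThreeVal.unif_V11`). -/
theorem ufd_of_midEmb (h : MidEmb K M0 q O K' O' s u) (hu : IsPrimitiveRoot (u : K') q)
    {π : ↥O} {E : ℕ} (H : ChartHyp V hV π E)
    (hπ : algebraMap R (FF K (M0 * q * q)) (algebraMap ↥O R π) = ((q : ℕ) : FF K (M0 * q * q)))
    (i₀ : ι) (hV11 : V i₀ = midVS h)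
    (hunif : ∀ y ∈ (midVS h).nonunits, y * (PiElt K M0 q)⁻¹ ∈ midVS h)
    [CharP (ResidueField ↥O) q] (hq2 : q ≠ 2) (h4 : 2 * 2 ∣ M0) (h2 : IsUnit (2 : ↥O))
    (hRa : ∀ x : ↥(Rfin K M0 O), ∃ r : R, algebraMap R (FF K (M0 * q * q)) r =
      alphaF K (M0 * q) q (alphaF K M0 q (x : FF K M0)))
    (hRb : ∀ x : ↥(Rfin K M0 O), ∃ r : R, algebraMap R (FF K (M0 * q * q)) r =
      betaF K (M0 * q) q (betaF K M0 q (x : FF K M0)))
    (𝔫 : Ideal R) [𝔫.IsPrime] (hi₀ : centre (V i₀) (hV i₀) ≤ 𝔫)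
    (honly : ∀ j, j ≠ i₀ → ¬ centre (V j) (hV j) ≤ 𝔫)
    (hPID : IsPrincipalIdealRing (locAt (F := FF K (M0 * q * q)) 𝔫 ⧸
      centre (V i₀) (fun b => locAt_le 𝔫 (V i₀) (hV i₀) hi₀ b))) :
    UniqueFactorizationMonoid (locAt (F := FF K (M0 * q * q)) 𝔫) ∧
      ∃ τ : locAt (F := FF K (M0 * q * q)) 𝔫,
        (τ : FF K (M0 * q * q)) =
          betaF K (M0 * q) q (betaF K M0 q (tK K M0 h4)) -
            alphaF K (M0 * q) q (alphaF K M0 q (tK K M0 h4)) ∧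
        centre (V i₀) (fun b => locAt_le 𝔫 (V i₀) (hV i₀) hi₀ b) = Ideal.span {τ} ∧ Prime τ := by
  haveI : Fact q.Prime := ⟨h.prime⟩
  exact ufd_of_wilson K M0 q O H hπ i₀ (midVS h) hV11 (resMap O O' h.dom) (midEv h)
    (midEv_eq_zero_iff h) (midEv_alphaF_alphaF h) (wilson_mid h hu) (PiElt K M0 q) hunif
    ⟨wilsonElt K M0 q, wilsonElt_mem_midVS h, wilsonElt_inv_mem_midVS h,
      natCast_eq_wilsonElt_mul h⟩
    hq2 h4 h2 hRa hRb 𝔫 hi₀ honly hPID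

end Mid

/-! ### The chart `Rfin K (M₀ q²) O` contains `α₂α₁ Rfin(M₀)` and `β₂β₁ Rfin(M₀)` -/

section Chart

variable (K : Type) [Field K] (M0 q : ℕ) [NeZero M0] [NeZero q] (O : Subring K)

theorem hRa_Rfin (x : ↥(Rfin K M0 O)) :
    ∃ r : ↥(Rfin K (M0 * q * q) O), algebraMap ↥(Rfin K (M0 * q * q) O) (FF K (M0 * q * q)) r =
      alphaF K (M0 * q) q (alphaF K M0 q (x : FF K M0)) :=
  ⟨upA K M0 q O x, rfl⟩

theorem hRb_Rfin (x : ↥(Rfin K M0 O)) :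
    ∃ r : ↥(Rfin K (M0 * q * q) O), algebraMap ↥(Rfin K (M0 * q * q) O) (FF K (M0 * q * q)) r =
      betaF K (M0 * q) q (betaF K M0 q (x : FF K M0)) :=
  ⟨upB K M0 q O x, rfl⟩

end Chart

/-! ### The concrete chart `Rfin K (M₀ q²) O` -/

section Concrete

open Fermat.Agent.S36.V.MidVal Fermat.Agent.S36.R3.WilsonMid

variable {K : Type} [Field K] [CharZero K] {M0 q : ℕ} [NeZero M0] [NeZero q]
  {O : Subring K} [IsDiscreteValuationRing ↥O] [IsFractionRing ↥O K]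
  {K' : Type} [Field K'] [Algebra K K']
  {O' : Subring K'} [IsDiscreteValuationRing ↥O'] [IsFractionRing ↥O' K']
  {s : FF K (M0 * q * q) →+* LaurentSeries K'} {u : K'ˣ}
  [IsNoetherianRing ↥(Rfin K (M0 * q * q) O)]
  [IsFractionRing ↥(Rfin K (M0 * q * q) O) (FF K (M0 * q * q))]
variable {ι : Type*} [Fintype ι] {V : ι → ValuationSubring (FF K (M0 * q * q))}
  {hV : ∀ i (r : ↥(Rfin K (M0 * q * q) O)),
    algebraMap ↥(Rfin K (M0 * q * q) O) (FF K (M0 * q * q)) r ∈ V i}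

set_option maxHeartbeats 400000 in
/-- **(R3-G) on the finite chart `Rfin K (M₀ q²) O`, `V i₀ = V11 = midVS h`**: at every prime `𝔫` on
`C11` only, `(R-b)` ⇒ `R_𝔫` factorial.  (Elaboration of statements about `locAt`/`centre` on the
concrete chart is heavy: ≈ 120k heartbeats for this one.) -/
theorem ufd_Rfin_of_midEmb (h : MidEmb K M0 q O K' O' s u) (hu : IsPrimitiveRoot (u : K') q)
    {π : ↥O} {E : ℕ} (H : ChartHyp V hV π E)
    (hπ : algebraMap ↥(Rfin K (M0 * q * q) O) (FF K (M0 * q * q))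
      (algebraMap ↥O ↥(Rfin K (M0 * q * q) O) π) = ((q : ℕ) : FF K (M0 * q * q)))
    (i₀ : ι) (hV11 : V i₀ = midVS h)
    (hunif : ∀ y ∈ (midVS h).nonunits, y * (PiElt K M0 q)⁻¹ ∈ midVS h)
    [CharP (ResidueField ↥O) q] (hq2 : q ≠ 2) (h4 : 2 * 2 ∣ M0) (h2 : IsUnit (2 : ↥O))
    (𝔫 : Ideal ↥(Rfin K (M0 * q * q) O)) [𝔫.IsPrime] (hi₀ : centre (V i₀) (hV i₀) ≤ 𝔫)
    (honly : ∀ j, j ≠ i₀ → ¬ centre (V j) (hV j) ≤ 𝔫)
    (hPID : IsPrincipalIdealRing (locAt (F := FF K (M0 * q * q)) 𝔫 ⧸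
      centre (V i₀) (fun b => locAt_le 𝔫 (V i₀) (hV i₀) hi₀ b))) :
    UniqueFactorizationMonoid (locAt (F := FF K (M0 * q * q)) 𝔫) :=
  (ufd_of_midEmb h hu H hπ i₀ hV11 hunif hq2 h4 h2 (hRa_Rfin K M0 q O) (hRb_Rfin K M0 q O)
    𝔫 hi₀ honly hPID).1

end Concrete

end Fermat.Agent.S36.R3.GeneratorFinal
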