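/-
S36, block [R3], leaf (R3-G), file 6 (helper3): **(R3-G) closed on `T : ThreeVal K M₀ q O sv`** (helper24's
frozen structure) **and on `h : MidEmb …` with helper28's counting** — no hypothesis left about `V11`.

For every odd prime `q`, at every prime `𝔫` of a chart `R` of level `M₀ q²`
(`R ⊇ α₂α₁ Rfin(M₀), β₂β₁ Rfin(M₀)`) lying on `C11` only, with `(R-b)` (block [BRANCH]):
`R_𝔫` is factorial and `Π_t` is a prime element generating the centre of `V11`.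

* `ufd_of_threeVal`, `onePoint_of_threeVal` (`= Descent/LocalRootsBoth.OnePoint`, the disjunct consumed
  by `localRoots_both_of_goodNorm`);
* `ufd_of_midEmb_count`, `onePoint_of_midEmb` : the same for `V11 = midVS h`, `unif` from
  `V/CountMid.unif_mid`.
-/
import Mathlib
import Fermat.Agent.S36.R3.GeneratorFinal
import Fermat.Agent.S36.V.ThreeVal
import Fermat.Agent.S36.V.CountMid
import Fermat.Agent.S36.Descent.LocalRootsBoth

set_option autoImplicit false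
set_option linter.unusedSectionVars false
set_option linter.style.haveILetI false

namespace Fermat.Agent.S36.R3.GeneratorThreeVal

open ModularCurve IsLocalRing
open Fermat.Agent.S28.Gauss Fermat.Agent.N4.Setting Fermat.Agent.N4.FibreEmbedding
open Fermat.Agent.N4F.E.DegreeLevelRaise Fermat.Agent.N4F.E.GaussDVR
open Fermat.Agent.N4.Chart Fermat.Agent.P3G.RbarFin Fermat.Agent.P3G.SecondValuation
open Fermat.Agent.S36.R3.PiSeries
open Fermat.Agent.S36.Local.LocalRoot Fermat.Agent.S36.Local.Spread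
  Fermat.Agent.S36.Local.ChartSpread Fermat.Agent.S36.D.ChartRoots
  Fermat.Agent.N4.Cover.Globalize Fermat.Agent.P3G.Krull
  Fermat.Agent.S36.R3.Generator Fermat.Agent.S36.R3.GeneratorPid
  Fermat.Agent.S36.R3.GeneratorInst Fermat.Agent.S36.R3.GeneratorFinal
open Fermat.Agent.S36.Haupt.FourRfin
open Fermat.Agent.S36.V.MidVal Fermat.Agent.S36.V.ThreeVal
open Fermat.Agent.S36.Descent.LocalRootsBoth

/-! ### On a `ThreeVal` -/

section Three

variable {K : Type} [Field K] [CharZero K] {M0 q : ℕ} [NeZero M0] [NeZero q] [hq : Fact q.Prime]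
  {O : Subring K} [IsDiscreteValuationRing ↥O] [IsFractionRing ↥O K]
  {sv : SecondVal K M0 q O}

variable {R : Type*} [CommRing R] [IsDomain R] [IsNoetherianRing R] [Algebra ↥O R]
  [Algebra R (FF K (M0 * q * q))] [IsFractionRing R (FF K (M0 * q * q))]
  [IsScalarTower ↥O R (FF K (M0 * q * q))]
variable {ι : Type*} [Fintype ι] {V : ι → ValuationSubring (FF K (M0 * q * q))}
  {hV : ∀ i (r : R), algebraMap R (FF K (M0 * q * q)) r ∈ V i}

/-- `α₂ α₁ G₀ ⊆ V11`. -/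
theorem alphaF_alphaF_mem_V11 (T : ThreeVal K M0 q O sv) {g : FF K M0}
    (hg : g ∈ gaussSubalgebra K M0 O) :
    alphaF K (M0 * q) q (alphaF K M0 q g) ∈ T.V11 := by
  have h1 : alphaF K M0 q g ∈ gaussVS K (M0 * q) O :=
    (mem_gaussVS_iff K (M0 * q) O).mpr (alphaF_mem K O M0 q hg)
  rw [← T.comap_alpha_V11] at h1
  exact ValuationSubring.mem_comap.mp h1

/-- `ev11 ∘ α₂ ∘ α₁ = θ₀`. -/
theorem ev11_alphaF_alphaF (T : ThreeVal K M0 q O sv) (g : FF K M0)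
    (hg : g ∈ gaussSubalgebra K M0 O) :
    ∃ hm : alphaF K (M0 * q) q (alphaF K M0 q g) ∈ T.V11,
      T.ev11 ⟨_, hm⟩ = theta K M0 O ⟨g, hg⟩ := by
  refine ⟨alphaF_alphaF_mem_V11 T hg, ?_⟩
  rw [T.ev11_alpha (alphaF K M0 q g) (alphaF_mem K O M0 q hg) (alphaF_alphaF_mem_V11 T hg),
    theta_alphaF K O M0 q ⟨g, hg⟩]

/-- **(R3-G) on a `ThreeVal`.** -/
theorem ufd_of_threeVal (T : ThreeVal K M0 q O sv) {π : ↥O} {E : ℕ} (H : ChartHyp V hV π E)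
    (hπ : algebraMap R (FF K (M0 * q * q)) (algebraMap ↥O R π) = ((q : ℕ) : FF K (M0 * q * q)))
    (i₀ : ι) (hV11 : V i₀ = T.V11)
    [CharP (ResidueField ↥O) q] (hq2 : q ≠ 2) (h4 : 2 * 2 ∣ M0) (h2 : IsUnit (2 : ↥O))
    (hRa : ∀ x : ↥(Rfin K M0 O), ∃ r : R, algebraMap R (FF K (M0 * q * q)) r =
      alphaF K (M0 * q) q (alphaF K M0 q (x : FF K M0)))
    (hRb : ∀ x : ↥(Rfin K M0 O), ∃ r : R, algebraMap R (FF K (M0 * q * q)) r =
      betaF K (M0 * q) q (betaF K M0 q (x : FF K M0)))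
    (𝔫 : Ideal R) [𝔫.IsPrime] (hi₀ : centre (V i₀) (hV i₀) ≤ 𝔫)
    (honly : ∀ j, j ≠ i₀ → ¬ centre (V j) (hV j) ≤ 𝔫)
    (hPID : IsPrincipalIdealRing (locAt (F := FF K (M0 * q * q)) 𝔫 ⧸
      centre (V i₀) (fun b => locAt_le 𝔫 (V i₀) (hV i₀) hi₀ b))) :
    UniqueFactorizationMonoid (locAt (F := FF K (M0 * q * q)) 𝔫) ∧
      ∃ τ : locAt (F := FF K (M0 * q * q)) 𝔫,
        (τ : FF K (M0 * q * q)) =
          betaF K (M0 * q) q (betaF K M0 q (tK K M0 h4)) -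
            alphaF K (M0 * q) q (alphaF K M0 q (tK K M0 h4)) ∧
        centre (V i₀) (fun b => locAt_le 𝔫 (V i₀) (hV i₀) hi₀ b) = Ideal.span {τ} ∧ Prime τ :=
  ufd_of_wilson_id K M0 q O H hπ i₀ T.V11 hV11 T.ev11 T.ev11_eq_zero_iff
    (ev11_alphaF_alphaF T) T.wilson (PiElt K M0 q) T.unif_V11 T.ram_V11
    hq2 h4 h2 hRa hRb 𝔫 hi₀ honly hPID

/-- **(I-R) at a point on `C11` only**, in the bundled form `LocalRootsBoth.OnePoint`. -/
theorem onePoint_of_threeVal (T : ThreeVal K M0 q O sv) {π : ↥O} {E : ℕ} (H : ChartHyp V hV π E)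
    (hπ : algebraMap R (FF K (M0 * q * q)) (algebraMap ↥O R π) = ((q : ℕ) : FF K (M0 * q * q)))
    (i₀ : ι) (hV11 : V i₀ = T.V11)
    [CharP (ResidueField ↥O) q] (hq2 : q ≠ 2) (h4 : 2 * 2 ∣ M0) (h2 : IsUnit (2 : ↥O))
    (hRa : ∀ x : ↥(Rfin K M0 O), ∃ r : R, algebraMap R (FF K (M0 * q * q)) r =
      alphaF K (M0 * q) q (alphaF K M0 q (x : FF K M0)))
    (hRb : ∀ x : ↥(Rfin K M0 O), ∃ r : R, algebraMap R (FF K (M0 * q * q)) r =
      betaF K (M0 * q) q (betaF K M0 q (x : FF K M0)))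
    (𝔫 : Ideal R) [𝔫.IsPrime] (hi₀ : centre (V i₀) (hV i₀) ≤ 𝔫)
    (honly : ∀ j, j ≠ i₀ → ¬ centre (V j) (hV j) ≤ 𝔫)
    (hPID : IsPrincipalIdealRing (locAt (F := FF K (M0 * q * q)) 𝔫 ⧸
      centre (V i₀) (fun b => locAt_le 𝔫 (V i₀) (hV i₀) hi₀ b))) :
    OnePoint V hV 𝔫 :=
  ⟨i₀, hi₀, honly,
    (ufd_of_threeVal T H hπ i₀ hV11 hq2 h4 h2 hRa hRb 𝔫 hi₀ honly hPID).1, hPID⟩

end Three

/-! ### On `V11 = midVS h`, with the counting -/

section Mid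

variable {K : Type} [Field K] [CharZero K] {M0 q : ℕ} [NeZero M0] [NeZero q]
  {O : Subring K} [IsDiscreteValuationRing ↥O] [IsFractionRing ↥O K]
  {K' : Type} [Field K'] [Algebra K K']
  {O' : Subring K'} [IsDiscreteValuationRing ↥O'] [IsFractionRing ↥O' K']
  {s : FF K (M0 * q * q) →+* LaurentSeries K'} {u : K'ˣ}

variable {R : Type*} [CommRing R] [IsDomain R] [IsNoetherianRing R] [Algebra ↥O R]
  [Algebra R (FF K (M0 * q * q))] [IsFractionRing R (FF K (M0 * q * q))]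
  [IsScalarTower ↥O R (FF K (M0 * q * q))]
variable {ι : Type*} [Fintype ι] {V : ι → ValuationSubring (FF K (M0 * q * q))}
  {hV : ∀ i (r : R), algebraMap R (FF K (M0 * q * q)) r ∈ V i}

/-- **(R3-G) on `V11 = midVS h`, unconditional** (`O` unramified: `q` irreducible in `O`). -/
theorem ufd_of_midEmb_count (ι₀ : K →+* ℂ) (h : MidEmb K M0 q O K' O' s u)
    (hirr : Irreducible ((q : ℕ) : ↥O)) (hu : IsPrimitiveRoot (u : K') q)
    {π : ↥O} {E : ℕ} (H : ChartHyp V hV π E)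
    (hπ : algebraMap R (FF K (M0 * q * q)) (algebraMap ↥O R π) = ((q : ℕ) : FF K (M0 * q * q)))
    (i₀ : ι) (hV11 : V i₀ = midVS h)
    [CharP (ResidueField ↥O) q] (hq2 : q ≠ 2) (h4 : 2 * 2 ∣ M0) (h2 : IsUnit (2 : ↥O))
    (hRa : ∀ x : ↥(Rfin K M0 O), ∃ r : R, algebraMap R (FF K (M0 * q * q)) r =
      alphaF K (M0 * q) q (alphaF K M0 q (x : FF K M0)))
    (hRb : ∀ x : ↥(Rfin K M0 O), ∃ r : R, algebraMap R (FF K (M0 * q * q)) r =
      betaF K (M0 * q) q (betaF K M0 q (x : FF K M0)))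
    (𝔫 : Ideal R) [𝔫.IsPrime] (hi₀ : centre (V i₀) (hV i₀) ≤ 𝔫)
    (honly : ∀ j, j ≠ i₀ → ¬ centre (V j) (hV j) ≤ 𝔫)
    (hPID : IsPrincipalIdealRing (locAt (F := FF K (M0 * q * q)) 𝔫 ⧸
      centre (V i₀) (fun b => locAt_le 𝔫 (V i₀) (hV i₀) hi₀ b))) :
    UniqueFactorizationMonoid (locAt (F := FF K (M0 * q * q)) 𝔫) ∧
      ∃ τ : locAt (F := FF K (M0 * q * q)) 𝔫,
        (τ : FF K (M0 * q * q)) =
          betaF K (M0 * q) q (betaF K M0 q (tK K M0 h4)) -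
            alphaF K (M0 * q) q (alphaF K M0 q (tK K M0 h4)) ∧
        centre (V i₀) (fun b => locAt_le 𝔫 (V i₀) (hV i₀) hi₀ b) = Ideal.span {τ} ∧ Prime τ :=
  ufd_of_midEmb h hu H hπ i₀ hV11 (Fermat.Agent.S36.V.CountMid.unif_mid ι₀ h hirr)
    hq2 h4 h2 hRa hRb 𝔫 hi₀ honly hPID

/-- The bundled form on `V11 = midVS h`. -/
theorem onePoint_of_midEmb (ι₀ : K →+* ℂ) (h : MidEmb K M0 q O K' O' s u)
    (hirr : Irreducible ((q : ℕ) : ↥O)) (hu : IsPrimitiveRoot (u : K') q)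
    {π : ↥O} {E : ℕ} (H : ChartHyp V hV π E)
    (hπ : algebraMap R (FF K (M0 * q * q)) (algebraMap ↥O R π) = ((q : ℕ) : FF K (M0 * q * q)))
    (i₀ : ι) (hV11 : V i₀ = midVS h)
    [CharP (ResidueField ↥O) q] (hq2 : q ≠ 2) (h4 : 2 * 2 ∣ M0) (h2 : IsUnit (2 : ↥O))
    (hRa : ∀ x : ↥(Rfin K M0 O), ∃ r : R, algebraMap R (FF K (M0 * q * q)) r =
      alphaF K (M0 * q) q (alphaF K M0 q (x : FF K M0)))
    (hRb : ∀ x : ↥(Rfin K M0 O), ∃ r : R, algebraMap R (FF K (M0 * q * q)) r =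
      betaF K (M0 * q) q (betaF K M0 q (x : FF K M0)))
    (𝔫 : Ideal R) [𝔫.IsPrime] (hi₀ : centre (V i₀) (hV i₀) ≤ 𝔫)
    (honly : ∀ j, j ≠ i₀ → ¬ centre (V j) (hV j) ≤ 𝔫)
    (hPID : IsPrincipalIdealRing (locAt (F := FF K (M0 * q * q)) 𝔫 ⧸
      centre (V i₀) (fun b => locAt_le 𝔫 (V i₀) (hV i₀) hi₀ b))) :
    OnePoint V hV 𝔫 :=
  ⟨i₀, hi₀, honly,
    (ufd_of_midEmb_count ι₀ h hirr hu H hπ i₀ hV11 hq2 h4 h2 hRa hRb 𝔫 hi₀ honly hPID).1, hPID⟩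

end Mid

end Fermat.Agent.S36.R3.GeneratorThreeVal
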