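/-
S36, block [R3], leaf (R3-G), file 7 (helper3): **the hypothesis `hUFD1` of
`Descent/SpinePoints.hpt_of_blocks` VERBATIM, for `q` odd, on the concrete finite chart**
`R = Rfin K (M₀ q²) O`, `V = fam3 K M₀ q O T.V11 T.V02` (`T : ThreeVal K M₀ q O sv`),
`P 𝔫 := algebraMap O R π ∈ 𝔫`:

  at every maximal `𝔫 ∋ π` lying on `C11` only, `(R-b)` ⇒ `R_𝔫` factorial.

`hUFD1_top` has a general uniformiser `π` with `π = q` in the function field; `hUFD1_top_natCast` is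
the case `π = (q : O)` used at an unramified level.
-/
import Mathlib
import Fermat.Agent.S36.R3.GeneratorThreeVal
import Fermat.Agent.S36.C.ThreeValCover

set_option autoImplicit false
set_option linter.unusedSectionVars false
set_option linter.style.haveILetI false

namespace Fermat.Agent.S36.R3.GeneratorTop

open ModularCurve IsLocalRing
open Fermat.Agent.S28.Gauss Fermat.Agent.N4.Setting Fermat.Agent.N4.FibreEmbedding
open Fermat.Agent.N4F.E.DegreeLevelRaise Fermat.Agent.N4F.E.GaussDVR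
open Fermat.Agent.N4.Chart Fermat.Agent.P3G.SecondValuation
open Fermat.Agent.S36.Local.LocalRoot Fermat.Agent.S36.Local.Spread
  Fermat.Agent.S36.Local.ChartSpread Fermat.Agent.S36.D.ChartRoots
  Fermat.Agent.N4.Cover.Globalize
  Fermat.Agent.S36.R3.GeneratorFinal Fermat.Agent.S36.R3.GeneratorThreeVal
open Fermat.Agent.S36.V.ThreeVal Fermat.Agent.S36.C.ThreeValCover

variable {K : Type} [Field K] [CharZero K] {M0 q : ℕ} [NeZero M0] [NeZero q] [hq : Fact q.Prime]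
  {O : Subring K} [IsDiscreteValuationRing ↥O] [IsFractionRing ↥O K]
  {sv : SecondVal K M0 q O}
  [IsNoetherianRing ↥(Rfin K (M0 * q * q) O)]
  [IsFractionRing ↥(Rfin K (M0 * q * q) O) (FF K (M0 * q * q))]

/-- **`hUFD1` on the finite chart of level `M₀ q²`, `q` odd.** -/
theorem hUFD1_top (T : ThreeVal K M0 q O sv)
    {hVp : ∀ i (r : ↥(Rfin K (M0 * q * q) O)),
      algebraMap ↥(Rfin K (M0 * q * q) O) (FF K (M0 * q * q)) r ∈ fam3 K M0 q O T.V11 T.V02 i}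
    {π : ↥O} {E : ℕ} (Hp : ChartHyp (fam3 K M0 q O T.V11 T.V02) hVp π E)
    (hπ : algebraMap ↥(Rfin K (M0 * q * q) O) (FF K (M0 * q * q))
      (algebraMap ↥O ↥(Rfin K (M0 * q * q) O) π) = ((q : ℕ) : FF K (M0 * q * q)))
    [CharP (ResidueField ↥O) q] (hq2 : q ≠ 2) (h4 : 2 * 2 ∣ M0) (h2 : IsUnit (2 : ↥O)) :
    ∀ (𝔫 : Ideal ↥(Rfin K (M0 * q * q) O)) [𝔫.IsPrime], 𝔫.IsMaximal →
      algebraMap ↥O ↥(Rfin K (M0 * q * q) O) π ∈ 𝔫 →
      ∀ hi : centre (fam3 K M0 q O T.V11 T.V02 1) (hVp 1) ≤ 𝔫,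
      (∀ j, j ≠ 1 → ¬ centre (fam3 K M0 q O T.V11 T.V02 j) (hVp j) ≤ 𝔫) →
      IsPrincipalIdealRing (locAt (F := FF K (M0 * q * q)) 𝔫 ⧸
        centre (B := locAt (F := FF K (M0 * q * q)) 𝔫) (fam3 K M0 q O T.V11 T.V02 1)
          (fun b => locAt_le 𝔫 (fam3 K M0 q O T.V11 T.V02 1) (hVp 1) hi b)) →
      UniqueFactorizationMonoid (locAt (F := FF K (M0 * q * q)) 𝔫) := by
  intro 𝔫 _ _ _ hi honly hPID
  exact (ufd_of_threeVal T Hp hπ 1 rfl hq2 h4 h2 (hRa_Rfin K M0 q O) (hRb_Rfin K M0 q O)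
    𝔫 hi honly hPID).1

/-- **`hUFD1` with `π = (q : O)`** (unramified level). -/
theorem hUFD1_top_natCast (T : ThreeVal K M0 q O sv)
    {hVp : ∀ i (r : ↥(Rfin K (M0 * q * q) O)),
      algebraMap ↥(Rfin K (M0 * q * q) O) (FF K (M0 * q * q)) r ∈ fam3 K M0 q O T.V11 T.V02 i}
    {E : ℕ} (Hp : ChartHyp (fam3 K M0 q O T.V11 T.V02) hVp ((q : ℕ) : ↥O) E)
    [CharP (ResidueField ↥O) q] (hq2 : q ≠ 2) (h4 : 2 * 2 ∣ M0) (h2 : IsUnit (2 : ↥O)) :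
    ∀ (𝔫 : Ideal ↥(Rfin K (M0 * q * q) O)) [𝔫.IsPrime], 𝔫.IsMaximal →
      algebraMap ↥O ↥(Rfin K (M0 * q * q) O) ((q : ℕ) : ↥O) ∈ 𝔫 →
      ∀ hi : centre (fam3 K M0 q O T.V11 T.V02 1) (hVp 1) ≤ 𝔫,
      (∀ j, j ≠ 1 → ¬ centre (fam3 K M0 q O T.V11 T.V02 j) (hVp j) ≤ 𝔫) →
      IsPrincipalIdealRing (locAt (F := FF K (M0 * q * q)) 𝔫 ⧸
        centre (B := locAt (F := FF K (M0 * q * q)) 𝔫) (fam3 K M0 q O T.V11 T.V02 1)
          (fun b => locAt_le 𝔫 (fam3 K M0 q O T.V11 T.V02 1) (hVp 1) hi b)) →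
      UniqueFactorizationMonoid (locAt (F := FF K (M0 * q * q)) 𝔫) :=
  hUFD1_top T Hp (by rw [map_natCast, map_natCast]) hq2 h4 h2

end Fermat.Agent.S36.R3.GeneratorTop
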