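import Mathlib
import Fermat.Agent.P3G.Krull
import Fermat.Agent.N4.Cover.LocalUFD

/-!
# S36, block [R3], leaf (R3-A): a vertical prime generated by a root of the uniformiser

`S` is a noetherian integrally closed domain (in the application the local ring `R_x` of the normal
model at a closed point `x` of the component `C11`), `ϖ ∈ S` (the image of `q`), `P` a prime of `S`
which is the **only** DVR-prime containing `ϖ` (the only component through `x`), `τ ∈ P` a generator
of `P S_P` (a uniformiser of the valuation ring `V11 = S_P`).  If `τ ^ e = ϖ * w` then: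

* `exists_pow_eq_mul` : `w := τ ^ e / ϖ` lies in `S` as soon as it lies in `S_P` (normality);
* `eq_span_singleton` : if `w` is a unit of `S` then `P = (τ)`;
* `prime_of_pow_eq_mul` : `τ` is then a prime element;
* `uniqueFactorizationMonoid_of_pow_eq_mul` : if moreover `S` is local and `S ⧸ (τ)` is a principal
  ideal ring (e.g. a discrete valuation ring), `S` is factorial.
-/

set_option autoImplicit false
set_option linter.unusedSectionVars false

namespace Fermat.Agent.S36.R3.PrincipalPrime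

open Fermat.Agent.N4.Cover.Globalize Fermat.Agent.P3G.Krull

variable {S F : Type*} [CommRing S] [IsDomain S] [IsNoetherianRing S] [IsIntegrallyClosed S]
  [Field F] [Algebra S F] [IsFractionRing S F]

/-- **Normality.** If `P` is the only DVR-prime containing `ϖ` and `τ ^ e / ϖ ∈ S_P`, then
`τ ^ e = ϖ * w` for some `w ∈ S`. -/
theorem exists_pow_eq_mul {ϖ τ : S} (hϖ : ϖ ≠ 0) (e : ℕ) (P : Ideal S) [P.IsPrime]
    (honly : ∀ (𝔭 : Ideal S) [𝔭.IsPrime], IsDiscreteValuationRing (locAt (F := F) 𝔭) →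
      ϖ ∈ 𝔭 → 𝔭 = P)
    (hP : algebraMap S F τ ^ e / algebraMap S F ϖ ∈ locAt (F := F) P) :
    ∃ w : S, τ ^ e = ϖ * w := by
  have hϖF : algebraMap S F ϖ ≠ 0 := algebraMap_ne_zero hϖ
  obtain ⟨w, hw⟩ := exists_algebraMap_eq_of_forall_mem_dvr
    (algebraMap S F τ ^ e / algebraMap S F ϖ) (fun 𝔭 _ hdvr => by
      by_cases h : ϖ ∈ 𝔭
      · have := honly 𝔭 hdvr h
        subst this
        exact hP
      · rw [← map_pow]
        exact div_mem_locAt 𝔭 (τ ^ e) h)
  refine ⟨w, IsFractionRing.injective S F ?_⟩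
  rw [map_mul, hw, map_pow, mul_div_cancel₀ _ hϖF]

/-- **The prime `P` is generated by `τ`.** -/
theorem eq_span_singleton {ϖ τ w : S} {e : ℕ} (he : 0 < e) (P : Ideal S) [hPp : P.IsPrime]
    (hτ : τ ∈ P) (hτ0 : τ ≠ 0)
    (honly : ∀ (𝔭 : Ideal S) [𝔭.IsPrime], IsDiscreteValuationRing (locAt (F := F) 𝔭) →
      ϖ ∈ 𝔭 → 𝔭 = P)
    (hunif : ∀ r ∈ P, algebraMap S F r / algebraMap S F τ ∈ locAt (F := F) P)
    (hw : τ ^ e = ϖ * w) (hwu : IsUnit w) : P = Ideal.span {τ} := by
  have hτF : algebraMap S F τ ≠ 0 := algebraMap_ne_zero hτ0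
  refine le_antisymm ?_ ((Ideal.span_singleton_le_iff_mem _).2 hτ)
  intro r hr
  obtain ⟨s, hs⟩ := exists_algebraMap_eq_of_forall_mem_dvr
    (algebraMap S F r / algebraMap S F τ) (fun 𝔭 h𝔭 hdvr => by
      by_cases h : τ ∈ 𝔭
      · have h1 : ϖ * w ∈ 𝔭 := by
          rw [← hw]
          exact Ideal.pow_mem_of_mem 𝔭 h e he
        have h2 : ϖ ∈ 𝔭 := by
          rcases h𝔭.mem_or_mem h1 with h2 | h2
          · exact h2
          · exact absurd (𝔭.eq_top_of_isUnit_mem h2 hwu) h𝔭.ne_top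
        have := honly 𝔭 hdvr h2
        subst this
        exact hunif r hr
      · exact div_mem_locAt 𝔭 r h)
  rw [Ideal.mem_span_singleton]
  refine ⟨s, IsFractionRing.injective S F ?_⟩
  rw [map_mul, hs, mul_div_cancel₀ _ hτF]

/-- `τ` is a prime element. -/
theorem prime_of_pow_eq_mul {ϖ τ w : S} {e : ℕ} (he : 0 < e) (P : Ideal S) [hPp : P.IsPrime]
    (hτ : τ ∈ P) (hτ0 : τ ≠ 0)
    (honly : ∀ (𝔭 : Ideal S) [𝔭.IsPrime], IsDiscreteValuationRing (locAt (F := F) 𝔭) →
      ϖ ∈ 𝔭 → 𝔭 = P)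
    (hunif : ∀ r ∈ P, algebraMap S F r / algebraMap S F τ ∈ locAt (F := F) P)
    (hw : τ ^ e = ϖ * w) (hwu : IsUnit w) : Prime τ := by
  have h := eq_span_singleton (F := F) he P hτ hτ0 honly hunif hw hwu
  rw [← Ideal.span_singleton_prime hτ0, ← h]
  exact hPp

/-- **Factoriality of the local ring at a point of `C11`.** -/
theorem uniqueFactorizationMonoid_of_pow_eq_mul [IsLocalRing S] {ϖ τ w : S} {e : ℕ} (he : 0 < e)
    (P : Ideal S) [hPp : P.IsPrime] (hτ : τ ∈ P) (hτ0 : τ ≠ 0)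
    (honly : ∀ (𝔭 : Ideal S) [𝔭.IsPrime], IsDiscreteValuationRing (locAt (F := F) 𝔭) →
      ϖ ∈ 𝔭 → 𝔭 = P)
    (hunif : ∀ r ∈ P, algebraMap S F r / algebraMap S F τ ∈ locAt (F := F) P)
    (hw : τ ^ e = ϖ * w) (hwu : IsUnit w)
    (hPID : IsPrincipalIdealRing (S ⧸ Ideal.span {τ})) : UniqueFactorizationMonoid S :=
  Fermat.Agent.N4.Cover.LocalUFD.uniqueFactorizationMonoid
    (prime_of_pow_eq_mul (F := F) he P hτ hτ0 honly hunif hw hwu) hPID

end Fermat.Agent.S36.R3.PrincipalPrime
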