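import Mathlib
import Fermat.Agent.S36.R3.ThetaPow
import Fermat.Agent.S36.R3.ResidueV11
import Fermat.Prelude.Def_ModularCurve_X0ModL

/-!
# S36 / block [R3]: `θ t̄` in characteristic `3` (level-4 Hauptmodul)

`thetaL_tau_pow` (`ThetaPow`) needs `q - 1 = 12 m + 4 δ + 6 ε`, i.e. `q ≥ 5`.  For `q = 3` (`θ j̄ = -j̄`):
if `j̄ τ⁴ (τ + 16) = (τ² + 256 τ + 4096)³` in `K((Q))`, `char K = 3`, then
`θ τ · (τ - 1) = -τ (τ + 16)`, hence `(θ τ)² (τ - 1)² = (τ (τ + 16))²`: the residue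
`w̄ = -(θ τ)²` of `w_t = Π_t² / 3` satisfies `w̄ · (τ - 1)² = -(τ (τ + 16))²`, a unit wherever `τ` and
`τ + 16` are units.

Also exported (any commutative ring): the chain rule `thetaL_tau_chain` for the modular equation.
-/

set_option autoImplicit false

namespace Fermat.Agent.S36.R3.ThetaTauThree

open ModularCurve
open Fermat.Agent.S16.BetaLemma Fermat.Agent.S36.R3.PiSeries Fermat.Agent.S36.R3.ThetaJ
open Fermat.Agent.S36.R3.ThetaPow

/-- **chain rule for the modular equation of level 4**: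
`θ τ · c² τ³ d = θ j · (τ⁴ (τ + 16))²`, `c = τ² + 256 τ + 4096`, `d = (τ + 32)(τ² - 512 τ - 8192)`. -/
theorem thetaL_tau_chain (R : Type*) [CommRing R] (τ : LaurentSeries R)
    (hτ : jqModC R * (τ ^ 4 * (τ + 16)) = (τ ^ 2 + 256 * τ + 4096) ^ 3) :
    thetaL τ * ((τ ^ 2 + 256 * τ + 4096) ^ 2 * τ ^ 3 *
      ((τ + 32) * (τ ^ 2 - 512 * τ - 8192))) = thetaL (jqModC R) * (τ ^ 4 * (τ + 16)) ^ 2 := by
  have hθ : thetaL (jqModC R) * (τ ^ 4 * (τ + 16)) +
      jqModC R * ((4 * τ ^ 3 * (τ + 16) + τ ^ 4) * thetaL τ) =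
      3 * (τ ^ 2 + 256 * τ + 4096) ^ 2 * ((2 * τ + 256) * thetaL τ) := by
    have h := congrArg thetaL hτ
    rw [thetaL_mul, thetaL_mul, thetaL_pow', thetaL_pow', thetaL_add, thetaL_add, thetaL_add,
      thetaL_mul, thetaL_pow', thetaL_ofNat, thetaL_ofNat, thetaL_ofNat] at h
    norm_num at h
    linear_combination h
  linear_combination (-(τ ^ 4 * (τ + 16))) * hθ +
    ((4 * τ ^ 3 * (τ + 16) + τ ^ 4) * thetaL τ) * hτ

variable (K : Type*) [Field K] [CharP K 3]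

/-- **characteristic `3`**: `θ τ · (τ - 1) = -τ (τ + 16)`. -/
theorem thetaL_tau_three (τ : LaurentSeries K)
    (hτ : jqModC K * (τ ^ 4 * (τ + 16)) = (τ ^ 2 + 256 * τ + 4096) ^ 3) :
    thetaL τ * (τ - 1) = -(τ * (τ + 16)) := by
  have h3K : ((3 : ℕ) : K) = 0 := CharP.cast_eq_zero K 3
  have h3 : (3 : LaurentSeries K) = 0 := by
    have h : (HahnSeries.C ((3 : ℕ) : K) : LaurentSeries K) = 0 := by rw [h3K, map_zero]
    rw [map_natCast] at h
    exact_mod_cast h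
  have h2K : (2 : K) ≠ 0 := by
    intro h0
    have h2' : ((2 : ℕ) : K) = 0 := by exact_mod_cast h0
    have := (CharP.cast_eq_zero_iff K 3 2).mp h2'
    omega
  have h2L : (2 : LaurentSeries K) ≠ 0 := by
    intro h0
    apply h2K
    have h : (HahnSeries.C (2 : K) : LaurentSeries K) = 0 := by
      rw [map_ofNat]
      exact h0
    exact (map_eq_zero (HahnSeries.C (Γ := ℤ) (R := K))).mp h
  have hc : τ ^ 2 + 256 * τ + 4096 = (τ - 1) ^ 2 := by
    linear_combination (86 * τ + 1365) * h3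
  have hd : (τ + 32) * (τ ^ 2 - 512 * τ - 8192) = (τ - 1) ^ 3 := by
    linear_combination (-(159 * τ ^ 2 + 8193 * τ + 87381)) * h3
  have hj : jqModC K ≠ 0 := jqModC_ne_zero_of_nontrivial K
  have hτ0 : τ ≠ 0 := by
    intro h0
    rw [h0] at hτ
    have h4096 : (2 : LaurentSeries K) ^ 36 = 0 := by linear_combination -hτ
    exact h2L (pow_eq_zero_iff (by norm_num) |>.mp h4096)
  have hs0 : τ + 16 ≠ 0 := by
    intro h0
    have hτ' : τ = -16 := by linear_combination h0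
    rw [hτ'] at hτ
    have h256 : (2 : LaurentSeries K) ^ 24 = 0 := by linear_combination -hτ
    exact h2L (pow_eq_zero_iff (by norm_num) |>.mp h256)
  have he0 : τ - 1 ≠ 0 := by
    intro h0
    rw [hc, h0] at hτ
    have : jqModC K * (τ ^ 4 * (τ + 16)) = 0 := by rw [hτ]; ring
    exact mul_ne_zero hj (mul_ne_zero (pow_ne_zero _ hτ0) hs0) this
  have hchain := thetaL_tau_chain K τ hτ
  rw [thetaL_jqModC_of_charP K 3 (by norm_num), hc, hd] at hchain
  rw [hc] at hτ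
  have hZ : (τ - 1) ^ 6 * τ ^ 3 ≠ 0 := mul_ne_zero (pow_ne_zero _ he0) (pow_ne_zero _ hτ0)
  apply mul_left_cancel₀ hZ
  linear_combination hchain - (τ ^ 4 * (τ + 16)) * hτ

/-- **characteristic `3`**: `(θ τ)² (τ - 1)² = (τ (τ + 16))²`. -/
theorem thetaL_tau_three_sq (τ : LaurentSeries K)
    (hτ : jqModC K * (τ ^ 4 * (τ + 16)) = (τ ^ 2 + 256 * τ + 4096) ^ 3) :
    thetaL τ ^ (3 - 1) * (τ - 1) ^ 2 = (τ * (τ + 16)) ^ 2 := by
  have h := thetaL_tau_three K τ hτ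
  calc thetaL τ ^ (3 - 1) * (τ - 1) ^ 2 = (thetaL τ * (τ - 1)) ^ 2 := by ring
    _ = _ := by rw [h]; ring

section Residue

open Fermat.Agent.S28.Gauss Fermat.Agent.N4.TwistSeries Fermat.Agent.S36.R3.GaussPi
open Fermat.Agent.S36.R3.ResidueV11

variable {A : Type*} [CommRing A] [IsDomain A] [IsDiscreteValuationRing A]
  {Q : Type*} [Field Q] [Algebra A Q] [IsFractionRing A Q]
  {A' : Type*} [CommRing A'] [IsDomain A'] [IsDiscreteValuationRing A']
  {Q' : Type*} [Field Q'] [Algebra A' Q'] [IsFractionRing A' Q']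
  (φ : A →+* A') [IsLocalHom φ] (ψ : Q →+* Q')
  (hcomp : ψ.comp (algebraMap A Q) = (algebraMap A' Q').comp φ)
  {F2 : Type*} [CommRing F2] (s : F2 →+* LaurentSeries Q')
  (u : A'ˣ) (hu : IsPrimitiveRoot (u : A') 3)
  (hu1 : IsLocalRing.residue A' (u : A') = 1)
  [CharP (IsLocalRing.ResidueField A') 3]

include hcomp hu hu1 in
/-- **`φ = t`, `q = 3`**: the residue of `w_t = Π_t² / 3` on `V11`:
`w̄ · (τ - 1)² = -(τ (τ + 16))²`. -/
theorem residue_sigma_tau_three {g : LaurentSeries Q} (hg : g ∈ gaussRing A Q)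
    (τ : LaurentSeries (IsLocalRing.ResidueField A')) (hgτ : gbar φ hg = τ)
    (hτ : jqModC (IsLocalRing.ResidueField A') * (τ ^ 4 * (τ + 16)) =
      (τ ^ 2 + 256 * τ + 4096) ^ 3)
    (x0 x2 w : F2) (h0 : s x0 = coeffMap ψ g)
    (h2 : s x2 = twist (unitQ Q' u) (coeffMap ψ g))
    (hw : ((3 : ℕ) : F2) * w = (x2 - x0) ^ (3 - 1)) :
    ∃ hm : s w ∈ gaussRing A' Q',
      gaussRed (⟨s w, hm⟩ : gaussRing A' Q') * (τ - 1) ^ 2 = -(τ * (τ + 16)) ^ 2 := by
  have : Fact (Nat.Prime 3) := ⟨Nat.prime_three⟩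
  obtain ⟨hm, hred⟩ := residue_sigma φ ψ hcomp s u hu hu1 hg x0 x2 w h0 h2 hw
  refine ⟨hm, ?_⟩
  rw [hred, hgτ, neg_mul, thetaL_tau_three_sq _ τ hτ]

end Residue

end Fermat.Agent.S36.R3.ThetaTauThree
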